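import Fermat.Agent.GaloisReps.KummerHecke

/-!
# The Atkin–Lehner conjugation commutes with `T_ℓ` on homomorphisms

For `ℓ` prime to `N` the conjugates by `(0, -1; N, 0)` of the representatives of `T_ℓ` are again
representatives, so `atkinHom` commutes with `homT`.
-/

set_option autoImplicit false

noncomputable section

open CongruenceSubgroup
open Matrix.SpecialLinearGroup (mapGL)
open Fermat.Agent.GaloisReps
open P2MW.S_ModularForm_heckeT_slash_eq_self_of_mem_Gamma0.ModularForm.HeckeSlashInvariance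
  (heckeRep)
open scoped MatrixGroups

namespace Fermat.Agent.RT.InertiaTW

variable {N : ℕ} [NeZero N] {ℓ : ℕ}

/-- A permutation of representatives intertwined by the Atkin–Lehner matrix gives commutation. -/
theorem atkinHom_apply_comm {ι : Type} [Fintype ι] (S : Periods.HeckeSystem (Gamma0 N) (Gamma0 N) ι)
    (π : ι → ι) (d : ι → Gamma0 N)
    (hd : ∀ i, atkinGL N * S.rep i = mapGL ℝ (d i : SL(2, ℤ)) * S.rep (π i) * atkinGL N)
    {A : Type} [AddCommGroup A] (φ : Additive (Gamma0 N) →+ A) :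
    atkinHom N A (S.apply φ) = S.apply (atkinHom N A φ) := by
  have hπ : Function.Injective π := by
    intro i j hij
    have hi := hd i
    rw [hij] at hi
    have hj := hd j
    refine S.unique i j (atkinConj N (d i * (d j)⁻¹)) ?_
    refine mul_left_cancel (a := atkinGL N) ?_
    rw [← mul_assoc (atkinGL N), atkinGL_mul, atkinConj_atkinConj, Subgroup.coe_mul, map_mul,
      mul_assoc (mapGL ℝ (d i : SL(2, ℤ)) * _), hj, hi, InvMemClass.coe_inv, map_inv]
    group
  refine AddMonoidHom.ext fun x => ?_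
  obtain ⟨γ, rfl⟩ := Additive.ofMul.surjective x
  rw [atkinHom_apply, S.apply_apply, S.apply_apply]
  have key : ∀ i, S.perm (atkinConj N γ) (π i) = π (S.perm γ i) ∧
      S.cocycle (atkinConj N γ) (π i) =
        (d i)⁻¹ * atkinConj N (S.cocycle γ i) * d (S.perm γ i) := by
    intro i
    refine S.eq_of_spec (mul_left_cancel (a := mapGL ℝ (d i : SL(2, ℤ))) ?_)
    refine mul_right_cancel (b := atkinGL N) ?_
    calc mapGL ℝ (d i : SL(2, ℤ)) * (S.rep (π i) * mapGL ℝ (atkinConj N γ : SL(2, ℤ))) * atkinGL N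
        = mapGL ℝ (d i : SL(2, ℤ)) * S.rep (π i) * atkinGL N * mapGL ℝ (γ : SL(2, ℤ)) := by
          simp only [mul_assoc, atkinGL_mul]
      _ = atkinGL N * (S.rep i * mapGL ℝ (γ : SL(2, ℤ))) := by rw [← hd, mul_assoc]
      _ = atkinGL N * mapGL ℝ (S.cocycle γ i : SL(2, ℤ)) * S.rep (S.perm γ i) := by
          rw [S.spec, mul_assoc]
      _ = mapGL ℝ (atkinConj N (S.cocycle γ i) : SL(2, ℤ)) *
            (mapGL ℝ (d (S.perm γ i) : SL(2, ℤ)) * S.rep (π (S.perm γ i)) * atkinGL N) := by
          rw [atkinGL_mul, mul_assoc, hd]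
      _ = _ := by
          simp only [Subgroup.coe_mul, InvMemClass.coe_inv, map_mul, map_inv, mul_assoc,
            mul_inv_cancel_left]
  rw [← ((Finite.injective_iff_bijective).mp hπ).sum_comp fun i =>
    φ (Additive.ofMul (S.cocycle (atkinConj N γ) i))]
  simp only [(key _).2, ofMul_mul, ofMul_inv, map_add, map_neg, Finset.sum_add_distrib,
    atkinHom_apply, Finset.sum_neg_distrib,
    (S.perm_bijective γ).sum_comp fun i => φ (Additive.ofMul (d i))]
  abel

/-- `atkinHom` commutes with `T_ℓ`. -/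
theorem atkinHom_homT {A : Type} [AddCommGroup A] (hℓ : ℓ.Prime) (hℓN : ¬ ℓ ∣ N)
    (φ : Additive (Gamma0 N) →+ A) :
    atkinHom N A (Periods.homT hℓ hℓN ℤ φ) = Periods.homT hℓ hℓN ℤ (atkinHom N A φ) := by
  have : NeZero ℓ := ⟨hℓ.ne_zero⟩
  have : Fact ℓ.Prime := ⟨hℓ⟩
  have hN : ((N : ℤ) : ZMod ℓ) ≠ 0 := by
    rwa [Int.cast_natCast, Ne, ZMod.natCast_eq_zero_iff]
  -- conjugation by `W_N` permutes the representatives of `T_ℓ` up to `Γ₀(N)`
  have hdec : ∀ i : Option (ZMod ℓ), ∃ (d : Gamma0 N) (j : Option (ZMod ℓ)),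
      atkinGL N * (Periods.systemT hℓ hℓN).rep i =
        mapGL ℝ (d : SL(2, ℤ)) * (Periods.systemT hℓ hℓN).rep j * atkinGL N := by
    rintro (_ | i)
    · refine ⟨1, some 0, ?_⟩
      apply Units.ext
      ext a b
      fin_cases a <;> fin_cases b <;>
        simp [Periods.systemT, coe_atkinGL, Matrix.mul_apply, Fin.sum_univ_two, NeZero.ne ℓ,
          heckeRep, OnePoint.elim, mul_comm]
    by_cases hi : i = 0
    · subst hi
      refine ⟨1, none, ?_⟩
      apply Units.ext
      ext a b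
      fin_cases a <;> fin_cases b <;>
        simp [Periods.systemT, coe_atkinGL, Matrix.mul_apply, Fin.sum_univ_two, NeZero.ne ℓ,
          heckeRep, OnePoint.elim]
    -- the representative `i ≠ 0` goes to `j = -1 / (N i)`
    obtain ⟨j, hj⟩ : ∃ j : ZMod ℓ, (N : ZMod ℓ) * i * j = -1 :=
      ⟨-((N : ZMod ℓ) * i)⁻¹, by
        rw [mul_neg, mul_inv_cancel₀ (mul_ne_zero (by simpa using hN) hi)]⟩
    obtain ⟨t, ht⟩ : (ℓ : ℤ) ∣ (N : ℤ) * i.val * j.val + 1 := by
      rw [← ZMod.intCast_zmod_eq_zero_iff_dvd]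
      push_cast
      rw [ZMod.natCast_zmod_val, ZMod.natCast_zmod_val, hj, neg_add_cancel]
    refine ⟨mkGamma0 N (ℓ : ℤ) (-(j.val : ℤ)) (-((N : ℤ) * i.val)) t (by linear_combination -ht)
      (dvd_mul_right _ _).neg_right, some j, ?_⟩
    have hi' : (Periods.systemT hℓ hℓN).rep (some i) = ModularForm.heckeMatrix ℓ i.val := rfl
    have hj' : (Periods.systemT hℓ hℓN).rep (some j) = ModularForm.heckeMatrix ℓ j.val := rfl
    rw [hi', hj']
    generalize i.val = iv at ht ⊢
    generalize j.val = jv at ht ⊢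
    have ht' : (N : ℝ) * iv * jv + 1 = ℓ * t := by exact_mod_cast ht
    apply Units.ext
    ext a b
    fin_cases a <;> fin_cases b <;>
      simp [Units.val_mul, coe_mkGamma0, coe_atkinGL, Matrix.mul_apply,
        Fin.sum_univ_two, NeZero.ne ℓ] <;>
      first | ring1 | (left; ring1) | linear_combination ht' | linear_combination -ht' |
        linear_combination (N : ℝ) * ht'
  choose d π hd using hdec
  exact atkinHom_apply_comm (Periods.systemT hℓ hℓN) π d hd φ

end Fermat.Agent.RT.InertiaTW
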