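import Fermat.Agent.Carayol.Inertial
import Fermat.Agent.Carayol.Omega.LatticeJ
import Fermat.Agent.Carayol.Rational
import Mathlib.FieldTheory.Galois.Infinite

/-!
# Functions of level `q²R` with coefficients fixed by tame inertia, in the field of level `q n`

The coefficients lie in the field generated over the fixed field of inertia by `η = ζ ^ n`; the
expansions in `q ^ n` lie in the field of level `q n`, where a diagonal substitution acts as an
automorphism of the constants.
-/

set_option autoImplicit false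

noncomputable section

open ModularCurve
open Fermat.Agent.Arith Fermat.Agent.Carayol.Omega
open Fermat.Agent.Carayol (inertiaField mem_inertiaField CoeffFix ratFieldH)

namespace Fermat.Agent.RT.InertiaTW

/-- The inertia elements fixing `η`. -/
def inertiaFixer (A : ValuationSubring QBar) (η : QBar) : Subgroup GQ :=
  A.inertiaSubgroupIn ℚ ⊓ MulAction.stabilizer GQ η

theorem mem_inertiaFixer {A : ValuationSubring QBar} {η : QBar} {σ : GQ} :
    σ ∈ inertiaFixer A η ↔ σ ∈ A.inertiaSubgroupIn ℚ ∧ σ η = η := Iff.rfl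

/-- An automorphism fixing the inertia field agrees with inertia on every finite Galois
extension. -/
theorem exists_inertia_agree (A : ValuationSubring QBar) {L : IntermediateField ℚ QBar}
    [FiniteDimensional ℚ L] [Normal ℚ L] {τ : GQ}
    (hτ : ∀ x ∈ inertiaField A, τ x = x) :
    ∃ σ ∈ A.inertiaSubgroupIn ℚ, ∀ x ∈ L, σ x = τ x := by
  have : IsGalois ℚ L := ⟨⟩
  set I' : Subgroup (L ≃ₐ[ℚ] L) := (A.inertiaSubgroupIn ℚ).map (AlgEquiv.restrictNormalHom L)
  have hmem : AlgEquiv.restrictNormalHom L τ ∈ I' := by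
    rw [← IntermediateField.fixingSubgroup_fixedField I', IntermediateField.mem_fixingSubgroup_iff]
    intro y hy
    refine Subtype.ext ((AlgEquiv.restrictNormal_commutes τ L y).trans ?_)
    refine hτ _ ((mem_inertiaField A).mpr fun σ hσ => ?_)
    have h := (IntermediateField.mem_fixedField_iff _ _).mp hy _ ⟨σ, hσ, rfl⟩
    exact (AlgEquiv.restrictNormal_commutes σ L y).symm.trans (congrArg Subtype.val h)
  obtain ⟨σ, hσ, he⟩ := hmem
  refine ⟨σ, hσ, fun x hx => ?_⟩
  have h := congrArg (fun g : L ≃ₐ[ℚ] L => ((g ⟨x, hx⟩ : L) : QBar)) he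
  exact ((AlgEquiv.restrictNormal_commutes σ L ⟨x, hx⟩).symm.trans h).trans
    (AlgEquiv.restrictNormal_commutes τ L ⟨x, hx⟩)

/-- What is fixed by the inertia elements fixing `η` is generated by `η` over the inertia field. -/
theorem mem_adjoin_of_fixed (A : ValuationSubring QBar) (η : QBar) {z : QBar}
    (hz : ∀ σ ∈ inertiaFixer A η, σ z = z) :
    z ∈ IntermediateField.adjoin (inertiaField A) {η} := by
  have : IsGalois (inertiaField A) QBar := IsGalois.tower_top_of_isGalois ℚ _ _
  rw [← InfiniteGalois.fixedField_fixingSubgroup (IntermediateField.adjoin (inertiaField A) {η}),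
    IntermediateField.mem_fixedField_iff]
  intro τ hτ
  rw [IntermediateField.mem_fixingSubgroup_iff] at hτ
  let L₀ : IntermediateField ℚ QBar := IntermediateField.adjoin ℚ ({z, η} : Set QBar)
  have : FiniteDimensional ℚ L₀ := IntermediateField.finiteDimensional_adjoin
    fun y _ => Algebra.IsIntegral.isIntegral y
  let L : IntermediateField ℚ QBar := IntermediateField.normalClosure ℚ L₀ QBar
  have : Normal ℚ L := normalClosure.normal ℚ L₀ _
  have hle : L₀ ≤ L := IntermediateField.le_normalClosure L₀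
  obtain ⟨σ, hσ, hag⟩ := exists_inertia_agree A (L := L) (τ := τ.restrictScalars ℚ)
    fun x hx => τ.commutes ⟨x, hx⟩
  have hzL : z ∈ L := hle (IntermediateField.subset_adjoin ℚ _ (Or.inl rfl))
  have hηL : η ∈ L := hle (IntermediateField.subset_adjoin ℚ _ (Or.inr rfl))
  have h1 : σ η = η := (hag η hηL).trans
    (hτ η (IntermediateField.mem_adjoin_simple_self _ η))
  exact (hag z hzL).symm.trans (hz σ (mem_inertiaFixer.mpr ⟨hσ, h1⟩))

theorem moveSet_boxLabels {n : ℕ} [NeZero n] {u v : ℕ} {M : Matrix (Fin 2) (Fin 2) (ZMod n)}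
    (hM : IsUnit M) (h01 : M 0 1 = 0) (h10 : M 1 0 = 0) :
    moveSet M (boxLabels n u v) = boxLabels n u v := by
  classical
  refine Finset.eq_of_subset_of_card_le (fun y hy => ?_) ?_
  · obtain ⟨w, hw, rfl⟩ := Finset.mem_image.mp hy
    obtain ⟨h1, h2⟩ := mem_boxLabels.mp hw
    refine mem_boxLabels.mpr ⟨?_, ?_⟩
    · simp only [vm, h10, mul_zero, add_zero]
      rw [← smul_mul_assoc, h1, zero_mul]
    · simp only [vm, h01, mul_zero, zero_add]
      rw [← smul_mul_assoc, h2, zero_mul]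
  · rw [moveSet, Finset.card_image_of_injective _ (vm_injective hM)]

variable {q n R : ℕ} [NeZero (q * n)] [NeZero n] (hq : q.Prime) (hRn : R ∣ n)
  (E : Setup (q * n) QBar) (k : Type*) [Field k] [Algebra k QBar]

omit [NeZero n] in
include hq hRn in
omit [NeZero (q * n)] in
/-- Every divisor of `q²R` is the index of a box. -/
theorem exists_box {d : ℕ} (hd : d ∣ q ^ 2 * R) :
    ∃ u v : ℕ, u ∣ q * n ∧ v ∣ q * n ∧ q * n / u * v = n * d := by
  obtain ⟨d₁, d₂, h1, h2, rfl⟩ := Nat.dvd_mul.mp hd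
  obtain ⟨a, ha, rfl⟩ := (Nat.dvd_prime_pow hq).mp h1
  have h2n : d₂ ∣ q * n := (h2.trans hRn).trans (dvd_mul_left n q)
  interval_cases a
  · exact ⟨q, d₂, dvd_mul_right q n, h2n,
      by rw [pow_zero, one_mul, Nat.mul_div_cancel_left n hq.pos]⟩
  · exact ⟨1, d₂, one_dvd _, h2n, by rw [Nat.div_one, pow_one]; ring⟩
  · exact ⟨1, q * d₂, one_dvd _, Nat.mul_dvd_mul_left q (h2.trans hRn),
      by rw [Nat.div_one]; ring⟩

variable {k}

omit [NeZero n] in
/-- Constants generated by `ζ ^ n` lie in the field and move by the Galois action. -/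
private theorem C_mem_field {z : QBar} (hz : z ∈ IntermediateField.adjoin k {E.ζ ^ n}) :
    ∃ h : (HahnSeries.C z : LaurentSeries QBar) ∈ E.field k,
      ∀ (e : E.field k ≃ₐ[k] E.field k) (M : Matrix (Fin 2) (Fin 2) (ZMod (q * n))) (σ : GQ),
        E.Moves k e M →
        (∀ c : k, σ (algebraMap k QBar c) = algebraMap k QBar c) →
        σ (E.ζ ^ n) = E.ζ ^ (M.det * (n : ZMod (q * n))).val →
          ((e ⟨_, h⟩ : E.field k) : LaurentSeries QBar) = HahnSeries.C (σ z) := by
  induction hz using IntermediateField.adjoin_induction with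
  | mem z hz =>
    obtain rfl : z = E.ζ ^ n := hz
    have e0 : E.ζ ^ n = E.ζ ^ ((n : ZMod (q * n))).val :=
      E.zeta_pow_congr (ZMod.natCast_zmod_val _).symm
    refine ⟨e0 ▸ E.zetaS_mem (n : ZMod (q * n)), fun e M σ he _ hσ => ?_⟩
    obtain ⟨-, hzM, -⟩ := he
    rw [hσ, show (⟨HahnSeries.C (E.ζ ^ n), _⟩ : E.field k) = E.fz k (n : ZMod (q * n)) from
      Subtype.ext (congrArg HahnSeries.C e0), hzM]
    rfl
  | algebraMap c =>
    refine ⟨by rw [← algebraMap_laurent_comp]; exact (E.field k).algebraMap_mem c,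
      fun e M σ _ hk _ => ?_⟩
    rw [show (⟨HahnSeries.C (algebraMap k QBar c), _⟩ : E.field k)
      = algebraMap k (E.field k) c from Subtype.ext (algebraMap_laurent_comp c).symm,
      e.commutes, hk c]
    exact algebraMap_laurent_comp c
  | add a b _ _ ha hb =>
    obtain ⟨h1, g1⟩ := ha
    obtain ⟨h2, g2⟩ := hb
    refine ⟨by rw [map_add]; exact add_mem h1 h2, fun e M σ he hk hσ => ?_⟩
    rw [show (⟨HahnSeries.C (a + b), _⟩ : E.field k) = ⟨_, h1⟩ + ⟨_, h2⟩ from
      Subtype.ext (map_add _ a b), map_add, AddMemClass.coe_add, g1 e M σ he hk hσ,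
      g2 e M σ he hk hσ, map_add, map_add]
  | inv a _ ha =>
    obtain ⟨h1, g1⟩ := ha
    refine ⟨by rw [map_inv₀]; exact inv_mem h1, fun e M σ he hk hσ => ?_⟩
    rw [show (⟨HahnSeries.C a⁻¹, _⟩ : E.field k) = (⟨_, h1⟩)⁻¹ from
      Subtype.ext (map_inv₀ _ a), map_inv₀, IntermediateField.coe_inv, g1 e M σ he hk hσ,
      map_inv₀, map_inv₀]
  | mul a b _ _ ha hb =>
    obtain ⟨h1, g1⟩ := ha
    obtain ⟨h2, g2⟩ := hb
    refine ⟨by rw [map_mul]; exact mul_mem h1 h2, fun e M σ he hk hσ => ?_⟩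
    rw [show (⟨HahnSeries.C (a * b), _⟩ : E.field k) = ⟨_, h1⟩ * ⟨_, h2⟩ from
      Subtype.ext (map_mul _ a b), map_mul, MulMemClass.coe_mul, g1 e M σ he hk hσ,
      g2 e M σ he hk hσ, map_mul, map_mul]

include hq hRn in
/-- The generators expanded in `q ^ n` are box functions, which diagonal substitutions fix. -/
private theorem qExpand_gen_mem_field {P : ZMod (q * n) × ZMod (q * n)} (hP : GoodPt P) {d : ℕ}
    [NeZero d] (hdN : d ∣ q ^ 2 * R) :
    ∃ h : qExpand QBar n (qExpand QBar d (jqModC QBar)) ∈ E.field k,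
      ∀ (e : E.field k ≃ₐ[k] E.field k) (M : Matrix (Fin 2) (Fin 2) (ZMod (q * n))) (σ : GQ),
        E.Moves k e M → M 0 1 = 0 → M 1 0 = 0 →
        (∀ c : k, σ (algebraMap k QBar c) = algebraMap k QBar c) →
        σ (E.ζ ^ n) = E.ζ ^ (M.det * (n : ZMod (q * n))).val →
          ((e ⟨_, h⟩ : E.field k) : LaurentSeries QBar) =
            coeffMap (σ : QBar →+* QBar) (qExpand QBar n (qExpand QBar d (jqModC QBar))) := by
  obtain ⟨u, v, hu, hv, huv⟩ := exists_box hq hRn hdN
  have : NeZero u := ⟨fun h => NeZero.ne (q * n) (Nat.eq_zero_of_zero_dvd (h ▸ hu))⟩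
  have : NeZero v := ⟨fun h => NeZero.ne (q * n) (Nat.eq_zero_of_zero_dvd (h ▸ hv))⟩
  have : NeZero (q * n / u * v) := ⟨huv ▸ mul_ne_zero (NeZero.ne n) (NeZero.ne d)⟩
  have e0 : qExpand QBar n (qExpand QBar d (jqModC QBar)) =
      (E.fJ k hP (boxLabels (q * n) u v) : LaurentSeries QBar) := by
    rw [E.coe_fJ, E.jSer_boxLabels u v hu hv, qExpand_qExpand]
    exact qExpand_congr huv.symm _
  refine ⟨e0 ▸ (E.fJ k hP (boxLabels (q * n) u v)).2, fun e M σ he h01 h10 _ _ => ?_⟩
  rw [show (⟨qExpand QBar n (qExpand QBar d (jqModC QBar)), _⟩ : E.field k)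
    = E.fJ k hP (boxLabels (q * n) u v) from Subtype.ext e0,
    Setup.Moves.apply_fJ' E k he hP, moveSet_boxLabels he.1 h01 h10, ← e0, coeffMap_qExpand,
    coeffMap_qExpand, coeffMap_jqModC]

include hq hRn in
/-- Expansions in `q ^ n` lie in the field, and diagonal substitutions act on them through the
constants. -/
theorem qExpand_mem_field {P : ZMod (q * n) × ZMod (q * n)} (hP : GoodPt P) {H : Subgroup GQ}
    (hH : ∀ z ∈ IntermediateField.fixedField H,
      z ∈ IntermediateField.adjoin k {E.ζ ^ n})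
    {x : LaurentSeries QBar} (hx : x ∈ ratFieldH H (q ^ 2 * R)) :
    ∃ h : qExpand QBar n x ∈ E.field k,
      ∀ (e : E.field k ≃ₐ[k] E.field k) (M : Matrix (Fin 2) (Fin 2) (ZMod (q * n))) (σ : GQ),
        E.Moves k e M → M 0 1 = 0 → M 1 0 = 0 →
        (∀ c : k, σ (algebraMap k QBar c) = algebraMap k QBar c) →
        σ (E.ζ ^ n) = E.ζ ^ (M.det * (n : ZMod (q * n))).val →
          ((e ⟨_, h⟩ : E.field k) : LaurentSeries QBar) =
            coeffMap (σ : QBar →+* QBar) (qExpand QBar n x) := by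
  have hC : ∀ z : QBar, qExpand QBar n (HahnSeries.C z) = HahnSeries.C z := fun z => by
    rw [HahnSeries.C_apply, qExpand_single, mul_zero]
  -- induction on the generators and constants of the level field
  induction hx using IntermediateField.adjoin_induction with
  | mem x hx =>
    obtain ⟨d, hd, hdN, rfl⟩ := hx
    have := hd
    exact qExpand_gen_mem_field hq hRn E hP hdN
  | algebraMap c =>
    obtain ⟨h, g⟩ := C_mem_field E (hH c c.2)
    have e0 : qExpand QBar n (algebraMap _ (LaurentSeries QBar) c) =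
        HahnSeries.C (c : QBar) := by
      rw [IsScalarTower.algebraMap_apply (IntermediateField.fixedField H) QBar (LaurentSeries QBar)]
      exact (congrArg (qExpand QBar n) (algebraMap_laurent_comp (k := QBar) (K := QBar) _)).trans
        (hC _)
    refine ⟨e0 ▸ h, fun e M σ he _ _ hk hσ => ?_⟩
    rw [show (⟨qExpand QBar n (algebraMap _ (LaurentSeries QBar) c), _⟩ : E.field k) = ⟨_, h⟩ from
      Subtype.ext e0, g e M σ he hk hσ, e0, HahnSeries.C_apply, HahnSeries.C_apply,
      coeffMap_single]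
    rfl
  | add a b _ _ ha hb =>
    obtain ⟨h1, g1⟩ := ha
    obtain ⟨h2, g2⟩ := hb
    refine ⟨by rw [map_add]; exact add_mem h1 h2, fun e M σ he h01 h10 hk hσ => ?_⟩
    rw [show (⟨qExpand QBar n (a + b), _⟩ : E.field k) = ⟨_, h1⟩ + ⟨_, h2⟩ from
      Subtype.ext (map_add _ a b), map_add, AddMemClass.coe_add, g1 e M σ he h01 h10 hk hσ,
      g2 e M σ he h01 h10 hk hσ, map_add, map_add]
  | inv a _ ha =>
    obtain ⟨h1, g1⟩ := ha
    refine ⟨by rw [map_inv₀]; exact inv_mem h1, fun e M σ he h01 h10 hk hσ => ?_⟩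
    rw [show (⟨qExpand QBar n a⁻¹, _⟩ : E.field k) = (⟨_, h1⟩)⁻¹ from
      Subtype.ext (map_inv₀ _ a), map_inv₀, IntermediateField.coe_inv,
      g1 e M σ he h01 h10 hk hσ, map_inv₀, map_inv₀]
  | mul a b _ _ ha hb =>
    obtain ⟨h1, g1⟩ := ha
    obtain ⟨h2, g2⟩ := hb
    refine ⟨by rw [map_mul]; exact mul_mem h1 h2, fun e M σ he h01 h10 hk hσ => ?_⟩
    rw [show (⟨qExpand QBar n (a * b), _⟩ : E.field k) = ⟨_, h1⟩ * ⟨_, h2⟩ from
      Subtype.ext (map_mul _ a b), map_mul, MulMemClass.coe_mul, g1 e M σ he h01 h10 hk hσ,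
      g2 e M σ he h01 h10 hk hσ, map_mul, map_mul]

end Fermat.Agent.RT.InertiaTW
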