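import Mathlib.RingTheory.IntegralClosure.IntegrallyClosed
import Mathlib.RingTheory.Filtration
import Mathlib.LinearAlgebra.Matrix.Charpoly.Coeff
import Mathlib.Tactic

/-!
# Divisibility among integral elements over a discrete valuation ring

`DivPow ϖ n x` says that `x` is `ϖ ^ n` times an integral element. Integral elements divisible by
all powers vanish; an eigenvalue of a matrix congruent to one modulo `ϖ ^ n` is congruent to one.
-/

set_option autoImplicit false

open IsLocalRing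

namespace Fermat.Agent.RT.InertiaTW

variable {R : Type*} [CommRing R] {K : Type*} [CommRing K] [Algebra R K]

/-- `x` is `ϖ ^ n` times an integral element. -/
def DivPow (ϖ : R) (n : ℕ) (x : K) : Prop :=
  ∃ y, IsIntegral R y ∧ x = algebraMap R K ϖ ^ n * y

theorem DivPow.mul {ϖ : R} {n : ℕ} {x y : K} (h : DivPow ϖ n x) (hy : IsIntegral R y) :
    DivPow ϖ n (x * y) := by
  obtain ⟨z, hz, rfl⟩ := h
  exact ⟨z * y, hz.mul hy, mul_assoc _ _ _⟩

theorem DivPow.add {ϖ : R} {n : ℕ} {x y : K} (h : DivPow ϖ n x) (h' : DivPow ϖ n y) :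
    DivPow ϖ n (x + y) := by
  obtain ⟨z, hz, rfl⟩ := h
  obtain ⟨z', hz', rfl⟩ := h'
  exact ⟨z + z', hz.add hz', (mul_add _ _ _).symm⟩

/-- `x ^ a - 1` inherits divisibility from `x - 1`. -/
theorem DivPow.pow_sub_one {ϖ : R} {n : ℕ} {x : K} (hx : IsIntegral R x)
    (h : DivPow ϖ n (x - 1)) (a : ℕ) : DivPow ϖ n (x ^ a - 1) := by
  rw [← geom_sum_mul, mul_comm]
  exact h.mul (IsIntegral.sum _ fun i _ => hx.pow i)

/-- If a power prime to the order is congruent to one, so is the element. -/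
theorem DivPow.of_coprime {ϖ : R} {n : ℕ} {x : K} (hx : IsIntegral R x) {r m : ℕ} (hr : x ^ r = 1)
    (hrm : m.Coprime r) (hm : DivPow ϖ n (x ^ m - 1)) : DivPow ϖ n (x - 1) := by
  rcases Nat.eq_zero_or_pos r with rfl | hr0
  · rw [Nat.coprime_zero_right] at hrm
    rwa [hrm, pow_one] at hm
  rcases Nat.lt_or_ge 1 r with h1 | h1
  · obtain ⟨a, -, ha⟩ := Nat.exists_mul_mod_eq_one_of_coprime hrm h1
    have e : x = (x ^ m) ^ a := by
      rw [← pow_mul]
      conv_rhs => rw [← Nat.div_add_mod (m * a) r, ha, pow_add, pow_mul, hr, one_pow, one_mul,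
        pow_one]
    rw [e]
    exact hm.pow_sub_one (hx.pow m) a
  · obtain rfl : r = 1 := by omega
    rw [pow_one] at hr
    rw [hr, sub_self]
    exact ⟨0, isIntegral_zero, (mul_zero _).symm⟩

variable [IsDomain R] [IsIntegrallyClosed R]

section Domain

variable [IsDomain K] (hinj : Function.Injective (algebraMap R K))

include hinj in
/-- Divisibility in the integral closure descends. -/
theorem dvd_of_isIntegral_mul {a b : R} {e : K} (he : IsIntegral R e)
    (h : algebraMap R K a = algebraMap R K b * e) : b ∣ a := by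
  rcases eq_or_ne b 0 with rfl | hb
  · rw [map_zero, zero_mul] at h
    rw [hinj (h.trans (map_zero _).symm)]
  let f : FractionRing R →+* FractionRing K :=
    IsFractionRing.lift (g := (algebraMap K (FractionRing K)).comp (algebraMap R K))
      ((IsFractionRing.injective K (FractionRing K)).comp hinj)
  set F := FractionRing R
  set x : F := algebraMap R F a / algebraMap R F b
  have hf : ∀ r, f (algebraMap R F r) = algebraMap K (FractionRing K) (algebraMap R K r) :=
    fun r => IsFractionRing.lift_algebraMap _ r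
  have hbK : algebraMap K (FractionRing K) (algebraMap R K b) ≠ 0 := fun h0 =>
    hb (hinj ((IsFractionRing.injective K (FractionRing K)
      (h0.trans (map_zero _).symm)).trans (map_zero _).symm))
  have hfx : f x = algebraMap K (FractionRing K) e := by
    rw [map_div₀, hf, hf, div_eq_iff hbK, mul_comm, ← map_mul, ← h]
  obtain ⟨P, hP, hPe⟩ := he
  have hx : IsIntegral R x := by
    refine ⟨P, hP, f.injective ?_⟩
    rw [map_zero, Polynomial.hom_eval₂, show f.comp (algebraMap R F) =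
      (algebraMap K (FractionRing K)).comp (algebraMap R K) from RingHom.ext hf, hfx,
      ← Polynomial.hom_eval₂, hPe, map_zero]
  obtain ⟨y, hy⟩ := IsIntegrallyClosed.isIntegral_iff.mp hx
  refine ⟨y, IsFractionRing.injective R F ?_⟩
  rw [map_mul, hy, mul_div_cancel₀]
  exact fun h0 => hb (IsFractionRing.injective R F (h0.trans (map_zero _).symm))

variable [IsLocalRing R] [IsNoetherianRing R] {ϖ : R} (hϖ : ϖ ∈ maximalIdeal R)

include hϖ in
omit [IsIntegrallyClosed R] [IsDomain R] in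
/-- Separatedness. -/
theorem eq_zero_of_forall_pow_dvd' {a : R} (h : ∀ n : ℕ, ϖ ^ n ∣ a) : a = 0 := by
  have hmem : a ∈ ⨅ n : ℕ, maximalIdeal R ^ n := by
    refine Submodule.mem_iInf _ |>.mpr fun n => ?_
    obtain ⟨y, rfl⟩ := h n
    exact Ideal.mul_mem_right _ _ (Ideal.pow_mem_pow hϖ n)
  rwa [Ideal.iInf_pow_eq_bot_of_isLocalRing _ (maximalIdeal.isMaximal R).ne_top,
    Ideal.mem_bot] at hmem

include hinj hϖ in
/-- An integral element divisible by every power vanishes. -/
theorem eq_zero_of_forall_divPow {x : K} (hx : IsIntegral R x) (h : ∀ n, DivPow ϖ n x) : x = 0 := by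
  by_contra hne
  obtain ⟨P, hP, hP0, hPx⟩ : ∃ P : Polynomial R, P.Monic ∧ P.coeff 0 ≠ 0 ∧
      Polynomial.aeval x P = 0 := by
    obtain ⟨P, hP, hPx⟩ := hx
    obtain ⟨k, Q, hPQ, hQ⟩ : ∃ (k : ℕ) (Q : Polynomial R), P = Polynomial.X ^ k * Q ∧
        Q.coeff 0 ≠ 0 := by
      obtain ⟨Q, hPQ, hQ⟩ :=
        Polynomial.exists_eq_pow_rootMultiplicity_mul_and_not_dvd P hP.ne_zero 0
      rw [map_zero, sub_zero] at hPQ hQ
      exact ⟨_, Q, hPQ, fun h0 => hQ (Polynomial.X_dvd_iff.mpr h0)⟩
    refine ⟨Q, (Polynomial.monic_X_pow k).of_mul_monic_left (hPQ ▸ hP), hQ, ?_⟩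
    rw [← Polynomial.aeval_def, hPQ, map_mul, map_pow, Polynomial.aeval_X] at hPx
    exact (mul_eq_zero.mp hPx).resolve_left (pow_ne_zero _ hne)
  refine hP0 (eq_zero_of_forall_pow_dvd' hϖ fun n => ?_)
  obtain ⟨y, hy, hxy⟩ := h n
  obtain ⟨Q, hQ⟩ := Polynomial.X_dvd_sub_C (p := P)
  have e := congrArg (Polynomial.aeval x) hQ
  rw [map_sub, hPx, Polynomial.aeval_C, map_mul, Polynomial.aeval_X, zero_sub,
    neg_eq_iff_eq_neg] at e
  refine dvd_of_isIntegral_mul hinj (e := -(y * Polynomial.aeval x Q)) (hy.mul ?_).neg ?_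
  · exact (Algebra.adjoin_le (S := integralClosure R K) (Set.singleton_subset_iff.mpr hx))
      (Polynomial.aeval_mem_adjoin_singleton R x)
  · rw [e, map_pow]
    nth_rw 1 [hxy]
    ring

end Domain

/-- A root of unity of `p`-power order congruent to one to high order is one. -/
theorem eq_one_of_divPow_sub_one [IsDomain K] (hinj : Function.Injective (algebraMap R K))
    [IsLocalRing R] [IsNoetherianRing R] {ϖ : R} (hϖ : ϖ ∈ maximalIdeal R) {p : ℕ} (hp : p.Prime)
    (hpR : (p : R) ≠ 0) (a : ℕ) :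
    ∃ n₀ : ℕ, ∀ x : K, x ^ p ^ a = 1 → DivPow ϖ n₀ (x - 1) → x = 1 := by
  obtain ⟨n₀, hn₀⟩ : ∃ n₀ : ℕ, ¬ ϖ ^ n₀ ∣ (p : R) := by
    by_contra! h
    exact hpR (eq_zero_of_forall_pow_dvd' hϖ h)
  refine ⟨n₀, fun x hx h => ?_⟩
  induction a generalizing x with
  | zero => simpa using hx
  | succ a ih =>
    have hxi : IsIntegral R x := IsIntegral.of_pow (Nat.pow_pos hp.pos) (hx ▸ isIntegral_one)
    rw [pow_succ', pow_mul] at hx
    have hxp : x ^ p = 1 := ih _ hx (h.pow_sub_one hxi p)
    by_contra hne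
    have hsum : ∑ i ∈ Finset.range p, x ^ i = 0 :=
      (mul_eq_zero.mp ((geom_sum_mul x p).trans (sub_eq_zero.mpr hxp))).resolve_right
        (sub_ne_zero.mpr hne)
    have hd : DivPow ϖ n₀ (∑ i ∈ Finset.range p, (1 - x ^ i)) := by
      refine Finset.sum_induction _ _ (fun _ _ => DivPow.add) ⟨0, isIntegral_zero,
        (mul_zero _).symm⟩
        fun i _ => ?_
      obtain ⟨y, hy, e⟩ := h.pow_sub_one hxi i
      exact ⟨-y, hy.neg, by rw [mul_neg, ← e, neg_sub]⟩
    rw [Finset.sum_sub_distrib, hsum, sub_zero, Finset.sum_const, Finset.card_range,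
      nsmul_one] at hd
    obtain ⟨y, hy, e⟩ := hd
    exact hn₀ (dvd_of_isIntegral_mul hinj hy (by rw [map_natCast, e, map_pow]))

omit [IsDomain R] [IsIntegrallyClosed R] in
/-- An eigenvalue of an integral matrix is integral. -/
theorem isIntegral_of_mulVec {K : Type*} [Field K] [Algebra R K] (X : Matrix (Fin 2) (Fin 2) R)
    {c : K} {v : Fin 2 → K} (hv : v ≠ 0) (h : (X.map (algebraMap R K)).mulVec v = c • v) :
    IsIntegral R c := by
  refine ⟨X.charpoly, X.charpoly_monic, ?_⟩
  rw [← Polynomial.eval_map, ← Matrix.charpoly_map, Matrix.eval_charpoly]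
  refine Matrix.exists_mulVec_eq_zero_iff.mp ⟨v, hv, ?_⟩
  rw [Matrix.sub_mulVec, h, Matrix.scalar_apply, ← Matrix.smul_one_eq_diagonal, Matrix.smul_mulVec,
    Matrix.one_mulVec, sub_self]

omit [IsDomain R] [IsIntegrallyClosed R] in
/-- An eigenvalue of a matrix congruent to one is congruent to one. -/
theorem divPow_of_mulVec {K : Type*} [Field K] [Algebra R K]
    (hinj : Function.Injective (algebraMap R K)) {ϖ : R} (hϖ0 : ϖ ≠ 0) {n : ℕ}
    (X : Matrix (Fin 2) (Fin 2) R) (hX : ∀ i j, ϖ ^ n ∣ (X - 1) i j) {c : K} {v : Fin 2 → K}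
    (hv : v ≠ 0) (h : (X.map (algebraMap R K)).mulVec v = c • v) : DivPow ϖ n (c - 1) := by
  choose Z hZ using hX
  have h0 : algebraMap R K ϖ ^ n ≠ 0 :=
    pow_ne_zero _ fun e => hϖ0 (hinj (e.trans (map_zero _).symm))
  have hXZ : X.map (algebraMap R K) - 1 =
      algebraMap R K ϖ ^ n • (Matrix.of Z).map (algebraMap R K) := by
    ext i j
    have := congrArg (algebraMap R K) (hZ i j)
    rcases eq_or_ne i j with rfl | hij
    · simpa using this
    · simpa [Matrix.one_apply_ne hij] using this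
  have hZv : ((Matrix.of Z).map (algebraMap R K)).mulVec v =
      ((c - 1) / algebraMap R K ϖ ^ n) • v := by
    have e := congrArg (fun M : Matrix (Fin 2) (Fin 2) K => M.mulVec v) hXZ
    simp only [Matrix.sub_mulVec, h, Matrix.one_mulVec, Matrix.smul_mulVec] at e
    rw [div_eq_inv_mul, mul_smul, sub_smul, one_smul, e, inv_smul_smul₀ h0]
  exact ⟨_, isIntegral_of_mulVec _ hv hZv, (mul_div_cancel₀ _ h0).symm⟩

end Fermat.Agent.RT.InertiaTW
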