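import Fermat.Agent.GaloisReps.JacobianModel
import Fermat.Agent.GaloisReps.Attach
import Fermat.Agent.Deform.Matrix
import Mathlib.LinearAlgebra.Dual.Lemmas

/-!
# Galois on a complex eigenspace of the Hecke operators

On the complex vectors with prescribed eigenvalues at almost all primes the Galois action is killed
by the characteristic polynomials of any two dimensional representation with the same Frobenius
traces and determinants.
-/

set_option autoImplicit false

noncomputable section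

open IsLocalRing
open Fermat.Agent.GaloisReps
open scoped Matrix

namespace Fermat.Agent.RT.InertiaTW

/-- The powers of a root of a characteristic polynomial satisfy the characteristic polynomials of
the powers. -/
theorem quadratic_pow {K : Type*} [CommRing K] {A : Type*} [Ring A] [Algebra K A]
    (X : Matrix (Fin 2) (Fin 2) K) (Y : A) (h : Y * Y - X.trace • Y + X.det • (1 : A) = 0) (i : ℕ) :
    Y ^ i * Y ^ i - (X ^ i).trace • Y ^ i + (X ^ i).det • (1 : A) = 0 := by
  have hX : X * X = X.trace • X - X.det • (1 : Matrix (Fin 2) (Fin 2) K) := by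
    ext a b
    fin_cases a <;> fin_cases b <;>
      simp [Matrix.mul_apply, Fin.sum_univ_two, Matrix.trace_fin_two, Matrix.det_fin_two] <;> ring
  have hY : Y * Y = X.trace • Y - X.det • (1 : A) := by
    rw [← sub_eq_zero]
    linear_combination (norm := abel) h
  obtain ⟨u, w, hXi, hYi⟩ : ∃ u w : K, X ^ i = u • X + w • 1 ∧ Y ^ i = u • Y + w • 1 := by
    induction i with
    | zero => exact ⟨0, 1, by simp, by simp⟩
    | succ i ih =>
      obtain ⟨u, w, h1, h2⟩ := ih
      refine ⟨u * X.trace + w, -(u * X.det), ?_, ?_⟩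
      · rw [pow_succ, h1, add_mul, smul_mul_assoc, smul_mul_assoc, one_mul, hX]
        module
      · rw [pow_succ, h2, add_mul, smul_mul_assoc, smul_mul_assoc, one_mul, hY]
        module
  have ht : (u • X + w • (1 : Matrix (Fin 2) (Fin 2) K)).trace = u * X.trace + 2 * w := by
    simp [Matrix.trace_fin_two]
    ring
  have hd : (u • X + w • (1 : Matrix (Fin 2) (Fin 2) K)).det =
      u * u * X.det + u * w * X.trace + w * w := by
    simp [Matrix.trace_fin_two, Matrix.det_fin_two]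
    ring
  rw [hXi, hYi, ht, hd]
  simp only [add_mul, mul_add, smul_mul_assoc, mul_smul_comm, one_mul, mul_one, hY]
  module

/-- The characteristic polynomial at a matrix is natural. -/
theorem map_charPolyAt {R R' : Type*} [CommRing R] [CommRing R'] {d : ℕ} (f : R →+* R')
    (M : Matrix (Fin d) (Fin d) R) (X : Matrix (Fin 2) (Fin 2) R) :
    f.mapMatrix (M * M - X.trace • M + X.det • (1 : Matrix (Fin d) (Fin d) R)) =
      f.mapMatrix M * f.mapMatrix M - (f.mapMatrix X).trace • f.mapMatrix M +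
        (f.mapMatrix X).det • (1 : Matrix (Fin d) (Fin d) R') := by
  have hs : ∀ (c : R) (Y : Matrix (Fin d) (Fin d) R), f.mapMatrix (c • Y) = f c • f.mapMatrix Y :=
    fun c Y => by
      ext a b
      simp
  rw [map_add, map_sub, map_mul, hs, hs, map_one, RingHom.map_det, RingHom.mapMatrix_apply f X,
    AddMonoidHom.map_trace]

section eigen

variable (N : ℕ) [NeZero N] (S : Finset ℕ) (b : ℕ → ℂ)

/-- The vectors with eigenvalue `b ℓ` at every prime outside `S`. -/
def eigenVecs : Submodule ℂ (Fin (2 * Gamma0.genus N) → ℂ) :=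
  ⨅ (ℓ : ℕ) (hℓ : ℓ.Prime) (_ : ℓ ∉ S),
    LinearMap.ker (((opMat N ℓ hℓ).map (Int.castRingHom ℂ)).mulVecLin - b ℓ • LinearMap.id)

theorem mem_eigenVecs {ξ : Fin (2 * Gamma0.genus N) → ℂ} :
    ξ ∈ eigenVecs N S b ↔ ∀ (ℓ : ℕ) (hℓ : ℓ.Prime), ℓ ∉ S →
      ((opMat N ℓ hℓ).map (Int.castRingHom ℂ)) *ᵥ ξ = b ℓ • ξ := by
  simp only [eigenVecs, Submodule.mem_iInf, LinearMap.mem_ker, LinearMap.sub_apply,
    Matrix.mulVecLin_apply, LinearMap.smul_apply, LinearMap.id_apply, sub_eq_zero]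

variable {N S b} {p : ℕ} [Fact p.Prime] (E : TorsionIso N p) (G : TorsionGalois N p)

theorem map_opMat {C : Type} [CommRing C] (ι : ℤ_[p] →+* C) (ℓ : ℕ) (hℓ : ℓ.Prime) :
    ((opMat N ℓ hℓ).map (Int.castRingHom ℤ_[p])).map ι =
      (opMat N ℓ hℓ).map (Int.castRingHom C) := by
  ext i j
  simp

include G in
theorem gal_mulVec_mem (ι : ℤ_[p] →+* ℂ) (σ : AbsGal) {ξ : Fin (2 * Gamma0.genus N) → ℂ}
    (hξ : ξ ∈ eigenVecs N S b) : ((E.gal σ).map ι) *ᵥ ξ ∈ eigenVecs N S b := by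
  rw [mem_eigenVecs] at hξ ⊢
  intro ℓ hℓ hℓS
  have h := congrArg (fun M : Matrix _ _ ℤ_[p] => M.map ι) (E.gal_commute_opMat G σ ℓ hℓ).eq
  simp only [Matrix.map_mul, map_opMat] at h
  rw [Matrix.mulVec_mulVec, ← h, ← Matrix.mulVec_mulVec, hξ ℓ hℓ hℓS, Matrix.mulVec_smul]

/-- Galois on the eigenvectors. -/
def eigenHom (ι : ℤ_[p] →+* ℂ) : AbsGal →* Module.End ℂ (eigenVecs N S b) where
  toFun σ := ((E.gal σ).map ι).mulVecLin.restrict fun _ hξ => gal_mulVec_mem E G ι σ hξ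
  map_one' := LinearMap.ext fun ξ => Subtype.ext <| by
    show ((E.gal 1).map ι) *ᵥ ξ.1 = ξ.1
    rw [map_one, Matrix.map_one _ (map_zero ι) (map_one ι), Matrix.one_mulVec]
  map_mul' σ τ := LinearMap.ext fun ξ => Subtype.ext <| by
    show ((E.gal (σ * τ)).map ι) *ᵥ ξ.1 = ((E.gal σ).map ι) *ᵥ (((E.gal τ).map ι) *ᵥ ξ.1)
    rw [map_mul, Matrix.map_mul, Matrix.mulVec_mulVec]

theorem coe_eigenHom (ι : ℤ_[p] →+* ℂ) (σ : AbsGal) (ξ : eigenVecs N S b) :
    (eigenHom E G ι σ ξ : Fin (2 * Gamma0.genus N) → ℂ) = ((E.gal σ).map ι) *ᵥ ξ.1 := rfl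

theorem eigenHom_frobenius (ι : ℤ_[p] →+* ℂ) (hS : ∀ ℓ : ℕ, ℓ.Prime → ℓ ∣ N * p → ℓ ∈ S)
    {ℓ : ℕ} (hℓ : ℓ.Prime) (hℓS : ℓ ∉ S) {A : ValuationSubring (AlgebraicClosure ℚ)}
    (hA : A.LiesOverPrime ℓ) {σ : AbsGal} (hσ : A.IsFrobeniusAt σ ℓ) :
    (eigenHom (S := S) (b := b) E G ι σ) * eigenHom E G ι σ - b ℓ • eigenHom E G ι σ +
      (ℓ : ℂ) • (1 : Module.End ℂ (eigenVecs N S b)) = 0 := by
  refine LinearMap.ext fun ξ => Subtype.ext ?_
  have h := congrArg (fun M : Matrix _ _ ℤ_[p] => (M.map ι) *ᵥ ξ.1)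
    (E.gal_frobenius G ℓ hℓ (fun h => hℓS (hS ℓ hℓ h)) A hA σ hσ)
  simp only [matIn_apply, latticeMat_heckeOp, Matrix.map_add ι (map_add ι),
    Matrix.map_sub ι (map_sub ι), Matrix.map_mul, map_opMat, Matrix.map_zero ι (map_zero ι),
    Matrix.zero_mulVec, Matrix.add_mulVec, Matrix.sub_mulVec, ← Matrix.mulVec_mulVec] at h
  rw [← coe_eigenHom E G, (mem_eigenVecs N S b).mp (eigenHom E G ι σ ξ).2 ℓ hℓ hℓS,
    ← coe_eigenHom E G] at h
  have e : (((ℓ : ℤ_[p]) • (1 : Matrix (Fin (2 * Gamma0.genus N)) (Fin (2 * Gamma0.genus N))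
      ℤ_[p])).map ι) *ᵥ ξ.1 = (ℓ : ℂ) • ξ.1 := by
    rw [← Matrix.one_mulVec ξ.1, ← Matrix.smul_mulVec, Matrix.one_mulVec]
    congr 1
    ext i j
    by_cases hij : i = j <;> simp [hij]
  rw [e] at h
  simpa using h

variable {O : Type} [CommRing O] [IsDomain O] [IsDiscreteValuationRing O]

/-- Matrices congruent to the identity modulo `p ^ n` are congruent modulo `m ^ n`. -/
theorem mk_mapMatrix_eq_one {d n : ℕ} (ιO : ℤ_[p] →+* O) (hpO : (p : O) ∈ maximalIdeal O)
    {X : Matrix (Fin d) (Fin d) ℤ_[p]} (h : X.map (PadicInt.toZModPow n) = 1) :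
    ((Ideal.Quotient.mk (maximalIdeal O ^ n)).comp ιO).mapMatrix X = 1 := by
  ext i j
  have hij := congrFun (congrFun h i) j
  have hker : X i j - (1 : Matrix (Fin d) (Fin d) ℤ_[p]) i j ∈ Ideal.span {(p : ℤ_[p]) ^ n} := by
    rw [← PadicInt.ker_toZModPow, RingHom.mem_ker, map_sub, sub_eq_zero]
    rw [Matrix.map_apply] at hij
    rw [hij]
    by_cases e : i = j <;> simp [Matrix.one_apply, e]
  obtain ⟨c, hc⟩ := Ideal.mem_span_singleton'.mp hker
  have h0 : ((Ideal.Quotient.mk (maximalIdeal O ^ n)).comp ιO)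
      (X i j - (1 : Matrix (Fin d) (Fin d) ℤ_[p]) i j) = 0 := by
    rw [← hc, RingHom.comp_apply, Ideal.Quotient.eq_zero_iff_mem, map_mul, map_pow, map_natCast]
    exact Ideal.mul_mem_left _ _ (Ideal.pow_mem_pow hpO n)
  rw [map_sub, sub_eq_zero] at h0
  rw [RingHom.mapMatrix_apply, Matrix.map_apply, h0]
  by_cases e : i = j <;> simp [Matrix.one_apply, e]

include G in
/-- Modulo every power of the maximal ideal, the two representations at `g` agree with their values
at a power of a Frobenius element outside `S`. -/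
private theorem exists_frobenius_pow_congr (ιO : ℤ_[p] →+* O) (hpO : (p : O) ∈ maximalIdeal O)
    (R0 : AbsGal →* Matrix (Fin 2) (Fin 2) O) (hcont : Deform.IsCont R0) (S : Finset ℕ)
    (g : AbsGal) (n : ℕ) :
    ∃ ℓ : ℕ, ℓ.Prime ∧ ℓ ∉ S ∧ ∃ A : ValuationSubring (AlgebraicClosure ℚ), A.LiesOverPrime ℓ ∧
      ∃ σ : AbsGal, A.IsFrobeniusAt σ ℓ ∧ ∃ m : ℕ,
        (Ideal.Quotient.mk (maximalIdeal O ^ n)).mapMatrix ((E.gal (σ ^ m)).map ιO) =
          (Ideal.Quotient.mk (maximalIdeal O ^ n)).mapMatrix ((E.gal g).map ιO) ∧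
        (Ideal.Quotient.mk (maximalIdeal O ^ n)).mapMatrix (R0 (σ ^ m)) =
          (Ideal.Quotient.mk (maximalIdeal O ^ n)).mapMatrix (R0 g) := by
  classical
  obtain ⟨L₁, hL₁, h1⟩ := E.gal_continuous G n
  obtain ⟨L₂, hL₂, h2⟩ := hcont n
  obtain ⟨ℓ, hℓ, hℓS, A, hA, σ, hσ, m, hm⟩ := frobeniusDensity (L₁ ⊔ L₂) inferInstance g S
  refine ⟨ℓ, hℓ, hℓS, A, hA, σ, hσ, m, ?_⟩
  set h := σ ^ m
  have hfix := inv_mul_fixes hm
  let π := Ideal.Quotient.mk (maximalIdeal O ^ n)
  let P₁ : AbsGal →* Matrix (Fin (2 * Gamma0.genus N)) (Fin (2 * Gamma0.genus N))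
      (O ⧸ maximalIdeal O ^ n) := (π.comp ιO).mapMatrix.toMonoidHom.comp E.gal
  let P₂ : AbsGal →* Matrix (Fin 2) (Fin 2) (O ⧸ maximalIdeal O ^ n) :=
    π.mapMatrix.toMonoidHom.comp R0
  have hP₁ : P₁ h = P₁ g := by
    have e : P₁ (g⁻¹ * h) = 1 := mk_mapMatrix_eq_one ιO hpO
      (h1 _ fun x hx => hfix x ((le_sup_left : L₁ ≤ L₁ ⊔ L₂) hx))
    rw [show h = g * (g⁻¹ * h) by group, map_mul, e, mul_one]
  have hP₂ : P₂ h = P₂ g := by
    have e : P₂ (g⁻¹ * h) = 1 := by
      ext a d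
      have := h2 _ (fun x hx => hfix x ((le_sup_right : L₂ ≤ L₁ ⊔ L₂) hx)) a d
      rw [← Ideal.Quotient.eq_zero_iff_mem, map_sub, sub_eq_zero] at this
      show π (R0 (g⁻¹ * h) a d) = _
      rw [this]
      by_cases e : a = d <;> simp [Matrix.one_apply, e]
    rw [show h = g * (g⁻¹ * h) by group, map_mul, e, mul_one]
  have hcomp : ∀ x, π.mapMatrix ((E.gal x).map ιO) = P₁ x := fun x => by
    show ((E.gal x).map ιO).map π = (E.gal x).map (π.comp ιO)
    rw [Matrix.map_map]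
    rfl
  exact ⟨(hcomp h).trans (hP₁.trans (hcomp g).symm), hP₂⟩

variable (ιO : ℤ_[p] →+* O) (j : O →+* ℂ)

/-- The eigenvectors are killed by the characteristic polynomials. -/
theorem eigenHom_quadratic (hj : Function.Injective j) (hpO : (p : O) ∈ maximalIdeal O)
    (R0 : AbsGal →* Matrix (Fin 2) (Fin 2) O) (hcont : Deform.IsCont R0)
    (hS : ∀ ℓ : ℕ, ℓ.Prime → ℓ ∣ N * p → ℓ ∈ S)
    (hfrob : ∀ ℓ : ℕ, ℓ.Prime → ℓ ∉ S → ∀ A : ValuationSubring (AlgebraicClosure ℚ),
      A.LiesOverPrime ℓ → ∀ σ : AbsGal, A.IsFrobeniusAt σ ℓ →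
        j (R0 σ).trace = b ℓ ∧ (R0 σ).det = (ℓ : O))
    (g : AbsGal) :
    (eigenHom (S := S) (b := b) E G (j.comp ιO) g) * eigenHom E G (j.comp ιO) g -
      ((R0 g).map j).trace • eigenHom E G (j.comp ιO) g +
      ((R0 g).map j).det • (1 : Module.End ℂ (eigenVecs N S b)) = 0 := by
  classical
  set r := eigenHom (S := S) (b := b) E G (j.comp ιO) with hr
  let ρC : AbsGal →* Matrix (Fin 2) (Fin 2) ℂ := j.mapMatrix.toMonoidHom.comp R0
  let M : AbsGal → Matrix (Fin (2 * Gamma0.genus N)) (Fin (2 * Gamma0.genus N)) O :=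
    fun h => (E.gal h).map ιO
  let Q : AbsGal → Matrix (Fin (2 * Gamma0.genus N)) (Fin (2 * Gamma0.genus N)) O :=
    fun h => M h * M h - (R0 h).trace • M h +
      (R0 h).det • (1 : Matrix (Fin (2 * Gamma0.genus N)) (Fin (2 * Gamma0.genus N)) O)
  have hQ : ∀ (h : AbsGal) (ξ : eigenVecs N S b),
      ((Q h).map j) *ᵥ ξ.1 =
        ((r h * r h - (ρC h).trace • r h + (ρC h).det • 1) ξ).1 := fun h ξ => by
    have e1 : (M h).map j = (E.gal h).map (j.comp ιO) := by
      rw [Matrix.map_map]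
      rfl
    have e2 : (Q h).map j = (M h).map j * (M h).map j - (ρC h).trace • (M h).map j +
        (ρC h).det • (1 : Matrix (Fin (2 * Gamma0.genus N)) (Fin (2 * Gamma0.genus N)) ℂ) := by
      exact map_charPolyAt j (M h) (R0 h)
    rw [e2, e1, Matrix.add_mulVec, Matrix.sub_mulVec, ← Matrix.mulVec_mulVec, Matrix.smul_mulVec,
      Matrix.smul_mulVec, Matrix.one_mulVec]
    simp [hr, coe_eigenHom]
  -- it suffices that the `O`-matrix `Q g` kills the eigenvectors
  suffices ∀ ξ : eigenVecs N S b, ((Q g).map j) *ᵥ ξ.1 = 0 from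
    LinearMap.ext fun ξ => Subtype.ext ((hQ g ξ).symm.trans (this ξ))
  intro ξ
  funext i
  let K := FractionRing O
  let : Algebra K ℂ := (IsFractionRing.lift (K := K) hj).toAlgebra
  -- test against `K`-linear functionals: after scaling they send `ξ` to a vector `η` over `O`
  refine (Module.forall_dual_apply_eq_zero_iff K _).mp fun lam => ?_
  obtain ⟨c, hc⟩ := IsLocalization.exist_integer_multiples (nonZeroDivisors O) Finset.univ
    fun k => lam (ξ.1 k)
  choose η hη using fun k => hc k (Finset.mem_univ k)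
  have hlam : ∀ h k, algebraMap O K ((Q h *ᵥ η) k) =
      algebraMap O K c * lam ((((Q h).map j) *ᵥ ξ.1) k) := fun h k => by
    simp only [Matrix.mulVec, dotProduct, map_sum, Finset.mul_sum, Matrix.map_apply]
    refine Finset.sum_congr rfl fun l _ => ?_
    have e : j (Q h k l) * ξ.1 l = algebraMap O K (Q h k l) • ξ.1 l := by
      rw [Algebra.smul_def]
      exact congrArg (· * ξ.1 l) (IsFractionRing.lift_algebraMap hj _).symm
    rw [e, map_smul, map_mul, hη, Algebra.smul_def, smul_eq_mul]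
    ring
  -- `Q g *ᵥ η` lies in every power of the maximal ideal, as `Q` kills `η` at Frobenius powers
  have key : Q g *ᵥ η = 0 := by
    funext k
    have hmem : (Q g *ᵥ η) k ∈ ⨅ n : ℕ, maximalIdeal O ^ n :=
      Submodule.mem_iInf _ |>.mpr fun n => by
      obtain ⟨ℓ, hℓ, hℓS, A, hA, σ, hσ, m, hM, hR⟩ :=
        exists_frobenius_pow_congr E G ιO hpO R0 hcont S g n
      set h := σ ^ m with hh
      let π := Ideal.Quotient.mk (maximalIdeal O ^ n)
      have hQπ : π.mapMatrix (Q h) = π.mapMatrix (Q g) := by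
        rw [show π.mapMatrix (Q h) = _ from map_charPolyAt π (M h) (R0 h),
          show π.mapMatrix (Q g) = _ from map_charPolyAt π (M g) (R0 g),
          show π.mapMatrix (M h) = π.mapMatrix (M g) from hM,
          show π.mapMatrix (R0 h) = π.mapMatrix (R0 g) from hR]
      have hQh : Q h *ᵥ η = 0 := by
        funext l
        refine IsFractionRing.injective O K ?_
        rw [hlam, hQ]
        have hY := eigenHom_frobenius (b := b) E G (j.comp ιO) hS hℓ hℓS hA hσ
        obtain ⟨ht, hd⟩ := hfrob ℓ hℓ hℓS A hA σ hσ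
        have ht' : (ρC σ).trace = b ℓ := by
          rw [← ht]
          simp [ρC, Matrix.trace_fin_two]
        have hd' : (ρC σ).det = (ℓ : ℂ) := by
          show (j.mapMatrix (R0 σ)).det = _
          rw [← RingHom.map_det, hd, map_natCast]
        rw [← hr, ← ht', ← hd'] at hY
        have hpow := quadratic_pow (ρC σ) (r σ) hY m
        rw [hh, map_pow, map_pow]
        rw [hpow]
        simp
      rw [← Ideal.Quotient.eq_zero_iff_mem]
      calc π ((Q g *ᵥ η) k) = (π.mapMatrix (Q g) *ᵥ (π ∘ η)) k := RingHom.map_mulVec π _ _ k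
        _ = (π.mapMatrix (Q h) *ᵥ (π ∘ η)) k := by rw [hQπ]
        _ = π ((Q h *ᵥ η) k) := (RingHom.map_mulVec π _ _ k).symm
        _ = 0 := by rw [hQh, Pi.zero_apply, map_zero]
    rwa [Ideal.iInf_pow_eq_bot_of_isLocalRing _ (maximalIdeal.isMaximal O).ne_top,
      Ideal.mem_bot] at hmem
  have h0 := hlam g i
  rw [key, Pi.zero_apply, map_zero] at h0
  exact (mul_eq_zero.mp h0.symm).resolve_left
    ((map_ne_zero_iff _ (IsFractionRing.injective O K)).mpr (nonZeroDivisors.coe_ne_zero c))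

end eigen

end Fermat.Agent.RT.InertiaTW
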