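import Fermat.Agent.RT.InertiaTW.MerMap
import Fermat.Agent.JacTorsion.Main
import Fermat.Agent.ModFun.AtkinLehner

/-!
# Functions on `X₀(N)` in the field of level `q n`

An element of the field of level `q n` with the expansion `f (q ^ n)` of a function `f` on `X₀(N)`
is the meromorphic function `f (τ / q)`.
-/

set_option autoImplicit false

noncomputable section

open UpperHalfPlane hiding I
open Fermat.Agent.ModFun Fermat.Agent.Carayol.Omega Fermat.Agent.JacTorsion
open ModularCurve (coeffMap qExpand)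

namespace Fermat.Agent.RT.InertiaTW

theorem fieldMer_eq_div {n : ℕ} [NeZero n] {K : Type*} [Field K] [CharZero K] (E : Setup n K)
    (k : Type*) [Field k] [Algebra k K] {x : E.field k} {g h : CuspAlg n} (hh : h ≠ 0)
    (hx : coeffMap E.ι (x : LaurentSeries K) * laurentExp n h = laurentExp n g) :
    fieldMer E k x = toMerH n g / toMerH n h := by
  obtain ⟨a, b, hb, hab⟩ := IsFractionRing.div_surjective (A := E.ring) (E.toFrac k x)
  have hb0 : b ≠ 0 := nonZeroDivisors.ne_zero hb
  have e := E.fracSer_toFrac k x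
  rw [← hab, map_div₀, E.fracSer_algebraMap, E.fracSer_algebraMap,
    div_eq_iff (E.toSer_coe_ne_zero hb0)] at e
  have e' := congrArg (coeffMap E.ι) e
  rw [map_mul, E.coeffMap_toSer, E.coeffMap_toSer] at e'
  have key : E.incl a * h = g * E.incl b := laurentExp_injective n (by
    rw [map_mul, map_mul, e', ← hx]; ring)
  have hne : ∀ f : CuspAlg n, f ≠ 0 → toMerH n f ≠ 0 :=
    fun f hf => (map_ne_zero_iff _ (toMerH_injective n)).mpr hf
  have hbc : E.incl (b : E.R) ≠ 0 := fun h0 =>
    hb0 (Subtype.ext (Subtype.ext (congrArg (Subtype.val : CuspAlg n → ℍ → ℂ) h0)))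
  rw [fieldMer_apply, ← hab, fracMer_div]
  refine (div_eq_div_iff (hne _ hbc) (hne _ hh)).mpr ?_
  show toMerH n (E.incl a) * toMerH n h = toMerH n g * toMerH n (E.incl b)
  rw [← map_mul, key, map_mul]

variable {N q n : ℕ} [NeZero N] [NeZero q] [NeZero n]

/-- `f ↦ f (τ/q)` from functions on `X₀(N)` to functions of width `q n`. -/
def shrink (a : Hol N) : CuspAlg (q * n) :=
  Subalgebra.inclusion
    (Nat.mul_comm n q ▸ CuspAlg_le_mul n :
      CuspAlg q ≤ CuspAlg (q * n))
    (compAffine 1 0 q (Subalgebra.inclusion (Hol_le_CuspAlg_one (N := N)) a))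

omit [NeZero N] in
theorem laurentExp_shrink [NeZero (q * n)] (a : Hol N) :
    laurentExp (q * n) (shrink (q := q) (n := n) a) = qExpand ℂ n (qExp N a) := by
  rw [laurentExp_width n (mul_comm n q)
    (compAffine 1 0 q (Subalgebra.inclusion (Hol_le_CuspAlg_one (N := N)) a)) _ rfl,
    laurentExp_compAffine, affineRoot_zero, twist_one, ModularCurve.qExpand_qExpand]
  exact ModularCurve.qExpand_congr (mul_one n) _

omit [NeZero N] [NeZero n] in
theorem shrink_ne_zero {a : Hol N} (ha : a ≠ 0) : shrink (q := q) (n := n) a ≠ 0 := fun h0 => by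
  refine ha (Subtype.ext (funext fun τ => ?_))
  obtain ⟨σ, rfl⟩ := affine_surjective q τ
  exact congrFun (congrArg Subtype.val h0) σ

/-- An element with the expansion of `f` at `q ^ n` is `f (τ / q)`. -/
theorem fieldMer_eq_scale [NeZero (q * n)] (E : Setup (q * n) (AlgebraicClosure ℚ)) (hι : E.ι = ιQ)
    (k : Type*) [Field k] [Algebra k (AlgebraicClosure ℚ)] {x : E.field k}
    {f : ModularCurve.modularFunctionFieldBar N}
    (h : (x : LaurentSeries (AlgebraicClosure ℚ)) =
      qExpand (AlgebraicClosure ℚ) n (f : LaurentSeries (AlgebraicClosure ℚ))) :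
    fieldMer E k x = scaleMer q (e1 N (toC N f)) := by
  obtain ⟨a, b, hb, hab⟩ := exists_div_eq (toC N f)
  have hser : coeffMap ιQ (f : LaurentSeries (AlgebraicClosure ℚ)) * qExp N b = qExp N a := by
    rw [← coe_toC, hab]
    show (qExp N a / qExp N b) * qExp N b = _
    rw [div_mul_cancel₀ _ ((map_ne_zero_iff _ (qExp_injective N)).mpr hb)]
  rw [fieldMer_eq_div E k (g := shrink a) (h := shrink b) (shrink_ne_zero hb) (by
      rw [hι, h, ModularCurve.coeffMap_qExpand, laurentExp_shrink, laurentExp_shrink, ← map_mul,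
        hser]),
    hab, map_div₀ (e1 N), map_div₀, e1_toFC, e1_toFC, scaleMer_algebraMap, scaleMer_algebraMap]
  rfl

end Fermat.Agent.RT.InertiaTW
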