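import Fermat.Agent.Carayol.Rational
import Fermat.Agent.JacTorsion.Kummer

/-!
# Normalised Kummer functions of torsion classes fixed by a group of constant automorphisms

A class fixed by `H` is the class of `div f / m` for a function `f` with leading coefficient one
and coefficients fixed by `H`, unique up to `m`-th powers of such functions.
-/

set_option autoImplicit false

noncomputable section

open ModularCurve AlgebraicCurve
open Fermat.Agent.Arith Fermat.Agent.JacTorsion
open Fermat.Agent.Carayol (leadingCoeff_smul leadingCoeff_algebraMap_mul exists_eq_mul_of_ord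
  eq_of_leadingCoeff CoeffFix coeffFix_iff exists_fixed_repH exists_fixed_funH)

namespace Fermat.Agent.RT.InertiaTW

attribute [local instance 2000] SubalgebraClass.toAlgebra

variable {H : Subgroup GQ} {N : ℕ} [NeZero N] {m : ℕ} [NeZero m]

local notation "FN" => modularFunctionFieldBar N

local notation "gal" σ => arithmeticGalois (L := AlgebraicClosure ℚ) (modularFunctionFieldFull N) σ

variable (H) in
/-- `f` is a normalised Kummer function of `x` with coefficients fixed by `H`. -/
structure IsRepFun (x : JZero N) (f : divGrp QBar FN m) : Prop where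
  coeff : CoeffFix H (((f : FNˣ) : FN) : LaurentSeries QBar)
  lead : (((f : FNˣ) : FN) : LaurentSeries QBar).leadingCoeff = 1
  cls : (toTorsion (Additive.ofMul f) : JZero N) = x

private theorem coe_map_mul {G A : Type*} [CommGroup G] [AddCommGroup A] {S : AddSubgroup A}
    (φ : Additive G →+ S) {f g : G} {x y : A} (hf : (φ (Additive.ofMul f) : A) = x)
    (hg : (φ (Additive.ofMul g) : A) = y) : (φ (Additive.ofMul (f * g)) : A) = x + y := by
  rw [ofMul_mul, map_add, AddSubgroup.coe_add, hf, hg]

private theorem map_mul_inv_eq_zero {G A : Type*} [CommGroup G] [AddCommGroup A]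
    {S : AddSubgroup A} (φ : Additive G →+ S) {f g : G} {x : A}
    (hf : (φ (Additive.ofMul f) : A) = x) (hg : (φ (Additive.ofMul g) : A) = x) :
    φ (Additive.ofMul (f * g⁻¹)) = 0 := Subtype.ext (by
  rw [ofMul_mul, ofMul_inv, map_add, map_neg, AddSubgroup.coe_add, AddSubgroup.coe_neg, hf, hg,
    add_neg_cancel, AddSubgroup.coe_zero])

theorem IsRepFun.mul {x y : JZero N} {f g : divGrp QBar FN m} (hf : IsRepFun H x f)
    (hg : IsRepFun H y g) : IsRepFun H (x + y) (f * g) where
  coeff σ hσ := by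
    rw [Subgroup.coe_mul, Units.val_mul, MulMemClass.coe_mul, map_mul, hf.coeff σ hσ,
      hg.coeff σ hσ]
  lead := by
    rw [Subgroup.coe_mul, Units.val_mul, MulMemClass.coe_mul, HahnSeries.leadingCoeff_mul,
      hf.lead, hg.lead, one_mul]
  cls := coe_map_mul (G := divGrp QBar FN m) (A := Pic0 QBar FN) (toTorsion (K := QBar) (F := FN)
      (m := m)) hf.cls hg.cls

/-- Two such functions differ by an `m`-th power of one with fixed coefficients. -/
theorem IsRepFun.exists_eq_mul_pow {x : JZero N} {f g : divGrp QBar FN m} (hf : IsRepFun H x f)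
    (hg : IsRepFun H x g) :
    ∃ h : FN, h ≠ 0 ∧ CoeffFix H (h : LaurentSeries QBar) ∧
      ((f : FNˣ) : FN) = ((g : FNˣ) : FN) * h ^ m := by
  -- the quotient is an `m`-th power `u ^ m`
  have h0 : toTorsion (Additive.ofMul (f * g⁻¹)) = 0 :=
    map_mul_inv_eq_zero (G := divGrp QBar FN m) (A := Pic0 QBar FN)
      (toTorsion (K := QBar) (F := FN) (m := m)) hf.cls hg.cls
  obtain ⟨u, hu⟩ := (toTorsion_eq_zero_iff _).mp h0
  set l := ((u : FN) : LaurentSeries QBar).leadingCoeff with hl
  have hl0 : l ≠ 0 := HahnSeries.leadingCoeff_ne_zero.mpr fun e => u.ne_zero (Subtype.ext e)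
  have hcl : algebraMap QBar FN l⁻¹ ≠ 0 := by simpa using hl0
  -- normalise `u` to leading coefficient one
  set h := algebraMap QBar FN l⁻¹ * (u : FN) with hh
  have hh0 : h ≠ 0 := mul_ne_zero hcl u.ne_zero
  have hlh : (h : LaurentSeries QBar).leadingCoeff = 1 := by
    rw [hh, leadingCoeff_algebraMap_mul, inv_mul_cancel₀ hl0]
  have hu' : ((f : FNˣ) : FN) = ((g : FNˣ) : FN) * (u : FN) ^ m := by
    have e := congrArg (fun z : FNˣ => (z : FN)) hu
    simp only [powMonoidHom_apply, Units.val_pow_eq_pow_val] at e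
    rw [e, Subgroup.subtype_apply, Subgroup.coe_mul, Units.val_mul, mul_comm ((f : FNˣ) : FN),
      ← mul_assoc, ← Units.val_mul,
      Subgroup.coe_inv, mul_inv_cancel, Units.val_one, one_mul]
  -- its leading coefficient is an `m`-th root of unity
  have hlm : l ^ m = 1 := by
    have e := congrArg (fun z : FN => (z : LaurentSeries QBar).leadingCoeff) hu'
    simp only [MulMemClass.coe_mul, SubmonoidClass.coe_pow, HahnSeries.leadingCoeff_mul, hf.lead,
      hg.lead, one_mul] at e
    have key : ∀ (z : LaurentSeries QBar) (i : ℕ), (z ^ i).leadingCoeff = z.leadingCoeff ^ i := by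
      intro z i
      induction i with
      | zero => simp
      | succ i ih => rw [pow_succ, pow_succ, HahnSeries.leadingCoeff_mul, ih]
    rw [key] at e
    exact e.symm
  have hhm : h ^ m = (u : FN) ^ m := by
    rw [hh, mul_pow, ← map_pow, inv_pow, hlm, inv_one, map_one, one_mul]
  refine ⟨h, hh0, coeffFix_iff.mpr fun σ hσ => ?_, by rw [hhm, hu']⟩
  -- a conjugate of `h` has the same `m`-th power and leading coefficient, so is `h`
  have hsh : ((gal σ) • h) ^ m = h ^ m := by
    show (SemilinearAut.toRingAut (gal σ) h) ^ m = _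
    rw [← map_pow]
    have e : h ^ m = ((f : FNˣ) : FN) / ((g : FNˣ) : FN) := by
      rw [hhm, hu', mul_div_cancel_left₀ _ (Units.ne_zero _)]
    rw [e, map_div₀]
    congr 1
    · exact coeffFix_iff.mp hf.coeff σ hσ
    · exact coeffFix_iff.mp hg.coeff σ hσ
  have hne : (gal σ) • h ≠ 0 := (_root_.map_ne_zero (SemilinearAut.toRingAut (gal σ))).mpr hh0
  obtain ⟨c, hc⟩ := exists_eq_mul_of_ord hne hh0 fun P => by
    have := congrArg P.ord hsh
    rw [FF.ord_pow, FF.ord_pow] at this
    exact mul_left_cancel₀ (Int.natCast_ne_zero.mpr (NeZero.ne m)) this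
  exact eq_of_leadingCoeff hc hh0 (by rw [leadingCoeff_smul, hlh, map_one])

/-- A fixed class has such a function. -/
theorem exists_isRepFun {x : JZero N} (hm : (m : ℤ) • x = 0) (hx : ∀ σ ∈ H, σ • x = x) :
    ∃ f : divGrp QBar FN m, IsRepFun H x f := by
  obtain ⟨D, hD, hfix⟩ := exists_fixed_repH hx
  subst hD
  have hprin : ((m : ℤ) • (D : Divisor QBar FN)).IsPrincipal := by
    have h := (QuotientAddGroup.eq_zero_iff ((m : ℤ) • D)).mp hm
    rwa [AddSubgroup.mem_addSubgroupOf, AddSubgroup.coe_zsmul] at h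
  obtain ⟨f, hf0, hfc, hfl, hford⟩ := exists_fixed_funH hprin fun σ hσ => by
    exact (map_zsmul (DistribSMul.toAddMonoidHom (Divisor QBar FN) (gal σ)) _ _).trans
      (congrArg _ (hfix σ hσ))
  have hmem : Units.mk0 f hf0 ∈ divGrp QBar FN m := fun P => by
    rw [Units.val_mk0, ← hford P, Finsupp.smul_apply, smul_eq_mul]
    exact dvd_mul_right _ _
  refine ⟨⟨_, hmem⟩, hfc, hfl, congrArg Pic0.mk (Subtype.ext ?_)⟩
  refine eq_of_smul_eq (m := m) ?_
  show (m : ℤ) • divQuot ⟨_, hmem⟩ = _
  rw [smul_divQuot]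
  ext P
  rw [FF.div_apply, hford P]
  rfl

/-- The divisor of such a function is fixed. -/
theorem IsRepFun.divQuot_fix {x : JZero N} {f : divGrp QBar FN m} (hf : IsRepFun H x f) {σ : GQ}
    (hσ : σ ∈ H) : (gal σ) • divQuot f = divQuot f := by
  refine Finsupp.ext fun P => ?_
  rw [SemilinearAut.divisor_smul_apply]
  have h1 := SemilinearAut.ord_smul (gal σ) ((gal σ)⁻¹ • P) ((f : FNˣ) : FN)
  rw [smul_inv_smul, coeffFix_iff.mp hf.coeff σ hσ] at h1
  simp only [divQuot, Finsupp.mapRange_apply, FF.div_apply, h1]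

/-- Constant automorphisms normalising `H` carry such functions to such functions. -/
theorem IsRepFun.conj {x : JZero N} {f : divGrp QBar FN m} (hf : IsRepFun H x f) (σ : GQ)
    (hH : ∀ τ ∈ H, σ⁻¹ * τ * σ ∈ H) :
    ∃ g : divGrp QBar FN m, IsRepFun H (σ • x) g ∧
      (((g : FNˣ) : FN) : LaurentSeries QBar) =
        coeffMap (σ : QBar →+* QBar) (((f : FNˣ) : FN) : LaurentSeries QBar) := by
  set y := (gal σ) • ((f : FNˣ) : FN) with hy
  have hy0 : y ≠ 0 :=
    (_root_.map_ne_zero (SemilinearAut.toRingAut (gal σ))).mpr (Units.ne_zero _)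
  have hyord : ∀ P : Place QBar FN, P.ord y = ((gal σ)⁻¹ • P).ord ((f : FNˣ) : FN) := fun P => by
    have := SemilinearAut.ord_smul (gal σ) ((gal σ)⁻¹ • P) ((f : FNˣ) : FN)
    rwa [smul_inv_smul] at this
  have hmem : Units.mk0 y hy0 ∈ divGrp QBar FN m := fun P => by
    rw [Units.val_mk0, hyord]; exact f.2 _
  refine ⟨⟨_, hmem⟩, ⟨fun τ hτ => ?_, ?_, ?_⟩, rfl⟩
  · show coeffMap (τ : QBar →+* QBar) (coeffMap (σ : QBar →+* QBar) _) = coeffMap _ _
    rw [coeffMap_coeffMap]
    conv_rhs => rw [← hf.coeff _ (hH τ hτ), coeffMap_coeffMap]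
    congr 2
    ext z
    simp
  · show (((gal σ) • ((f : FNˣ) : FN) : FN) : LaurentSeries QBar).leadingCoeff = 1
    rw [leadingCoeff_smul, hf.lead, map_one]
  · conv_rhs => rw [← hf.cls]
    show Pic0.mk _ = σ • Pic0.mk _
    rw [galois_smul_pic0_def, SemilinearAut.pic0_smul_mk]
    refine congrArg Pic0.mk (Subtype.ext (Finsupp.ext fun P => ?_))
    show divQuot _ P = ((gal σ) • divQuot f) P
    rw [SemilinearAut.divisor_smul_apply]
    simp only [divQuot, Finsupp.mapRange_apply, FF.div_apply, Units.val_mk0, toMul_ofMul, hyord]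

end Fermat.Agent.RT.InertiaTW
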