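import Fermat.Agent.Carayol.Omega.CuspInst
import Fermat.Agent.RT.InertiaTW.Descend
import Fermat.Agent.RT.InertiaTW.RepFun

/-!
# Kummer functions of twisted classes in the field of level `q n`

The field of level `q n` over the fixed field of inertia; units modulo `m`-th powers with the action
of `GL₂(𝔽_q)`; Kummer functions of classes fixed by tame inertia as such units.
-/

set_option autoImplicit false

noncomputable section

open CongruenceSubgroup ModularCurve AlgebraicCurve WithZero
open Fermat.Agent.Arith Fermat.Agent.JacTorsion Fermat.Agent.Carayol.Omega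
open Fermat.Agent.Carayol
  (TateLevel inertiaField mem_inertiaField Places uPlus uMinus diagElt ratFieldH
  mem_ratFieldH dvd_log_valuationH)
open scoped MatrixGroups

namespace Fermat.Agent.RT.InertiaTW

attribute [local instance 2000] SubalgebraClass.toAlgebra

attribute [local instance] Classical.propDecidable
attribute [local instance 2000] Carayol.Omega.serAlg

/-- A valuation trivial on the base is trivial on algebraic elements. -/
theorem valuation_eq_one_of_isIntegral {k F : Type*} [Field k] [Field F] [Algebra k F]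
    (v : Valuation F ℤᵐ⁰) (hv : ∀ c : k, c ≠ 0 → v (algebraMap k F c) = 1) {x : F} (hx0 : x ≠ 0)
    (hx : IsIntegral k x) : v x = 1 := by
  let f : k →+* v.valuationSubring :=
    (algebraMap k F).codRestrict v.valuationSubring.toSubring fun c => by
      show v (algebraMap k F c) ≤ 1
      rcases eq_or_ne c 0 with rfl | hc
      · rw [map_zero, map_zero]; exact zero_le
      · exact (hv c hc).le
  have key : ∀ y : F, IsIntegral k y → v y ≤ 1 := fun y hy => by
    obtain ⟨P, hP, hPy⟩ := hy
    have hint : IsIntegral v.valuationSubring y := by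
      refine ⟨P.map f, hP.map f, ?_⟩
      rw [Polynomial.eval₂_map]
      exact hPy
    obtain ⟨z, rfl⟩ := IsIntegrallyClosed.isIntegral_iff.mp hint
    exact z.2
  refine le_antisymm (key x hx) ?_
  have h := key x⁻¹ hx.inv
  rw [map_inv₀] at h
  exact (inv_le_one₀ (zero_lt_iff.mpr (v.ne_zero_iff.mpr hx0))).mp h

/-- A root of unity of order `n` over `exp (2πi/n)`. -/
theorem exists_zetaQ (n : ℕ) [NeZero n] : ∃ ζ : QBar, ιQ ζ = ModFun.zetaN n :=
  mem_range_ιQ (IsAlgebraic.of_pow (NeZero.pos n)
    (by rw [(ModFun.isPrimitiveRoot_zetaN n).pow_eq_one]; exact isAlgebraic_one))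

variable (q n : ℕ) [Fact q.Prime] [NeZero (q * n)] [hcop : Fact (q.Coprime n)]

/-- The standard setup of level `q n`. -/
def qbarSetup : Setup (q * n) QBar :=
  ⟨ιQ, (exists_zetaQ (q * n)).choose, (exists_zetaQ (q * n)).choose_spec⟩

/-- The chosen primitive `q`-th root of unity. -/
def etaQ : QBar := (qbarSetup q n).ζ ^ n

omit [Fact (Nat.Prime q)] hcop in
theorem isPrimitiveRoot_etaQ : IsPrimitiveRoot (etaQ q n) q :=
  (qbarSetup q n).isPrimitiveRoot.pow (NeZero.pos _) (mul_comm q n)

omit [NeZero (q * n)] in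
theorem not_dvd_of_coprime : ¬ q ∣ n := fun h =>
  (Fact.out : q.Prime).ne_one (Nat.eq_one_of_dvd_coprimes hcop.out dvd_rfl h)

variable {q n} {A : ValuationSubring QBar} (hA : A.LiesOverPrime q)
  {L : ℕ} (hL : L = 7 ∨ L = 9) (hLn : L ∣ n)

local instance : IsGalois (inertiaField A) QBar := IsGalois.tower_top_of_isGalois ℚ _ _

/-- The field of level `q n`. -/
abbrev levelField (q n : ℕ) [Fact q.Prime] [NeZero (q * n)] (A : ValuationSubring QBar) :
    IntermediateField (inertiaField A) (LaurentSeries QBar) :=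
  (qbarSetup q n).field (inertiaField A)

include hA in
theorem exists_galois_moving : ∀ d : (ZMod q)ˣ, ∃ σ : QBar ≃ₐ[inertiaField A] QBar,
    σ ((qbarSetup q n).ζ ^ q) = (qbarSetup q n).ζ ^ q ∧
      σ ((qbarSetup q n).ζ ^ n) = ((qbarSetup q n).ζ ^ n) ^ (d : ZMod q).val :=
  Carayol.exists_aut_inertiaField hA Fact.out (not_dvd_of_coprime q n)
    (qbarSetup q n).isPrimitiveRoot

/-- Its level structure. -/
def level : TateLevel (inertiaField A) (levelField q n A) :=
  (qbarSetup q n).tateLevel (inertiaField A) hcop.out Fact.out L hL hLn (exists_galois_moving hA)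

/-- The action of `GL₂(𝔽_q)`. -/
def levelAct : GL (Fin 2) (ZMod q) →* (levelField q n A ≃ₐ[inertiaField A] levelField q n A) :=
  (level hA hL hLn).act

theorem levelAct_moves (g : GL (Fin 2) (ZMod q)) :
    (qbarSetup q n).Moves (inertiaField A) (levelAct hA hL hLn g)
      (liftMat hcop.out (g : Matrix (Fin 2) (Fin 2) (ZMod q))) :=
  ((qbarSetup q n).exists_moves_lift (inertiaField A) hcop.out (exists_galois_moving hA)
    g).choose_spec

omit [NeZero (q * n)] in
theorem liftMat_eq_redMat {g : GL (Fin 2) (ZMod q)} {l : SL(2, ℤ)} (hl : l ∈ Gamma n)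
    (h : ∀ i j, ((l i j : ℤ) : ZMod q) = (g : Matrix (Fin 2) (Fin 2) (ZMod q)) j i) :
    liftMat hcop.out (g : Matrix (Fin 2) (Fin 2) (ZMod q)) = redMat (q * n) l := by
  ext i j
  apply (crt hcop.out).injective
  rw [crt_liftMat]
  obtain ⟨h1, h2, h3, h4⟩ := Gamma_mem.mp hl
  refine Prod.ext ?_ ?_
  · simp [redMat, h]
  · fin_cases i <;> fin_cases j <;> simp [redMat, h1, h2, h3, h4]

/-- The matrix of an element as a substitution. -/
theorem levelAct_subst {g : GL (Fin 2) (ZMod q)} {l : SL(2, ℤ)} (hl : l ∈ Gamma n)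
    (h : ∀ i j, ((l i j : ℤ) : ZMod q) = (g : Matrix (Fin 2) (Fin 2) (ZMod q)) j i)
    (x : levelField q n A) :
    ((levelAct hA hL hLn g x : levelField q n A) : LaurentSeries QBar) =
      (qbarSetup q n).substHom (inertiaField A) l x := by
  obtain ⟨e, he, hx⟩ := (qbarSetup q n).exists_moves_subst (inertiaField A) l
  have hM := levelAct_moves hA hL hLn g
  rw [liftMat_eq_redMat hl h] at hM
  rw [hM.ext he, hx]

/-- Translation of units. -/
def actUnit (g : GL (Fin 2) (ZMod q)) : (levelField q n A)ˣ →* (levelField q n A)ˣ :=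
  Units.map (levelAct hA hL hLn g).toRingEquiv.toRingHom.toMonoidHom

theorem coe_actUnit (g : GL (Fin 2) (ZMod q)) (f : (levelField q n A)ˣ) :
    ((actUnit hA hL hLn g f : (levelField q n A)ˣ) : levelField q n A) =
      levelAct hA hL hLn g f := rfl

theorem actUnit_mul (g g' : GL (Fin 2) (ZMod q)) (f : (levelField q n A)ˣ) :
    actUnit hA hL hLn (g * g') f = actUnit hA hL hLn g (actUnit hA hL hLn g' f) :=
  Units.ext (by simp [coe_actUnit, map_mul, AlgEquiv.mul_apply])

variable (q n A) in
/-- Units modulo `m`-th powers, additively. -/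
abbrev ModPow (m : ℕ) : Type :=
  Additive ((levelField q n A)ˣ ⧸
    (powMonoidHom m : (levelField q n A)ˣ →* (levelField q n A)ˣ).range)

/-- The class of a unit. -/
def unitCls (m : ℕ) : Additive (levelField q n A)ˣ →+ ModPow q n A m :=
  MonoidHom.toAdditive (QuotientGroup.mk' _)

omit hcop in
theorem unitCls_eq_iff (m : ℕ) {f g : (levelField q n A)ˣ} :
    unitCls m (Additive.ofMul f) = unitCls m (Additive.ofMul g) ↔
      ∃ h : (levelField q n A)ˣ, f = g * h ^ m := by
  show Additive.ofMul _ = Additive.ofMul _ ↔ _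
  rw [Additive.ofMul.injective.eq_iff, eq_comm]
  simp only [toMul_ofMul, QuotientGroup.mk'_apply, QuotientGroup.eq, MonoidHom.mem_range,
    powMonoidHom_apply]
  constructor
  · rintro ⟨h, hh⟩; exact ⟨h, by rw [hh, mul_inv_cancel_left]⟩
  · rintro ⟨h, rfl⟩; exact ⟨h, by rw [inv_mul_cancel_left]⟩

/-- Translation of classes. -/
def actCls (m : ℕ) (g : GL (Fin 2) (ZMod q)) : ModPow q n A m →+ ModPow q n A m :=
  MonoidHom.toAdditive (QuotientGroup.map _ _ (actUnit hA hL hLn g) fun f hf => by
    obtain ⟨h, rfl⟩ := hf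
    exact ⟨actUnit hA hL hLn g h, (map_pow _ _ _).symm⟩)

theorem actCls_unitCls (m : ℕ) (g : GL (Fin 2) (ZMod q)) (f : (levelField q n A)ˣ) :
    actCls hA hL hLn m g (unitCls m (Additive.ofMul f)) =
      unitCls m (Additive.ofMul (actUnit hA hL hLn g f)) := rfl

theorem actCls_mul (m : ℕ) (g g' : GL (Fin 2) (ZMod q)) (x : ModPow q n A m) :
    actCls hA hL hLn m (g * g') x = actCls hA hL hLn m g (actCls hA hL hLn m g' x) := by
  obtain ⟨x, rfl⟩ := Additive.ofMul.surjective x
  obtain ⟨f, rfl⟩ := QuotientGroup.mk_surjective x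
  exact congrArg (fun u => unitCls m (Additive.ofMul u)) (actUnit_mul hA hL hLn g g' f)

omit hcop in
theorem places_mul {m : ℕ} {f g : (levelField q n A)ˣ} (hf : Places (inertiaField A) m f)
    (hg : Places (inertiaField A) m g) : Places (inertiaField A) m (f * g) := fun v hv => by
  rw [Units.val_mul, map_mul,
    log_mul (v.ne_zero_iff.mpr f.ne_zero) (v.ne_zero_iff.mpr g.ne_zero)]
  exact dvd_add (hf v hv) (hg v hv)

omit hcop in
theorem places_one (m : ℕ) : Places (inertiaField A) m (1 : (levelField q n A)ˣ) := fun v _ => by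
  rw [Units.val_one, map_one, log_one]
  exact dvd_zero _

omit hcop in
theorem places_prod {m : ℕ} {ι : Type*} (s : Finset ι) (f : ι → (levelField q n A)ˣ)
    (h : ∀ i ∈ s, Places (inertiaField A) m (f i)) :
    Places (inertiaField A) m (∏ i ∈ s, f i) :=
  Finset.prod_induction f _ (fun _ _ => places_mul) (places_one m) h

theorem places_actUnit {m : ℕ} {f : (levelField q n A)ˣ} (hf : Places (inertiaField A) m f)
    (g : GL (Fin 2) (ZMod q)) : Places (inertiaField A) m (actUnit hA hL hLn g f) := fun v hv =>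
  hf (v.comap (levelAct hA hL hLn g).toRingEquiv.toRingHom) fun c hc => by
    show v (levelAct hA hL hLn g (algebraMap _ _ c)) = 1
    rw [AlgEquiv.commutes]
    exact hv c hc

/-! ### Kummer functions -/

variable (q n A) in
/-- The inertia elements fixing `η`. -/
abbrev tame : Subgroup GQ := inertiaFixer A (etaQ q n)

omit hcop in
theorem conj_mem_tame {σ τ : GQ} (hσ : σ ∈ A.inertiaSubgroupIn ℚ) (hτ : τ ∈ tame q n A) :
    σ⁻¹ * τ * σ ∈ tame q n A := by
  obtain ⟨hτI, hτη⟩ := mem_inertiaFixer.mp hτ
  refine mem_inertiaFixer.mpr ⟨mul_mem (mul_mem (inv_mem hσ) hτI) hσ, ?_⟩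
  obtain ⟨i, -, hi⟩ := (isPrimitiveRoot_etaQ q n).eq_pow_of_pow_eq_one
    (show σ (etaQ q n) ^ q = 1 by rw [← map_pow, (isPrimitiveRoot_etaQ q n).pow_eq_one, map_one])
  have h1 : τ (σ (etaQ q n)) = σ (etaQ q n) := by rw [← hi, map_pow, hτη]
  show σ⁻¹ (τ (σ (etaQ q n))) = etaQ q n
  rw [h1, ← AlgEquiv.mul_apply, inv_mul_cancel, AlgEquiv.one_apply]

variable {R : ℕ} [NeZero (q ^ 2 * R)] (hRn : R ∣ n)

omit [NeZero (q ^ 2 * R)] in
include hA hL hLn hRn in
theorem qExpand_tame_mem [NeZero n] {x : LaurentSeries QBar}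
    (hx : x ∈ ratFieldH (tame q n A) (q ^ 2 * R)) :
    ∃ h : qExpand QBar n x ∈ levelField q n A,
      ∀ (a d : (ZMod q)ˣ) (σ : GQ), σ ∈ A.inertiaSubgroupIn ℚ →
        σ (etaQ q n) = etaQ q n ^ ((a * d : (ZMod q)ˣ) : ZMod q).val →
          ((levelAct hA hL hLn (diagElt a d) ⟨_, h⟩ : levelField q n A) : LaurentSeries QBar) =
            coeffMap (σ : QBar →+* QBar) (qExpand QBar n x) := by
  have hq : q.Prime := Fact.out
  obtain ⟨h, g⟩ := qExpand_mem_field (k := inertiaField A) hq hRn (qbarSetup q n)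
    (Carayol.Omega.goodPt_markLabel hcop.out (right_ne_zero_of_mul (NeZero.ne (q * n))) hL hLn)
    (H := tame q n A)
    (fun z hz => mem_adjoin_of_fixed A _ ((IntermediateField.mem_fixedField_iff _ _).mp hz)) hx
  refine ⟨h, fun a d σ hσ hη => g _ _ σ (levelAct_moves hA hL hLn _) ?_ ?_
    (fun c => (mem_inertiaField A).mp c.2 σ hσ) ?_⟩
  · exact (crt hcop.out).injective (by
      rw [crt_liftMat, map_zero]
      exact Prod.ext rfl (Matrix.one_apply_ne (by decide)))
  · exact (crt hcop.out).injective (by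
      rw [crt_liftMat, map_zero]
      exact Prod.ext rfl (Matrix.one_apply_ne (by decide)))
  · show σ (etaQ q n) = _
    rw [hη, etaQ, ← pow_mul]
    refine (qbarSetup q n).zeta_pow_congr ((crt hcop.out).injective ?_)
    rw [ZMod.natCast_zmod_val, map_mul, crt_det_liftMat, map_natCast, map_natCast, Nat.cast_mul]
    refine Prod.ext ?_ ?_
    · rw [Prod.fst_mul, Prod.fst_mul, Prod.fst_natCast, Prod.fst_natCast, ZMod.natCast_zmod_val]
      have hdet : ((diagElt a d : GL (Fin 2) (ZMod q)) : Matrix (Fin 2) (Fin 2) (ZMod q)).det =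
          (a : ZMod q) * d := by
        show (!![(a : ZMod q), 0; 0, (d : ZMod q)]).det = _
        rw [Matrix.det_fin_two_of, mul_zero, sub_zero]
      rw [hdet, Units.val_mul, mul_comm]
    · rw [Prod.snd_mul, Prod.snd_mul, Prod.snd_natCast, Prod.snd_natCast, ZMod.natCast_self,
        mul_zero, zero_mul]

variable {m : ℕ} [NeZero m]

/-- The Kummer function of a fixed class as a unit of the field of level `q n`. -/
def repUnit [NeZero n] {x : JZero (q ^ 2 * R)}
    {f : divGrp QBar (modularFunctionFieldBar (q ^ 2 * R)) m} (hf : IsRepFun (tame q n A) x f) :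
    (levelField q n A)ˣ :=
  Units.mk0 ⟨qExpand QBar n (((f : (modularFunctionFieldBar (q ^ 2 * R))ˣ) :
      modularFunctionFieldBar (q ^ 2 * R)) : LaurentSeries QBar),
      (qExpand_tame_mem hA hL hLn hRn (mem_ratFieldH
        ((f : (modularFunctionFieldBar (q ^ 2 * R))ˣ) : modularFunctionFieldBar (q ^ 2 * R)).2
        hf.coeff)).choose⟩
    fun h => Units.ne_zero (f : (modularFunctionFieldBar (q ^ 2 * R))ˣ) (Subtype.ext
      ((map_eq_zero_iff _ (qExpand_injective n)).mp (congrArg Subtype.val h)))

theorem coe_repUnit [NeZero n] {x : JZero (q ^ 2 * R)}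
    {f : divGrp QBar (modularFunctionFieldBar (q ^ 2 * R)) m} (hf : IsRepFun (tame q n A) x f) :
    ((repUnit hA hL hLn hRn hf : levelField q n A) : LaurentSeries QBar) =
      qExpand QBar n (((f : (modularFunctionFieldBar (q ^ 2 * R))ˣ) :
        modularFunctionFieldBar (q ^ 2 * R)) : LaurentSeries QBar) := rfl

/-- Its orders at places over the base are divisible by `m`. -/
theorem places_repUnit [NeZero n] {x : JZero (q ^ 2 * R)}
    {f : divGrp QBar (modularFunctionFieldBar (q ^ 2 * R)) m} (hf : IsRepFun (tame q n A) x f) :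
    Places (inertiaField A) m (repUnit hA hL hLn hRn hf) := by
  intro v hv
  let e : ratFieldH (tame q n A) (q ^ 2 * R) →+* levelField q n A :=
    ((qExpand QBar n).comp (ratFieldH (tame q n A) (q ^ 2 * R)).toSubfield.subtype).codRestrict
      (levelField q n A).toSubfield fun z => (qExpand_tame_mem hA hL hLn hRn z.2).choose
  have hord : ∀ P : Place QBar (modularFunctionFieldBar (q ^ 2 * R)),
      P.ord ((f : (modularFunctionFieldBar (q ^ 2 * R))ˣ) : modularFunctionFieldBar (q ^ 2 * R)) =
        (m : ℤ) * divQuot f P := fun P => by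
    rw [← FF.div_apply, ← smul_divQuot f, Finsupp.smul_apply, smul_eq_mul]
  have key := dvd_log_valuationH (fun σ hσ => hf.divQuot_fix hσ) (Units.ne_zero _) hord
    (mem_ratFieldH ((f : (modularFunctionFieldBar (q ^ 2 * R))ˣ) :
      modularFunctionFieldBar (q ^ 2 * R)).2 hf.coeff) (v.comap e) fun c hc => ?_
  · exact key
  · rw [Valuation.comap_apply]
    refine valuation_eq_one_of_isIntegral v hv
      ((map_ne_zero e).mpr (by simpa using hc)) ?_
    let g : QBar →ₐ[inertiaField A] LaurentSeries QBar :=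
      { (HahnSeries.C : QBar →+* LaurentSeries QBar) with
        commutes' := fun a => (algebraMap_laurent_comp a).symm }
    refine (isIntegral_algHom_iff (levelField q n A).val Subtype.val_injective).mp ?_
    have hz : IsIntegral (inertiaField A) (g (c : QBar)) := by
      have : IsIntegral (inertiaField A) (c : QBar) :=
        (Algebra.IsIntegral.isIntegral (R := ℚ) (c : QBar)).tower_top
      obtain ⟨P, hP, hPz⟩ := this
      exact ⟨P, hP, by rw [← g.comp_algebraMap]; exact (Polynomial.hom_eval₂ P _ g.toRingHom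
        _).symm.trans
                         ((congrArg g hPz).trans (map_zero g))⟩
    refine (congrArg (IsIntegral (inertiaField A)) ?_).mp hz
    show _ = qExpand QBar n (algebraMap _ (LaurentSeries QBar) c)
    rw [IsScalarTower.algebraMap_apply (IntermediateField.fixedField (tame q n A)) QBar
      (LaurentSeries QBar)]
    show HahnSeries.C (c : QBar) = _
    refine Eq.trans ?_ (congrArg (qExpand QBar n) (algebraMap_laurent_comp _).symm)
    show HahnSeries.C (c : QBar) = qExpand QBar n (HahnSeries.C (c : QBar))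
    rw [HahnSeries.C_apply, qExpand_single, mul_zero]

end Fermat.Agent.RT.InertiaTW
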