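import Fermat.Agent.RT.InertiaTW.FuncEmb

/-!
# Monodromy of the roots of elements of the field of level `n`

`KumChar` says that an `m`-th root of an element, as a meromorphic function on `ℍ`, is multiplied
by the roots of unity prescribed by a homomorphism on `Γ(n)`.
-/

set_option autoImplicit false

noncomputable section

open UpperHalfPlane hiding I
open CongruenceSubgroup
open Fermat.Agent.ModFun Fermat.Agent.Carayol.Omega Fermat.Agent.JacTorsion
open ModularCurve (qExpand)
open scoped MatrixGroups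

namespace Fermat.Agent.RT.InertiaTW

variable {n : ℕ} [NeZero n] {K : Type*} [Field K] [CharZero K] (E : Setup n K)
  (k : Type*) [Field k] [Algebra k K] (m : ℕ)

/-- A root of `y` has monodromy `Φ`. -/
def KumChar (y : E.field k) (Φ : Additive (CongruenceSubgroup.Gamma n) →+ ZMod m) : Prop :=
  ∃ r : MerH, r ≠ 0 ∧ r ^ m = fieldMer E k y ∧ ∀ γ : CongruenceSubgroup.Gamma n,
    actMer (γ : SL(2, ℤ)) r = algebraMap ℂ MerH (zetaPow m (Φ (Additive.ofMul γ))) * r

variable {E k m} [NeZero m]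

theorem KumChar.unique {y : E.field k} {Φ Ψ : Additive (CongruenceSubgroup.Gamma n) →+ ZMod m}
    (h : KumChar E k m y Φ) (h' : KumChar E k m y Ψ) : Φ = Ψ := by
  obtain ⟨r, hr0, hr, hrΦ⟩ := h
  obtain ⟨r', -, hr', hrΨ⟩ := h'
  obtain ⟨ζ, -, rfl⟩ := exists_const_mul (NeZero.ne m) hr0 (hr'.trans hr.symm)
  refine AddMonoidHom.ext fun γ => ?_
  obtain ⟨γ, rfl⟩ := Additive.ofMul.surjective γ
  have h2 := hrΨ γ
  rw [map_mul, AlgEquiv.commutes, hrΦ γ, mul_left_comm] at h2
  have hζ : algebraMap ℂ MerH ζ * r ≠ 0 := by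
    intro h0
    rw [h0, zero_pow (NeZero.ne m), ← hr] at hr'
    exact pow_ne_zero m hr0 hr'.symm
  exact eq_of_zetaPow_mul hζ h2

theorem KumChar.mul {y z : E.field k} {Φ Ψ : Additive (CongruenceSubgroup.Gamma n) →+ ZMod m}
    (h : KumChar E k m y Φ) (h' : KumChar E k m z Ψ) : KumChar E k m (y * z) (Φ + Ψ) := by
  obtain ⟨r, hr0, hr, hrΦ⟩ := h
  obtain ⟨r', hr0', hr', hrΨ⟩ := h'
  refine ⟨r * r', mul_ne_zero hr0 hr0', by rw [mul_pow, hr, hr', map_mul], fun γ => ?_⟩
  rw [map_mul, hrΦ, hrΨ, AddMonoidHom.add_apply, zetaPow_add, map_mul]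
  ring

variable (E k m) in
omit [NeZero m] in
theorem kumChar_one : KumChar E k m 1 0 :=
  ⟨1, one_ne_zero, by rw [one_pow, map_one], fun γ => by simp [zetaPow_zero]⟩

theorem KumChar.prod {ι : Type*} (s : Finset ι) {y : ι → E.field k}
    {Φ : ι → Additive (CongruenceSubgroup.Gamma n) →+ ZMod m}
    (h : ∀ i ∈ s, KumChar E k m (y i) (Φ i)) : KumChar E k m (∏ i ∈ s, y i) (∑ i ∈ s, Φ i) := by
  classical
  induction s using Finset.induction_on with
  | empty => simpa using kumChar_one E k m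
  | insert a s ha ih =>
    rw [Finset.prod_insert ha, Finset.sum_insert ha]
    exact (h a (Finset.mem_insert_self a s)).mul (ih fun i hi => h i (Finset.mem_insert_of_mem hi))

theorem KumChar.pow {y : E.field k} {Φ : Additive (CongruenceSubgroup.Gamma n) →+ ZMod m}
    (h : KumChar E k m y Φ) (d : ℕ) : KumChar E k m (y ^ d) (d • Φ) := by
  induction d with
  | zero => simpa using kumChar_one E k m
  | succ d ih => rw [pow_succ, succ_nsmul]; exact ih.mul h

omit [NeZero m] in
/-- Substitution conjugates the monodromy. -/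
theorem KumChar.subst {y z : E.field k} {Φ : Additive (CongruenceSubgroup.Gamma n) →+ ZMod m}
    (h : KumChar E k m y Φ) (l : SL(2, ℤ))
    (hz : (z : LaurentSeries K) = E.substHom k l y) :
    KumChar E k m z (conjHomG l Φ) := by
  obtain ⟨r, hr0, hr, hrΦ⟩ := h
  refine ⟨actMer l r, (map_ne_zero _).mpr hr0, ?_, fun γ => ?_⟩
  · rw [← map_pow, hr, fieldMer_subst E k l hz]
  · have e : actMer (γ : SL(2, ℤ)) (actMer l r) = actMer l (actMer (l * γ * l⁻¹) r) := by
      rw [← actMer_mul, ← actMer_mul, inv_mul_cancel_right]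
    rw [e, hrΦ ⟨l * γ * l⁻¹, (Gamma_normal n).conj_mem _ γ.2 l⟩, map_mul, AlgEquiv.commutes,
      conjHomG_apply]

omit [NeZero m] in
/-- Powers have trivial monodromy. -/
theorem kumChar_pow_self {h : E.field k} (h0 : h ≠ 0) : KumChar E k m (h ^ m) 0 :=
  ⟨fieldMer E k h, (map_ne_zero _).mpr h0, (map_pow _ _ _).symm, fun γ => by
    rw [actMer_fieldMer E k γ.2, AddMonoidHom.zero_apply, zetaPow_zero, map_one, one_mul]⟩

/-- Constants have trivial monodromy. -/
theorem kumChar_const {c : k} (hc : c ≠ 0) :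
    KumChar E k m (algebraMap k (E.field k) c) 0 := by
  obtain ⟨d, hd⟩ := IsAlgClosed.exists_pow_nat_eq (E.ι (algebraMap k K c))
    (Nat.pos_of_ne_zero (NeZero.ne m))
  have hd0 : d ≠ 0 := by
    rintro rfl
    rw [zero_pow (NeZero.ne m), eq_comm, map_eq_zero, map_eq_zero] at hd
    exact hc hd
  refine ⟨algebraMap ℂ MerH d, (map_ne_zero _).mpr hd0, ?_, fun γ => ?_⟩
  · rw [← map_pow, hd, fieldMer_algebraMap]
  · rw [AlgEquiv.commutes, AddMonoidHom.zero_apply, zetaPow_zero, map_one, one_mul]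

section FunctionField

variable {N q n' : ℕ} [NeZero N] [NeZero q] [NeZero n'] [NeZero (q * n')]
  (E' : Setup (q * n') (AlgebraicClosure ℚ)) (hι : E'.ι = ιQ)
  (k' : Type*) [Field k'] [Algebra k' (AlgebraicClosure ℚ)]

include hι

/-- The monodromy of a Kummer function of a torsion class, at level `q n`. -/
theorem kumChar_toTorsion {x : E'.field k'}
    (f : divGrp (AlgebraicClosure ℚ) (ModularCurve.modularFunctionFieldBar N) m)
    (h : (x : LaurentSeries (AlgebraicClosure ℚ)) = qExpand (AlgebraicClosure ℚ) n'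
      (((f : (ModularCurve.modularFunctionFieldBar N)ˣ) : ModularCurve.modularFunctionFieldBar N) :
        LaurentSeries (AlgebraicClosure ℚ)))
    (hres : ∀ γ : CongruenceSubgroup.Gamma (q * n'), rescale q n' γ ∈ Gamma0 N) :
    KumChar E' k' m x ((torsionEquiv N m (toTorsion (Additive.ofMul f))).1.comp
      (MonoidHom.toAdditive ((rescale q n').codRestrict (Gamma0 N) hres))) := by
  obtain ⟨H₀, b, C, -, -, -, -, hroot⟩ := exists_root
    (Units.ne_zero ((divGrpToC N m f : (FC N)ˣ))) (divGrpToC N m f).2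
  set r := algebraMap HolH MerH H₀ / e1 N (toFC N b)
  have hr0 : r ≠ 0 := root_ne_zero (Units.ne_zero _) hroot
  rw [coe_divGrpToC] at hroot
  refine ⟨scaleMer q r, (map_ne_zero _).mpr hr0, ?_, fun γ => ?_⟩
  · rw [← map_pow, hroot, fieldMer_eq_scale E' hι k' h]
  · rw [actMer_scaleMer (isRescale_rescale γ),
      torsionEquiv_spec N m f r hroot ⟨rescale q n' γ, hres γ⟩, map_mul, scaleMer_const]
    rfl

end FunctionField

end Fermat.Agent.RT.InertiaTW
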