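import Fermat.Agent.RT.InertiaTW.Atkin
import Fermat.Agent.RT.InertiaTW.LevelAction
import Fermat.Agent.RT.InertiaTW.GroupSum

/-!
# The monodromy at level `q n` of coordinates on parabolic homomorphisms

`monoMap ξ` is the homomorphism with coordinates `ξ`, conjugated by the Atkin–Lehner matrix as in
`torsionIso` and pulled back to `Γ(q n)` by rescaling; `twistTrace` is its twist, traced to the
lower unipotents.
-/

set_option autoImplicit false

noncomputable section

open CongruenceSubgroup
open Fermat.Agent.GaloisReps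

namespace Fermat.Agent.RT.InertiaTW

variable {q n N : ℕ} [NeZero (q * n)] [NeZero N]

/-- The homomorphism with given coordinates. -/
def homOfCoord {B : Type} [AddCommGroup B] :
    (Fin (2 * Gamma0.genus N) → B) →+ (Additive (Gamma0 N) →+ B) :=
  AddMonoidHom.mk' (fun ξ => ∑ j, (zmultiplesHom B (ξ j)).comp (dualHom N j)) fun ξ η => by
    refine AddMonoidHom.ext fun γ => ?_
    simp [smul_add, Finset.sum_add_distrib]

theorem homOfCoord_apply {B : Type} [AddCommGroup B] (ξ : Fin (2 * Gamma0.genus N) → B)
    (γ : Additive (Gamma0 N)) : homOfCoord ξ γ = ∑ j, dualHom N j γ • ξ j := by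
  simp [homOfCoord]

theorem homOfCoord_mem {B : Type} [AddCommGroup B]
    (ξ : Fin (2 * Gamma0.genus N) → B) :
    homOfCoord ξ ∈ Gamma0.ellParHoms (Gamma0 N) B :=
  sum_mem fun j _ => comp_mem_ellParHoms _ (dualHom_mem j)

theorem coord_homOfCoord {B : Type} [AddCommGroup B]
    (ξ : Fin (2 * Gamma0.genus N) → B) : coord N B (homOfCoord ξ) = ξ := by
  classical
  funext i
  rw [coord_apply, homOfCoord_apply, Finset.sum_eq_single i]
  · rw [← coord_apply, coord_dualHom, Pi.single_eq_same, one_zsmul]
  · intro j _ hji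
    rw [← coord_apply, coord_dualHom, Pi.single_eq_of_ne hji.symm, zero_zsmul]
  · exact fun h => absurd (Finset.mem_univ i) h

/-- A parabolic homomorphism is determined by its coordinates. -/
theorem homOfCoord_coord {B : Type} [AddCommGroup B] {φ : Additive (Gamma0 N) →+ B}
    (hφ : φ ∈ Gamma0.ellParHoms (Gamma0 N) B) : homOfCoord (coord N B φ) = φ :=
  eq_of_coord (homOfCoord_mem _) hφ (coord_homOfCoord _)

variable (hres : ∀ γ : CongruenceSubgroup.Gamma (q * n), rescale q n γ ∈ Gamma0 N)

/-- Pulling back along rescaling. -/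
def pullHom {B : Type} [AddCommGroup B] :
    (Additive (Gamma0 N) →+ B) →+ (Additive (CongruenceSubgroup.Gamma (q * n)) →+ B) :=
  AddMonoidHom.mk'
    (fun φ => φ.comp (MonoidHom.toAdditive ((rescale q n).codRestrict (Gamma0 N) hres)))
    fun _ _ => rfl

/-- The monodromy of the class with given coordinates. -/
def monoMap {B : Type} [AddCommGroup B] :
    (Fin (2 * Gamma0.genus N) → B) →+
      (Additive (CongruenceSubgroup.Gamma (q * n)) →+ B) :=
  (pullHom hres).comp ((atkinHom N B).comp homOfCoord)

theorem monoMap_apply {B : Type} [AddCommGroup B] (ξ : Fin (2 * Gamma0.genus N) → B)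
    (γ : CongruenceSubgroup.Gamma (q * n)) :
    monoMap hres ξ (Additive.ofMul γ) =
      homOfCoord ξ (Additive.ofMul (atkinConj N ⟨rescale q n γ, hres γ⟩)) := rfl

theorem comp_monoMap {B C : Type} [AddCommGroup B] [AddCommGroup C] (g : B →+ C)
    (ξ : Fin (2 * Gamma0.genus N) → B) :
    g.comp (monoMap hres ξ) = monoMap hres fun j => g (ξ j) := by
  refine AddMonoidHom.ext fun γ => ?_
  obtain ⟨γ, rfl⟩ := Additive.ofMul.surjective γ
  rw [AddMonoidHom.comp_apply, monoMap_apply, monoMap_apply, homOfCoord_apply, homOfCoord_apply,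
    map_sum]
  exact Finset.sum_congr rfl fun j _ => map_zsmul g _ _

theorem monoMap_smul {R B : Type} [Ring R] [AddCommGroup B] [Module R B] (c : R)
    (ξ : Fin (2 * Gamma0.genus N) → B) :
    monoMap hres (c • ξ) = c • monoMap hres ξ :=
  (comp_monoMap hres (DistribSMul.toAddMonoidHom B c) ξ).symm

variable [Fact q.Prime] [Fact (q.Coprime n)]

/-- The twist of the monodromy, traced to the lower unipotents. -/
def twistTrace (χ : (ZMod q)ˣ →* ℂ) (ξ : Fin (2 * Gamma0.genus N) → ℂ) :
    Additive (CongruenceSubgroup.Gamma (q * n)) →+ ℂ :=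
  lowerTr (q := q) (twistOp χ (monoMap hres ξ))

end Fermat.Agent.RT.InertiaTW
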