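import Fermat.Agent.GaloisReps.Results
import Fermat.Agent.RT.InertiaTW.GeoLevel
import Fermat.Agent.RT.InertiaTW.TorComb
import Fermat.Agent.RT.InertiaTW.Mono
import Fermat.Agent.RT.InertiaTW.KummerChar
import Fermat.Agent.Carayol.Rigid

/-!
# Twisted classes with a foreign inertia character have no monodromy

If tame inertia acts on torsion classes through `θ`, the product of their twisted translates by
`χ ≠ θ^{±1}` is, up to the exponent of the gluing, a constant times a power in the field of level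
`q n`, so its monodromy dies.

Main result: `glueExp_smul_eq_zero`.
-/

set_option autoImplicit false

noncomputable section

open CongruenceSubgroup ModularCurve AlgebraicCurve
open Fermat.Agent.Arith Fermat.Agent.JacTorsion
open Fermat.Agent.Carayol (TateLevel inertiaField Places glueExp uPlus uMinus diagElt inertialBase
  mem_ratFieldH)
open scoped MatrixGroups

namespace Fermat.Agent.RT.InertiaTW

attribute [local instance 2000] SubalgebraClass.toAlgebra HahnSeries.powerSeriesAlgebra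
    IntermediateField.instSMulMemClass
attribute [-instance] IsLocalRing.ResidueField.algebraOfIsIntegral RingHom.Finite.instFinite
    IsScalarTower.of_algHom
    SetLike.GradeZero.instSemiring SetLike.GradeZero.instCommSemiring SetLike.GradeZero.instCommRing
    SetLike.GradeZero.instRing SetLike.GradeZero.instMonoid
      SetLike.GradeZero.instAlgebraSubtypeMemOfNat

attribute [local instance] Classical.propDecidable
attribute [local instance 2000] Carayol.Omega.serAlg

variable {q n R : ℕ} [Fact q.Prime] [NeZero (q * n)] [hcop : Fact (q.Coprime n)]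
  [NeZero (q ^ 2 * R)] (hRn : R ∣ n) {m : ℕ} [NeZero m]
  (hres : ∀ γ : CongruenceSubgroup.Gamma (q * n), rescale q n γ ∈ Gamma0 (q ^ 2 * R))

/-! ## Monodromy of classes and units -/

/-- The monodromy of a torsion class at level `q n`. -/
def classMono :
    Pic0.torsion QBar (modularFunctionFieldBar (q ^ 2 * R)) m →+
      (Additive (CongruenceSubgroup.Gamma (q * n)) →+ ZMod m) :=
  (pullHom hres).comp
    ((Gamma0.ellParHoms (Gamma0 (q ^ 2 * R)) (ZMod m)).subtype.comp
      (torsionEquiv (q ^ 2 * R) m).toAddMonoidHom)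

omit [Fact (Nat.Prime q)] hcop in
/-- The monodromy of a class in the coordinates of the model. -/
theorem classMono_eq {p ν : ℕ} [Fact p.Prime] [NeZero (p ^ ν)]
    (x : GaloisReps.JTors (q ^ 2 * R) p ν) :
    classMono hres x =
      monoMap hres ((GaloisReps.torsionIso (q ^ 2 * R) p (GaloisReps.conjProperty _)).psi ν x) := by
  have h := ((GaloisReps.torsionIso (q ^ 2 * R) p (GaloisReps.conjProperty _)).e ν x).2
  show pullHom hres _ = pullHom hres (GaloisReps.atkinHom _ _ (homOfCoord _))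
  congr 1
  rw [GaloisReps.TorsionIso.psi_apply, homOfCoord_coord h]
  exact (GaloisReps.atkinHom_atkinHom _).symm

variable {A : ValuationSubring QBar} (hA : A.LiesOverPrime q)
  {L : ℕ} (hL : L = 7 ∨ L = 9) (hLn : L ∣ n)

/-- A unit with monodromy, as an element of the field of level `q n`. -/
abbrev HasMono (y : (levelField q n A)ˣ)
    (Φ : Additive (CongruenceSubgroup.Gamma (q * n)) →+ ZMod m) : Prop :=
  KumChar (qbarSetup q n) (inertiaField A) m (y : levelField q n A) Φ

omit hcop in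
theorem hasMono_prod {ι : Type*} (s : Finset ι) {y : ι → (levelField q n A)ˣ}
    {Φ : ι → Additive (CongruenceSubgroup.Gamma (q * n)) →+ ZMod m}
    (h : ∀ i ∈ s, HasMono (y i) (Φ i)) : HasMono (∏ i ∈ s, y i) (∑ i ∈ s, Φ i) := by
  show KumChar _ _ m _ _
  rw [Units.coe_prod]
  exact KumChar.prod s h

omit [NeZero m] in
/-- Translation acts on the monodromy through `SL₂(𝔽_q)`. -/
theorem hasMono_actUnit {y : (levelField q n A)ˣ}
    {Φ : Additive (CongruenceSubgroup.Gamma (q * n)) →+ ZMod m} (hy : HasMono y Φ)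
    {g : GL (Fin 2) (ZMod q)} {s : SL(2, ZMod q)}
    (h : ∀ i j, ((s⁻¹ : SL(2, ZMod q)) : Matrix (Fin 2) (Fin 2) (ZMod q)) i j =
      (g : Matrix (Fin 2) (Fin 2) (ZMod q)) j i) :
    HasMono (actUnit hA hL hLn g y) (s • Φ) :=
  KumChar.subst hy (liftSL (n := n) s⁻¹) (levelAct_subst hA hL hLn (liftSL_mem _)
    (fun i j => by rw [← map_castHom_entry', map_liftSL]; exact h i j) _)
where
  map_castHom_entry' : ∀ {g : SL(2, ℤ)} {i j : Fin 2},
    (Matrix.SpecialLinearGroup.map (Int.castRingHom (ZMod q)) g) i j = ((g i j : ℤ) : ZMod q) :=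
    rfl

/-! ## Twisted sums of translates -/

private theorem torOp_eq_zero {M N : Type*} [AddCommGroup M] [AddCommGroup N] {Y : N →+ M}
    {cc : (ZMod q)ˣ → (ZMod q)ˣ → N} {Φ : GL (Fin 2) (ZMod q) → M}
    (hcc : ∀ a d, Φ (diagElt a d) = Y (cc a d)) (h1 : ∑ x, cc x 1 + ∑ x, cc 1 x = 0)
    (h2 : ∑ a, ∑ d, cc a d = 0) : torOp Φ = 0 := by
  simp only [torOp, hcc, ← map_sum, ← map_add]
  rw [h1, h2, map_zero, zsmul_zero, sub_zero]

private theorem diagElt_mul_eq (a d u : (ZMod q)ˣ) (t : ZMod q) :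
    diagElt a d * (uPlus t * uMinus (-(u : ZMod q))) =
      (uPlus (t * ((d⁻¹ * a : (ZMod q)ˣ) : ZMod q)) *
        uMinus (-((u * (d⁻¹ * a)⁻¹ : (ZMod q)ˣ) : ZMod q))) * diagElt a d := by
  refine Units.ext ?_
  have ha := a.ne_zero
  have hd := d.ne_zero
  show !![(a : ZMod q), 0; 0, (d : ZMod q)] * (!![1, t; 0, 1] * !![1, 0; -(u : ZMod q), 1]) =
    !![1, t * ((d⁻¹ * a : (ZMod q)ˣ) : ZMod q); 0, 1] *
      !![1, 0; -((u * (d⁻¹ * a)⁻¹ : (ZMod q)ˣ) : ZMod q), 1] *
      !![(a : ZMod q), 0; 0, (d : ZMod q)]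
  simp only [mul_inv_rev, inv_inv, Units.val_mul, Units.val_inv_eq_inv_val,
    Matrix.mul_fin_two]
  ext i j
  fin_cases i <;> fin_cases j <;>
    simp only [Fin.zero_eta, Fin.mk_one, Fin.isValue, Matrix.cons_val', Matrix.cons_val_zero,
      Matrix.cons_val_one, Matrix.cons_val_fin_one, Matrix.of_apply] <;>
    field_simp <;> ring

section Units

variable {k k' K : Type*} [Field k] [Field k'] [Field K] [Algebra k K] [Algebra k' K]
  {S : IntermediateField k K} {T : IntermediateField k' K}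

private theorem units_eq_mul (φ : K →+* K) {x y z : T} (e : x = y * z) {a b c : Sˣ}
    (ha : ((a : S) : K) = φ (x : K)) (hb : ((b : S) : K) = φ (y : K))
    (hc : ((c : S) : K) = φ (z : K)) : a = b * c := by
  subst e
  refine Units.ext (Subtype.ext ?_)
  rw [Units.val_mul, MulMemClass.coe_mul, ha, hb, hc, MulMemClass.coe_mul, map_mul]

private theorem units_eq_mul_pow (φ : K →+* K) {x y z : T} {m : ℕ} (e : x = y * z ^ m) {a b c : Sˣ}
    (ha : ((a : S) : K) = φ (x : K)) (hb : ((b : S) : K) = φ (y : K))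
    (hc : ((c : S) : K) = φ (z : K)) : a = b * c ^ m := by
  refine units_eq_mul φ e ha hb ?_
  rw [Units.val_pow_eq_pow_val, SubmonoidClass.coe_pow, hc, SubmonoidClass.coe_pow, map_pow]

end Units

/-- The toric operator kills values on diagonal matrices running over two nontrivial characters. -/
private theorem torOp_eq_zero_of_characters {M : Type*} [AddCommGroup M] {χ θ : (ZMod q)ˣ →* ℂ}
    (hne : θ ≠ χ) (hne' : θ * χ ≠ 1) (Λ : AddSubgroup ℂ)
    (hΛ : ∀ z : ℂ, z ^ (q - 1) = 1 → ∀ c ∈ Λ, z * c ∈ Λ) {Ψ : GL (Fin 2) (ZMod q) → M}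
    (Y : Λ →+ M) (c₀ : Λ)
    (key : ∀ (a d : (ZMod q)ˣ) (c' : Λ), (c' : ℂ) = θ (a * d) * (χ a * χ d⁻¹) * c₀ →
      Ψ (diagElt a d) = Y c') : torOp Ψ = 0 := by
  have : NeZero q := ⟨(Fact.out : q.Prime).ne_zero⟩
  have hroot : ∀ (φ : (ZMod q)ˣ →* ℂ) (u : (ZMod q)ˣ), φ u ^ (q - 1) = 1 := fun φ u => by
    rw [← map_pow, ZMod.units_pow_card_sub_one_eq_one, map_one]
  let α : (ZMod q)ˣ →* ℂ := θ * χ
  let β : (ZMod q)ˣ →* ℂ := θ * χ.comp invMonoidHom
  let cc : (ZMod q)ˣ → (ZMod q)ˣ → Λ := fun a d =>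
    ⟨α a * (β d * c₀), hΛ _ (hroot α a) _ (hΛ _ (hroot β d) _ c₀.2)⟩
  have hcc : ∀ a d, Ψ (diagElt a d) = Y (cc a d) := fun a d => key a d _ (by
    show θ a * χ a * (θ d * χ d⁻¹ * c₀) = _
    rw [map_mul]; ring)
  have hα : ∑ a, α a = 0 := sum_hom_units_eq_zero α hne'
  have hβ : ∑ d, β d = 0 := sum_hom_units_eq_zero β fun h => hne (MonoidHom.ext fun d => by
    have h1 := DFunLike.congr_fun h d
    show θ d = χ d
    have h2 : θ d * χ d⁻¹ = 1 := h1
    calc θ d = θ d * (χ d⁻¹ * χ d) := by rw [← map_mul, inv_mul_cancel, map_one, mul_one]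
      _ = χ d := by rw [← mul_assoc, h2, one_mul])
  have h1 : (∑ x, cc x 1 + ∑ x, cc 1 x) = 0 := Subtype.ext (by
    simp only [AddSubgroup.coe_add, AddSubgroup.val_finsetSum, ZeroMemClass.coe_zero, cc,
      ← Finset.mul_sum, ← Finset.sum_mul, hα, hβ, zero_mul, mul_zero, add_zero])
  have h2 : (∑ a, ∑ d, cc a d) = 0 := Subtype.ext (by
    simp only [AddSubgroup.val_finsetSum, ZeroMemClass.coe_zero, cc, ← Finset.mul_sum,
      ← Finset.sum_mul, hβ, zero_mul, mul_zero, Finset.sum_const_zero])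
  exact torOp_eq_zero hcc h1 h2

/-- The monodromy of the product of the twisted translates. -/
private theorem hasMono_twisted {F : (ZMod q)ˣ → (levelField q n A)ˣ}
    {Φ : (ZMod q)ˣ → Additive (CongruenceSubgroup.Gamma (q * n)) →+ ZMod m}
    (hF : ∀ u, HasMono (F u) (Φ u)) :
    haveI : NeZero q := ⟨(Fact.out : q.Prime).ne_zero⟩
    HasMono (∏ t : ZMod q, actUnit hA hL hLn (uPlus t)
        (∏ u : (ZMod q)ˣ, actUnit hA hL hLn (uMinus (-(u : ZMod q))) (F u)))
      (lowerTr (q := q) (∑ u : (ZMod q)ˣ, sPlus (u : ZMod q) • Φ u)) := by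
  have : NeZero q := ⟨(Fact.out : q.Prime).ne_zero⟩
  have hinner : HasMono (∏ u : (ZMod q)ˣ, actUnit hA hL hLn (uMinus (-(u : ZMod q))) (F u))
      (∑ u : (ZMod q)ˣ, sPlus (u : ZMod q) • Φ u) :=
    hasMono_prod _ fun u _ => hasMono_actUnit hA hL hLn (hF u) fun i j => by
      rw [Matrix.SpecialLinearGroup.coe_inv, coe_sPlus, Matrix.adjugate_fin_two_of]
      fin_cases i <;> fin_cases j <;> simp [uMinus]
  have := hasMono_prod (Finset.univ : Finset (ZMod q)) fun t _ =>
    hasMono_actUnit hA hL hLn hinner (g := uPlus t) (s := sMinus (-t)) fun i j => by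
      rw [Matrix.SpecialLinearGroup.coe_inv, coe_sMinus, Matrix.adjugate_fin_two_of]
      fin_cases i <;> fin_cases j <;> simp [uPlus]
  rw [show lowerTr (q := q) _ = ∑ t : ZMod q, sMinus (-t) •
    ∑ u : (ZMod q)ˣ, sPlus (u : ZMod q) • Φ u from
      (Equiv.sum_comp (Equiv.neg (ZMod q)) fun s : ZMod q => sMinus s • _).symm]
  exact this

/-- A diagonal matrix moves through the twisted sum of translates, scaling its index. -/
private theorem diagElt_sum_twisted [NeZero q] {M : Type*} [AddCommGroup M]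
    (T : GL (Fin 2) (ZMod q) → M →+ M) (hTmul : ∀ g g' x, T (g * g') x = T g (T g' x))
    (G : (ZMod q)ˣ → M) (a d : (ZMod q)ˣ) :
    T (diagElt a d) (∑ t : ZMod q,
      T (uPlus t) (∑ u : (ZMod q)ˣ, T (uMinus (-(u : ZMod q))) (G u))) =
      ∑ t : ZMod q, T (uPlus t) (∑ u : (ZMod q)ˣ,
        T (uMinus (-(u : ZMod q))) (T (diagElt a d) (G (u * (d⁻¹ * a))))) := by
  simp only [map_sum, ← hTmul]
  let k : (ZMod q)ˣ := d⁻¹ * a
  refine Fintype.sum_equiv (Equiv.mulRight₀ ((k : (ZMod q)ˣ) : ZMod q) k.ne_zero) _ _ fun t => ?_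
  refine Fintype.sum_equiv (Equiv.mulRight k⁻¹) _ _ fun u => ?_
  rw [diagElt_mul_eq a d u t]
  show T _ (G u) = T _ (G (u * k⁻¹ * k))
  rw [inv_mul_cancel_right, ← mul_assoc]
  rfl

/-! ## Units of Kummer functions -/

omit hcop in
include hA in
/-- Inertia realises every unit on the `q`-th roots of unity. -/
private theorem exists_inertia_pow [NeZero n] (u : (ZMod q)ˣ) :
    ∃ σ ∈ A.inertiaSubgroupIn ℚ, σ (etaQ q n) = etaQ q n ^ (u : ZMod q).val ∧
      ∀ μ : QBar, μ ^ q = 1 → σ μ = μ ^ (u : ZMod q).val := by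
  have : NeZero q := ⟨(Fact.out : q.Prime).ne_zero⟩
  have hη := isPrimitiveRoot_etaQ q n
  obtain ⟨σ, hσ, he⟩ := Mazur.Eisenstein.exists_inertia_apply hA (Fact.out : q.Prime) (m := 0)
    (ζ := etaQ q n) (η := etaQ q n ^ (u : ZMod q).val) (by rwa [zero_add, pow_one])
    (by rw [zero_add, pow_one]; exact hη.pow_of_coprime _ (ZMod.val_coe_unit_coprime u))
  refine ⟨σ, hσ, he, fun μ hμ => ?_⟩
  obtain ⟨i, -, rfl⟩ := hη.eq_pow_of_pow_eq_one hμ
  rw [map_pow, he, ← pow_mul, ← pow_mul, mul_comm]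

omit hcop in
/-- The inertia elements fixing `η` fix every `q`-th root of unity. -/
private theorem tame_apply_root [NeZero n] {σ : GQ} (hσ : σ ∈ tame q n A) {μ : QBar}
    (hμ : μ ^ q = 1) : σ μ = μ := by
  have : NeZero q := ⟨(Fact.out : q.Prime).ne_zero⟩
  obtain ⟨i, -, rfl⟩ := (isPrimitiveRoot_etaQ q n).eq_pow_of_pow_eq_one hμ
  rw [map_pow, (mem_inertiaFixer.mp hσ).2]

/-- The class of the unit of a Kummer function depends only on the torsion class. -/
private theorem unitCls_repUnit_eq [NeZero n] {x : JZero (q ^ 2 * R)}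
    {f g : divGrp QBar (modularFunctionFieldBar (q ^ 2 * R)) m} (hf : IsRepFun (tame q n A) x f)
    (hg : IsRepFun (tame q n A) x g) :
    unitCls m (Additive.ofMul (repUnit hA hL hLn hRn hf)) =
      unitCls m (Additive.ofMul (repUnit hA hL hLn hRn hg)) := by
  obtain ⟨h, h0, hh, e⟩ := hf.exists_eq_mul_pow hg
  exact (unitCls_eq_iff m).mpr ⟨Units.mk0 ⟨qExpand QBar n (h : LaurentSeries QBar),
    (qExpand_tame_mem hA hL hLn hRn (mem_ratFieldH h.2 hh)).choose⟩ (fun h' => h0 (Subtype.ext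
      ((map_eq_zero_iff _ (qExpand_injective n)).mp (congrArg Subtype.val h')))),
    units_eq_mul_pow (qExpand QBar n) e (coe_repUnit hA hL hLn hRn hf)
      (coe_repUnit hA hL hLn hRn hg) rfl⟩

/-- The class of the unit of a Kummer function is additive in the torsion class. -/
private theorem unitCls_repUnit_add [NeZero n] {x y : JZero (q ^ 2 * R)}
    {f g h : divGrp QBar (modularFunctionFieldBar (q ^ 2 * R)) m}
    (hh : IsRepFun (tame q n A) (x + y) h) (hf : IsRepFun (tame q n A) x f)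
    (hg : IsRepFun (tame q n A) y g) :
    unitCls m (Additive.ofMul (repUnit hA hL hLn hRn hh)) =
      unitCls m (Additive.ofMul (repUnit hA hL hLn hRn hf)) +
        unitCls m (Additive.ofMul (repUnit hA hL hLn hRn hg)) := by
  refine (unitCls_repUnit_eq hRn hA hL hLn hh (hf.mul hg)).trans (Eq.trans (congrArg
    (fun y : (levelField q n A)ˣ => unitCls m (Additive.ofMul y))
    (units_eq_mul (qExpand QBar n) (Units.val_mul _ _) (coe_repUnit hA hL hLn hRn (hf.mul hg))
      (coe_repUnit hA hL hLn hRn hf) (coe_repUnit hA hL hLn hRn hg)))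
    (map_add (unitCls m) _ _))

/-- A diagonal matrix sends the class of a Kummer function to that of the conjugate torsion
class, under an inertia element with the same determinant. -/
private theorem actCls_diagElt_repUnit [NeZero n] {x : JZero (q ^ 2 * R)}
    {f g : divGrp QBar (modularFunctionFieldBar (q ^ 2 * R)) m} (hf : IsRepFun (tame q n A) x f)
    {a d : (ZMod q)ˣ} {σ : GQ} (hσ : σ ∈ A.inertiaSubgroupIn ℚ)
    (he : σ (etaQ q n) = etaQ q n ^ ((a * d : (ZMod q)ˣ) : ZMod q).val)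
    (hg : IsRepFun (tame q n A) (σ • x) g) :
    actCls hA hL hLn m (diagElt a d) (unitCls m (Additive.ofMul (repUnit hA hL hLn hRn hf))) =
      unitCls m (Additive.ofMul (repUnit hA hL hLn hRn hg)) := by
  obtain ⟨g', hg', hgc⟩ := hf.conj σ fun τ hτ => conj_mem_tame hσ hτ
  rw [← unitCls_repUnit_eq hRn hA hL hLn hg' hg, actCls_unitCls]
  refine congrArg (fun y => unitCls m (Additive.ofMul y)) (Units.ext (Subtype.ext ?_))
  rw [coe_repUnit, hgc, ← coeffMap_qExpand, coe_actUnit]
  exact (qExpand_tame_mem hA hL hLn hRn (mem_ratFieldH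
    (((f : (modularFunctionFieldBar (q ^ 2 * R))ˣ) : modularFunctionFieldBar (q ^ 2 * R))).2
    hf.coeff)).choose_spec a d σ hσ he

/-- The monodromy of the unit of a Kummer function of a torsion class. -/
private theorem hasMono_repUnit [NeZero n]
    {x : Pic0.torsion QBar (modularFunctionFieldBar (q ^ 2 * R)) m}
    {f : divGrp QBar (modularFunctionFieldBar (q ^ 2 * R)) m}
    (hf : IsRepFun (tame q n A) (x : JZero (q ^ 2 * R)) f) :
    HasMono (repUnit hA hL hLn hRn hf) (classMono hres x) := by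
  have := kumChar_toTorsion (qbarSetup q n) rfl (inertiaField A) f
    (x := (repUnit hA hL hLn hRn hf : levelField q n A)) (coe_repUnit hA hL hLn hRn hf) hres
  rwa [show toTorsion (Additive.ofMul f) = x from Subtype.ext hf.cls] at this

/-- The product of translates by the unipotent matrices is fixed by their group. -/
private theorem fixedBy_prod_uPlus [NeZero q] [NeZero n] (f : (levelField q n A)ˣ) :
    (level hA hL hLn).FixedBy (upperComb q) (∏ t : ZMod q, actUnit hA hL hLn (uPlus t) f) := by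
  rintro _ ⟨a, rfl⟩
  show actUnit hA hL hLn (uPlus a.toAdd) _ = _
  rw [map_prod]
  refine Fintype.prod_equiv (Equiv.addLeft a.toAdd) _ _ fun t => ?_
  rw [← actUnit_mul, ← uPlus_add]
  rfl

include hA hL hLn in
/-- A unit fixed by the unipotent group, with orders divisible by `m` and toric combination of
translates an `m`-th power, has monodromy killed by the exponent of the gluing. -/
private theorem glueExp_smul_mono_eq_zero [NeZero n] (hm : m.Coprime q)
    {y : (levelField q n A)ˣ} (hfix : (level hA hL hLn).FixedBy (upperComb q) y)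
    (hplaces : Places (inertiaField A) m y)
    (htor : torOp (fun g => unitCls m (Additive.ofMul (actUnit hA hL hLn g y))) = 0)
    {Φ : Additive (CongruenceSubgroup.Gamma (q * n)) →+ ZMod m} (hmono : HasMono y Φ) :
    glueExp (upperComb q) • Φ = 0 := by
  have hlam : unitCls m (Additive.ofMul
      ((level hA hL hLn).lam (upperComb q) ((level hA hL hLn).transl y))) = 0 := by
    show unitCls m (Additive.ofMul (Additive.toMul (∑ g : GL (Fin 2) (ZMod q),
      (upperComb q).coeffs g • Additive.ofMul (actUnit hA hL hLn g y)))) = 0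
    rw [ofMul_toMul, map_sum]
    simp only [map_zsmul]
    exact (torOp_eq_sum _).symm.trans htor
  obtain ⟨γ, hγ⟩ := (unitCls_eq_iff m (g := 1)).mp
    (hlam.trans (map_zero (unitCls (q := q) (n := n) (A := A) m)).symm)
  let U := inertialBase hA (Fact.out : q.Prime)
  have hmU : IsUnit (m : U.W) := TateLevel.isUnit_natCast (L := level hA hL hLn) (U := U) hm
  obtain ⟨κ, h, hκ⟩ := Carayol.exists_const_mul_pow
    ((qbarSetup q n).cuspEmb hA (Fact.out : q.Prime) hcop.out L hL hLn (exists_galois_moving hA))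
    (upperComb q) hmU (κ := 1) (γ := γ) hfix hplaces (by rw [map_one]; exact hγ)
  have h1 := KumChar.pow hmono (glueExp (upperComb q))
  have hκ' : ((y : levelField q n A)) ^ glueExp (upperComb q) =
      algebraMap (inertiaField A) (levelField q n A) κ * (h : levelField q n A) ^ m := by
    rw [← Units.val_pow_eq_pow_val, ← Units.val_pow_eq_pow_val]
    exact congrArg Units.val hκ
  rw [hκ'] at h1
  have h2 := (kumChar_const (E := qbarSetup q n) (k := inertiaField A) (m := m) κ.ne_zero).mul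
    (kumChar_pow_self (E := qbarSetup q n) (k := inertiaField A) (m := m) h.ne_zero)
  rw [add_zero] at h2
  exact h1.unique h2

/-- If diagonal matrices act on `G` through `θ (a d)`, they act on the sum of its translates
twisted by `χ` through `θ (a d) χ (a / d)`. -/
private theorem diagElt_sum_twisted_smul [NeZero q] {M : Type*} [AddCommGroup M]
    (T : GL (Fin 2) (ZMod q) → M →+ M) (hTmul : ∀ g g' x, T (g * g') x = T g (T g' x))
    {Λ : AddSubgroup ℂ} {χ θ : (ZMod q)ˣ →* ℂ} (G : Λ → M) (Cχ : (ZMod q)ˣ → Λ → Λ)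
    (hCχ : ∀ u c, (Cχ u c : ℂ) = χ u * c)
    (hG : ∀ (a d : (ZMod q)ˣ) (c c' : Λ), (c' : ℂ) = θ (a * d) * c → T (diagElt a d) (G c) = G c')
    {a d : (ZMod q)ˣ} {c c' : Λ} (hc' : (c' : ℂ) = θ (a * d) * (χ a * χ d⁻¹) * c) :
    T (diagElt a d) (∑ t : ZMod q,
      T (uPlus t) (∑ u : (ZMod q)ˣ, T (uMinus (-(u : ZMod q))) (G (Cχ u c)))) =
      ∑ t : ZMod q, T (uPlus t) (∑ u : (ZMod q)ˣ, T (uMinus (-(u : ZMod q))) (G (Cχ u c'))) := by
  refine (diagElt_sum_twisted T hTmul (fun u => G (Cχ u c)) a d).trans ?_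
  refine Finset.sum_congr rfl fun t _ => congrArg _ (Finset.sum_congr rfl fun u _ => ?_)
  refine congrArg _ (hG a d _ _ ?_)
  rw [hCχ, hCχ, hc', map_mul χ u, map_mul χ d⁻¹]
  ring

/-! ## The main step -/

include hA hL hLn hRn in
/-- **The main step**: if tame inertia acts on the classes `X c` through `θ ≠ χ^{±1}`, the traced
twist by `χ` of their monodromy is killed by the exponent of the gluing. -/
theorem glueExp_smul_eq_zero (hm : m.Coprime q) {χ θ : (ZMod q)ˣ →* ℂ}
    (hne : θ ≠ χ) (hne' : θ * χ ≠ 1) (Λ : AddSubgroup ℂ)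
    (hΛ : ∀ z : ℂ, z ^ (q - 1) = 1 → ∀ c ∈ Λ, z * c ∈ Λ)
    (X : Λ →+ Pic0.torsion QBar (modularFunctionFieldBar (q ^ 2 * R)) m)
    (hθ : ∀ σ ∈ A.inertiaSubgroupIn ℚ, ∀ u : (ZMod q)ˣ,
      (∀ μ : QBar, μ ^ q = 1 → σ μ = μ ^ (u : ZMod q).val) → ∀ c c' : Λ, (c' : ℂ) = θ u * c →
        σ • (X c : JZero (q ^ 2 * R)) = X c')
    (c₀ : Λ) (cw : (ZMod q)ˣ → Λ) (hcw : ∀ u, (cw u : ℂ) = χ u * c₀) :
    glueExp (upperComb q) •
      lowerTr (q := q) (∑ u : (ZMod q)ˣ, sPlus (u : ZMod q) • classMono hres (X (cw u))) = 0 := by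
  have : NeZero q := ⟨(Fact.out : q.Prime).ne_zero⟩
  have : NeZero n := ⟨right_ne_zero_of_mul (NeZero.ne (q * n))⟩
  let mulχ : (ZMod q)ˣ → Λ → Λ := fun u c => ⟨χ u * c, hΛ _ (by
    rw [← map_pow, ZMod.units_pow_card_sub_one_eq_one, map_one]) _ c.2⟩
  have hfix : ∀ c : Λ, ∀ σ ∈ tame q n A, σ • (X c : JZero (q ^ 2 * R)) = X c := fun c σ hσ =>
    hθ σ (mem_inertiaFixer.mp hσ).1 1
      (fun μ hμ => by rw [tame_apply_root hσ hμ, Units.val_one, ZMod.val_one, pow_one])
      c c (by rw [map_one, one_mul])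
  choose f hf using fun c : Λ => exists_isRepFun (m := m) (H := tame q n A)
    (Pic0.mem_torsion.mp (X c).2) (hfix c)
  let F : Λ → (levelField q n A)ˣ := fun c => repUnit hA hL hLn hRn (hf c)
  let Fq : Λ →+ ModPow q n A m := AddMonoidHom.mk' (fun c => unitCls m (Additive.ofMul (F c)))
    fun c c' => by
      have e : (X (c + c') : JZero (q ^ 2 * R)) = X c + X c' := by rw [map_add, AddSubgroup.coe_add]
      exact unitCls_repUnit_add hRn hA hL hLn (e ▸ hf (c + c')) (hf c) (hf c')
  let T : GL (Fin 2) (ZMod q) → ModPow q n A m →+ ModPow q n A m := actCls hA hL hLn m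
  -- diagonal matrices act through `θ (a d)`
  have hdiag : ∀ (a d : (ZMod q)ˣ) (c c' : Λ), (c' : ℂ) = θ (a * d) * c →
      T (diagElt a d) (Fq c) = Fq c' := by
    intro a d c c' hc'
    obtain ⟨σ, hσ, he, hμ⟩ := exists_inertia_pow (n := n) hA (a * d)
    exact actCls_diagElt_repUnit hRn hA hL hLn (hf c) hσ he
      ((hθ σ hσ (a * d) hμ c c' hc').symm ▸ hf c')
  -- the product of the twisted translates
  let y : (levelField q n A)ˣ := ∏ t : ZMod q, actUnit hA hL hLn (uPlus t)
    (∏ u : (ZMod q)ˣ, actUnit hA hL hLn (uMinus (-(u : ZMod q))) (F (cw u)))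
  let Y : Λ →+ ModPow q n A m := AddMonoidHom.mk' (fun c => ∑ t : ZMod q,
      T (uPlus t) (∑ u : (ZMod q)ˣ, T (uMinus (-(u : ZMod q))) (Fq (mulχ u c)))) fun c c' => by
    simp only [← Finset.sum_add_distrib, ← map_add]
    refine Finset.sum_congr rfl fun t _ => congrArg _ (Finset.sum_congr rfl fun u _ => ?_)
    refine congrArg _ (congrArg _ (Subtype.ext ?_))
    simp [mulχ, mul_add]
  have hy : unitCls m (Additive.ofMul y) = Y c₀ := by
    simp only [Y, AddMonoidHom.mk'_apply, y, ofMul_prod, map_sum, map_prod]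
    refine Finset.sum_congr rfl fun t _ => Finset.sum_congr rfl fun u _ => ?_
    rw [show mulχ u c₀ = cw u from Subtype.ext (hcw u).symm]
    rfl
  refine glueExp_smul_mono_eq_zero hA hL hLn hm (y := y) (fixedBy_prod_uPlus hA hL hLn _)
    (places_prod _ _ fun t _ => places_actUnit hA hL hLn (places_prod _ _ fun u _ =>
      places_actUnit hA hL hLn (places_repUnit hA hL hLn hRn (hf (cw u))) _) _) ?_
    (hasMono_twisted hA hL hLn fun u => hasMono_repUnit hRn hres hA hL hLn (hf (cw u)))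
  refine torOp_eq_zero_of_characters hne hne' Λ hΛ Y c₀ fun a d c' h => ?_
  show T (diagElt a d) (unitCls m (Additive.ofMul y)) = _
  rw [hy]
  exact diagElt_sum_twisted_smul T (actCls_mul hA hL hLn m) Fq mulχ (fun _ _ => rfl) hdiag h

end Fermat.Agent.RT.InertiaTW
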