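import Fermat.Agent.RT.InertiaTW.GeoKill
import Fermat.Agent.RT.InertiaTW.Mono
import Mathlib.NumberTheory.Padics.PadicNumbers
import Mathlib.LinearAlgebra.Dual.Lemmas

/-!
# A foreign inertia character kills the twisted trace

Every `ℚ_p`-linear functional carries a complex vector on which tame inertia acts through `θ` to
scaled torsion classes at every level; so the twisted trace of its monodromy vanishes.
-/

set_option autoImplicit false

noncomputable section

open CongruenceSubgroup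
open Fermat.Agent.Arith
open Fermat.Agent.GaloisReps (JTors torsionIso conjProperty)
open scoped Matrix

namespace Fermat.Agent.RT.InertiaTW

variable {q n : ℕ} [NeZero (q * n)] [Fact q.Prime] [Fact (q.Coprime n)]

omit [NeZero (q * n)] [Fact (Nat.Prime q)] [Fact (q.Coprime n)] in
theorem comp_finsetSum {B C ι : Type*} [AddCommGroup B] [AddCommGroup C] (g : B →+ C)
    (s : Finset ι) (φ : ι → (Additive (CongruenceSubgroup.Gamma (q * n)) →+ B)) :
    g.comp (∑ i ∈ s, φ i) = ∑ i ∈ s, g.comp (φ i) :=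
  map_sum (AddMonoidHom.compHom g) φ s

/-- Traced twists are natural in the coefficients. -/
theorem comp_lowerTr_sum {B C : Type*} [AddCommGroup B] [AddCommGroup C] (g : B →+ C)
    (φ : (ZMod q)ˣ → (Additive (CongruenceSubgroup.Gamma (q * n)) →+ B)) :
    g.comp (lowerTr (q := q) (∑ u : (ZMod q)ˣ, sPlus (u : ZMod q) • φ u)) =
      lowerTr (q := q) (∑ u : (ZMod q)ˣ, sPlus (u : ZMod q) • g.comp (φ u)) := by
  simp only [lowerTr, comp_finsetSum, comp_smul]

variable {R p : ℕ} [NeZero (q ^ 2 * R)] [Fact p.Prime] (hRn : R ∣ n)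
  (hres : ∀ γ : CongruenceSubgroup.Gamma (q * n), rescale q n γ ∈ Gamma0 (q ^ 2 * R))

/-- Finitely many `p`-adic numbers become integral on multiplying by a power of `p`. -/
private theorem exists_norm_pow_mul_le_one (p : ℕ) [Fact p.Prime] {α : Type*} (s : Finset α)
    (x : α → ℚ_[p]) : ∃ N : ℕ, ∀ a ∈ s, ‖(p : ℚ_[p]) ^ N * x a‖ ≤ 1 := by
  have hev : ∀ y : ℚ_[p], ∀ᶠ N : ℕ in Filter.atTop, ‖(p : ℚ_[p]) ^ N * y‖ ≤ 1 := fun y => by
    have h := (tendsto_pow_atTop_nhds_zero_of_norm_lt_one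
      (Padic.norm_p_lt_one (p := p))).mul_const y
    rw [zero_mul] at h
    filter_upwards [h.eventually (Metric.closedBall_mem_nhds (0 : ℚ_[p]) one_pos)] with N hN
    simpa using hN
  exact (s.eventually_all.mpr fun a _ => hev (x a)).exists

include hRn in
/-- An integral vector on which tame inertia acts through `θ ≠ χ^{±1}` has zero traced twist by
`χ`: modulo every power of `p` it consists of torsion classes. -/
private theorem lowerTr_monoMap_eq_zero {L : ℕ} (hL : L = 7 ∨ L = 9) (hLn : L ∣ n) (hpq : p ≠ q)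
    {A : ValuationSubring QBar} (hA : A.LiesOverPrime q) {χ θ : (ZMod q)ˣ →* ℂ} (hne : θ ≠ χ)
    (hne' : θ * χ ≠ 1) (Λ : AddSubgroup ℂ) (hΛ : ∀ z : ℂ, z ^ (q - 1) = 1 → ∀ c ∈ Λ, z * c ∈ Λ)
    (w : Λ →+ (Fin (2 * Gamma0.genus (q ^ 2 * R)) → ℤ_[p]))
    (hw : ∀ σ ∈ A.inertiaSubgroupIn ℚ, ∀ u : (ZMod q)ˣ,
      (∀ μ : QBar, μ ^ q = 1 → σ μ = μ ^ (u : ZMod q).val) → ∀ c c' : Λ, (c' : ℂ) = θ u * c →
        (torsionIso (q ^ 2 * R) p (conjProperty _)).gal σ *ᵥ w c = w c')
    (c₀ : Λ) (cw : (ZMod q)ˣ → Λ) (hcw : ∀ u, (cw u : ℂ) = χ u * c₀)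
    (γ : Additive (CongruenceSubgroup.Gamma (q * n))) :
    lowerTr (q := q) (∑ u : (ZMod q)ˣ, sPlus (u : ZMod q) • monoMap hres (w (cw u))) γ = 0 := by
  have hq : q.Prime := Fact.out
  set E := torsionIso (q ^ 2 * R) p (conjProperty _) with hE
  set Zh : Additive (CongruenceSubgroup.Gamma (q * n)) →+ ℤ_[p] :=
    lowerTr (q := q) (∑ u : (ZMod q)ˣ, sPlus (u : ZMod q) • monoMap hres (w (cw u))) with hZh
  -- modulo every power of `p` these are torsion classes, killed by `glueExp_smul_eq_zero`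
  have hmod : ∀ ν : ℕ,
      PadicInt.toZModPow ν ((Carayol.glueExp (upperComb q) : ℤ_[p]) * Zh γ) = 0 := by
    intro ν
    have : NeZero (p ^ ν) := ⟨pow_ne_zero ν (Fact.out : p.Prime).ne_zero⟩
    let red : ℤ_[p] →+ ZMod (p ^ ν) := (PadicInt.toZModPow ν).toAddMonoidHom
    let X : Λ →+ JTors (q ^ 2 * R) p ν := (E.psi ν).symm.toAddMonoidHom.comp
      (AddMonoidHom.mk' (fun c => red ∘ w c) fun c c' => by
        funext j
        simp)
    have hX : ∀ c, E.psi ν (X c) = red ∘ w c := fun c => (E.psi ν).apply_symm_apply _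
    have h := glueExp_smul_eq_zero (A := A) (m := p ^ ν) hRn hres hA hL hLn
      (((Nat.coprime_primes Fact.out hq).mpr hpq).pow_left ν) hne hne' Λ hΛ X
      (fun σ hσ u hu c c' hc' => by
        have e : GaloisReps.galTors ν σ (X c) = X c' := (E.psi ν).injective (by
          rw [← E.galLvl_mulVec, hX, hX, ← E.map_gal, ← hw σ hσ u hu c c' hc']
          funext i
          exact ((PadicInt.toZModPow ν).map_mulVec _ _ i).symm)
        exact congrArg Subtype.val e)
      c₀ cw hcw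
    have hcl : ∀ u, classMono hres (X (cw u)) = red.comp (monoMap hres (w (cw u))) := fun u => by
      rw [classMono_eq hres, ← hE, hX, comp_monoMap]
      rfl
    simp only [hcl, ← comp_lowerTr_sum, ← hZh] at h
    have h' := DFunLike.congr_fun h γ
    rw [map_mul, map_natCast, ← nsmul_eq_mul]
    exact h'
  have h := PadicInt.ext_of_toZModPow.mp fun ν => (hmod ν).trans (map_zero _).symm
  exact (mul_eq_zero.mp h).resolve_left
    (Nat.cast_ne_zero.mpr (Carayol.glueExp_pos (upperComb q)).ne')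

include hRn in
/-- **A foreign character is killed**: a complex vector on which tame inertia acts through
`θ ≠ χ^{±1}` has zero traced twist by `χ`. -/
theorem twistTrace_eq_zero {L : ℕ} (hL : L = 7 ∨ L = 9) (hLn : L ∣ n) (hpq : p ≠ q)
    (ι : ℤ_[p] →+* ℂ) (hι : Function.Injective ι)
    {A : ValuationSubring QBar} (hA : A.LiesOverPrime q) {χ θ : (ZMod q)ˣ →* ℂ} (hne : θ ≠ χ)
    (hne' : θ * χ ≠ 1) (ξ : Fin (2 * Gamma0.genus (q ^ 2 * R)) → ℂ)
    (hξ : ∀ σ ∈ A.inertiaSubgroupIn ℚ, ∀ u : (ZMod q)ˣ,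
      (∀ μ : QBar, μ ^ q = 1 → σ μ = μ ^ (u : ZMod q).val) →
        (((torsionIso (q ^ 2 * R) p (conjProperty _)).gal σ).map ι) *ᵥ ξ = θ u • ξ) :
    twistTrace hres χ ξ = 0 := by
  classical
  have hq : q.Prime := Fact.out
  set E := torsionIso (q ^ 2 * R) p (conjProperty _)
  let ι' : ℚ_[p] →+* ℂ := IsFractionRing.lift hι
  let : Algebra ℚ_[p] ℂ := ι'.toAlgebra
  refine AddMonoidHom.ext fun γ => ?_
  refine (Module.forall_dual_apply_eq_zero_iff ℚ_[p] _).mp fun lam => ?_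
  -- test against `ℚ_p`-linear functionals, scaled to be integral on the `z * ξ j` for the
  -- `(q - 1)`-th roots of unity `z`
  set Z := Polynomial.nthRootsFinset (q - 1) (1 : ℂ)
  obtain ⟨N, hN⟩ := exists_norm_pow_mul_le_one p
    (Z ×ˢ (Finset.univ : Finset (Fin (2 * Gamma0.genus (q ^ 2 * R)))))
    fun zj => lam (zj.1 * ξ zj.2)
  let lam' : ℂ →+ ℚ_[p] := (AddMonoidHom.mulLeft ((p : ℚ_[p]) ^ N)).comp lam.toAddMonoidHom
  have hlin : ∀ (a : ℤ_[p]) (z : ℂ), lam' (ι a * z) = (a : ℚ_[p]) * lam' z := fun a z => by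
    have e : ι a * z = (a : ℚ_[p]) • z := by
      rw [Algebra.smul_def]
      exact congrArg (· * z) (IsFractionRing.lift_algebraMap hι a).symm
    show (p : ℚ_[p]) ^ N * lam (ι a * z) = _ * ((p : ℚ_[p]) ^ N * lam z)
    rw [e, map_smul, smul_eq_mul]
    ring
  -- the scalars `c` keeping all `lam' (z * c * ξ j)` integral: a subgroup containing `1`, stable
  -- under these roots of unity
  let Λ : AddSubgroup ℂ :=
    { carrier := {c | ∀ z : ℂ, z ^ (q - 1) = 1 → ∀ j, ‖lam' (z * c * ξ j)‖ ≤ 1}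
      zero_mem' := fun z _ j => by simp
      add_mem' := fun {a b} ha hb z hz j => by
        rw [mul_add, add_mul, map_add]
        exact (Padic.nonarchimedean _ _).trans (max_le (ha z hz j) (hb z hz j))
      neg_mem' := fun {a} ha z hz j => by
        rw [mul_neg, neg_mul, map_neg, norm_neg]
        exact ha z hz j }
  have hΛ : ∀ z : ℂ, z ^ (q - 1) = 1 → ∀ c ∈ Λ, z * c ∈ Λ := fun z hz c hcΛ z' hz' j => by
    rw [← mul_assoc z' z c]
    exact hcΛ (z' * z) (by rw [mul_pow, hz, hz', one_mul]) j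
  have hq1 : 0 < q - 1 := Nat.sub_pos_of_lt hq.one_lt
  have h1Λ : (1 : ℂ) ∈ Λ := fun z hz j => by
    rw [mul_one]
    exact hN (z, j) (Finset.mk_mem_product ((Polynomial.mem_nthRootsFinset hq1 (1 : ℂ)).mpr hz)
      (Finset.mem_univ j))
  -- `w c`, the integral vector `lam' (c * ξ)`; inertia acts on it through `θ`
  let w : Λ →+ (Fin (2 * Gamma0.genus (q ^ 2 * R)) → ℤ_[p]) := AddMonoidHom.mk'
    (fun c j => ⟨lam' ((c : ℂ) * ξ j), by simpa using c.2 1 (one_pow _) j⟩)
    fun c c' => funext fun j => Subtype.ext (by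
      show lam' (((c + c' : Λ) : ℂ) * ξ j) = _
      rw [AddSubgroup.coe_add, add_mul, map_add]
      rfl)
  have hw : ∀ σ ∈ A.inertiaSubgroupIn ℚ, ∀ u : (ZMod q)ˣ,
      (∀ μ : QBar, μ ^ q = 1 → σ μ = μ ^ (u : ZMod q).val) → ∀ c c' : Λ, (c' : ℂ) = θ u * c →
        E.gal σ *ᵥ w c = w c' := by
    intro σ hσ u hu c c' hc'
    funext i
    refine Subtype.ext ?_
    show ((E.gal σ *ᵥ w c) i : ℚ_[p]) = lam' ((c' : ℂ) * ξ i)
    rw [hc', mul_comm (θ u), mul_assoc,
      show θ u * ξ i = ((E.gal σ).map ι *ᵥ ξ) i from (congrFun (hξ σ hσ u hu) i).symm]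
    simp only [Matrix.mulVec, dotProduct, Finset.mul_sum, map_sum, Matrix.map_apply,
      PadicInt.coe_sum, PadicInt.coe_mul]
    refine Finset.sum_congr rfl fun j _ => ?_
    rw [show (c : ℂ) * (ι (E.gal σ i j) * ξ j) = ι (E.gal σ i j) * ((c : ℂ) * ξ j) by ring, hlin]
    rfl
  -- the vectors for the values of `χ`, and their traced twist `Zh` over `ℤ_p`
  let cw : (ZMod q)ˣ → Λ := fun u => ⟨χ u * 1, hΛ _ (by
    rw [← map_pow, ZMod.units_pow_card_sub_one_eq_one, map_one]) _ h1Λ⟩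
  set Zh : Additive (CongruenceSubgroup.Gamma (q * n)) →+ ℤ_[p] :=
    lowerTr (q := q) (∑ u : (ZMod q)ˣ, sPlus (u : ZMod q) • monoMap hres (w (cw u))) with hZh
  have hz0 : Zh γ = 0 := lowerTr_monoMap_eq_zero hRn hres hL hLn hpq hA hne hne' Λ hΛ w hw
    ⟨1, h1Λ⟩ cw (fun _ => rfl) γ
  let co : ℤ_[p] →+ ℚ_[p] := PadicInt.Coe.ringHom.toAddMonoidHom
  have hco : co.comp Zh = lam'.comp (twistTrace hres χ ξ) := by
    rw [hZh, comp_lowerTr_sum, twistTrace, twistOp]
    simp only [← smul_comm (sPlus _) (χ _)]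
    rw [comp_lowerTr_sum]
    congr 1
    refine Finset.sum_congr rfl fun u _ => congrArg _ ?_
    rw [comp_monoMap, ← monoMap_smul, comp_monoMap]
    congr 1
    funext j
    show lam' (χ u * 1 * ξ j) = _
    rw [mul_one]
    rfl
  have h0 := DFunLike.congr_fun hco γ
  simp only [AddMonoidHom.comp_apply, hz0, map_zero] at h0
  have hp0 : ((p : ℚ_[p]) ^ N) ≠ 0 :=
    pow_ne_zero N (Nat.cast_ne_zero.mpr (Fact.out : p.Prime).ne_zero)
  exact (mul_eq_zero.mp (h0.symm : (p : ℚ_[p]) ^ N * lam _ = 0)).resolve_left hp0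

end Fermat.Agent.RT.InertiaTW
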