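import Fermat.Agent.RT.InertiaTW.TwistPeriods
import Fermat.Agent.RT.GammaH.Twist
import Fermat.Agent.RT.GammaH.NebHecke
import Fermat.Agent.RT.GammaH.AtkinLehnerNeb
import Fermat.Agent.GaloisReps.LatticeHecke
import Fermat.Agent.HeckeDuality.Coeff

/-!
# The vector of the twist

A form of nebentype `χ⁻²` at `q` whose twist by `χ` has eigenvalues `a ℓ` gives coordinates of an
eigenvector on parabolic homomorphisms of `Γ₀(q²R)` with nonzero twisted trace.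

Main result: `exists_twist_vector`.
-/

set_option autoImplicit false

noncomputable section

open CongruenceSubgroup UpperHalfPlane Matrix.SpecialLinearGroup ModularFormClass
open ModularCurve
open Fermat.Agent.GaloisReps
open Fermat.Agent.RT.GammaH (IsNeb HasCoeff seqOp nebWeight)
open scoped MatrixGroups ModularForm

namespace Fermat.Agent.RT.InertiaTW

/-! ## Unit characters and eigenforms -/

theorem neZero_qsq_mul (q R : ℕ) [Fact q.Prime] [NeZero R] : NeZero (q ^ 2 * R) :=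
  ⟨mul_ne_zero (pow_ne_zero 2 (Fact.out : q.Prime).ne_zero) (NeZero.ne R)⟩

theorem per_eq_periodMap {N : ℕ} [NeZero N] (F : CuspForm (Gamma0 N) 2) :
    Periods.Congruence.per F = periodMap N F := by
  obtain ⟨P, hP, -⟩ := Periods.exists_primitive F
  refine AddMonoidHom.ext fun x => ?_
  obtain ⟨γ, rfl⟩ := Additive.ofMul.surjective x
  rw [Periods.Congruence.per_eq hP γ I, Periods.periodMap_eq hP γ I]

/-- The unit character of a Dirichlet character, with values in `ℂ`. -/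
def unitHomC {q : ℕ} (χ : DirichletCharacter ℂ q) : (ZMod q)ˣ →* ℂ :=
  (χ : ZMod q →* ℂ).comp (Units.coeHom (ZMod q))

theorem unitHomC_apply {q : ℕ} (χ : DirichletCharacter ℂ q) (u : (ZMod q)ˣ) :
    unitHomC χ u = χ (u : ZMod q) := rfl

theorem sum_unitHomC {q : ℕ} [NeZero q] {χ : DirichletCharacter ℂ q} (h : χ ≠ 1) :
    ∑ u : (ZMod q)ˣ, unitHomC χ u = 0 :=
  sum_hom_units_eq_zero _ fun h0 => h (MulChar.ext fun u => by
    rw [MulChar.one_apply_coe]; exact DFunLike.congr_fun h0 u)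

/-- Twisting an eigen sequence by `χ` gives an eigenform. -/
private theorem heckeTLin_of_twisted_coeff {N q ℓ : ℕ} {χ : DirichletCharacter ℂ q}
    {a : ℕ → ℂ} {b : ℂ} {F : CuspForm (Gamma0 N) 2}
    (hcoef : ∀ k, qCoeff F k = χ (k : ZMod q) * a k) (hℓ : ℓ.Prime) (hℓq' : ℓ.Coprime q)
    (hrec : ∀ k, seqOp (nebWeight (χ⁻¹ ^ 2)) ℓ a k = χ⁻¹ (ℓ : ZMod q) * b * a k)
    (hℓN : ¬ ℓ ∣ N) : CuspForm.heckeTLin 2 hℓ hℓN F = b • F := by
  refine HeckeDuality.ext_coeff fun k => ?_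
  rw [HeckeDuality.coeff_heckeTLin, HeckeDuality.coeff_smul, hcoef, hcoef, hcoef]
  have hℓq : IsUnit (ℓ : ZMod q) := (ZMod.isUnit_iff_coprime ℓ q).mpr
    hℓq'
  have hχℓ : χ (ℓ : ZMod q) * χ⁻¹ (ℓ : ZMod q) = 1 := by
    rw [← MulChar.mul_apply, mul_inv_cancel, MulChar.one_apply hℓq]
  have h := hrec k
  rw [seqOp, nebWeight, MulChar.pow_apply' _ two_ne_zero] at h
  split_ifs at h ⊢ with hd
  · obtain ⟨k', rfl⟩ := hd
    rw [Nat.mul_div_cancel_left _ hℓ.pos] at h ⊢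
    push_cast at h ⊢
    simp only [map_mul, zpow_one] at h ⊢
    linear_combination χ (ℓ : ZMod q) * χ (k' : ZMod q) * χ (ℓ : ZMod q) * h -
      χ (k' : ZMod q) * (ℓ : ℂ) * a k' * (χ (ℓ : ZMod q) * χ⁻¹ (ℓ : ZMod q) + 1) * hχℓ +
      χ (ℓ : ZMod q) * χ (k' : ZMod q) * b * a (ℓ * k') * hχℓ
  · push_cast at h ⊢
    simp only [map_mul] at h ⊢
    linear_combination χ (k : ZMod q) * χ (ℓ : ZMod q) * h +
      χ (k : ZMod q) * b * a k * hχℓ

/-! ## The rescaled periods -/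

/-- A translation by an integer congruent to `m` modulo `q`. -/
private theorem transl_eq_T_zpow_mul {q : ℕ} (hq : q ≠ 0) {t k : ℤ} {m : ℕ}
    (hk : t - m = q * k) :
    GammaH.transl q t = mapGL ℝ (ModularGroup.T ^ k) * GammaH.transl q m := by
  refine Units.ext ?_
  have hq0 : (q : ℝ) ≠ 0 := Nat.cast_ne_zero.mpr hq
  have hk' : (t : ℝ) = q * k + (m : ℤ) := by
    exact_mod_cast (show t = q * k + (m : ℤ) by omega)
  rw [Units.val_mul, GammaH.val_transl, GammaH.val_transl, GaloisReps.coe_mapGL,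
    ModularGroup.coe_T_zpow]
  ext i j
  fin_cases i <;> fin_cases j <;> simp [Matrix.mul_apply, Fin.sum_univ_two, hk']
  field_simp
  ring

/-- The rescaled period is fixed by the lower unipotent matrices. -/
private theorem sMinus_smul_pullPer
    {q R n : ℕ} [Fact q.Prime] [NeZero (q * R)] [NeZero (q * n)] [Fact (q.Coprime n)]
    (hR : R ∣ n) (hΓ1 : ∀ γ : CongruenceSubgroup.Gamma (q * n), rescale q n γ ∈ Gamma1 (q * R))
    (hM1 : CongruenceSubgroup.Gamma (q * R) ≤ Gamma1 (q * R))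
    {χ : DirichletCharacter ℂ q} {f : ℍ → ℂ} (hf : IsNeb (q * R) (χ⁻¹ ^ 2) f)
    (f₁ : CuspForm (Gamma1 (q * R)) 2) (hf₁ : ⇑f₁ = f)
    (s : ZMod q) : sMinus s • pullPer hΓ1 f₁ = pullPer hΓ1 f₁ := by
  have hcop : q.Coprime n := Fact.out
  have : NeZero q := ⟨(Fact.out : q.Prime).ne_zero⟩
  set t : ℤ := ((Nat.chineseRemainder hcop (-s).val 0).1 : ℤ) with ht
  obtain ⟨h1, h2⟩ := (Nat.chineseRemainder hcop (-s).val 0).2
  let l : SL(2, ℤ) := ⟨!![1, 0; t, 1], by simp [Matrix.det_fin_two_of]⟩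
  let δ : SL(2, ℤ) := ⟨!![1, 0; t * q, 1], by simp [Matrix.det_fin_two_of]⟩
  have hδ : δ ∈ Gamma0 (q * R) := by
    rw [Gamma0_mem, ZMod.intCast_zmod_eq_zero_iff_dvd]
    show ((q * R : ℕ) : ℤ) ∣ t * q
    rw [Nat.cast_mul, mul_comm t]
    exact mul_dvd_mul_left _ ((Int.natCast_dvd_natCast.mpr hR).trans
      (Int.natCast_dvd_natCast.mpr (Nat.modEq_zero_iff_dvd.mp h2)))
  refine (smul_pullPer hΓ1 f₁ hM1 (c := 1) (l := l) (δ := δ) ?_ ?_ ⟨rfl, by simp [l, δ], rfl,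
    rfl⟩ ?_).trans
    (one_smul ℂ _)
  · refine Gamma_mem.mpr ⟨?_, ?_, ?_, ?_⟩ <;>
      simp [l, (ZMod.intCast_zmod_eq_zero_iff_dvd t n).mpr
        (Int.natCast_dvd_natCast.mpr (Nat.modEq_zero_iff_dvd.mp h2))]
  · refine eq_inv_of_mul_eq_one_left (Subtype.ext ?_)
    have htq : ((t : ℤ) : ZMod q) = -s := by
      simp [ht, (ZMod.natCast_eq_natCast_iff _ _ _).2 h1]
    rw [Matrix.SpecialLinearGroup.coe_mul, Matrix.SpecialLinearGroup.coe_one, coe_sMinus]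
    have l00 : (l 0 0 : ℤ) = 1 := rfl
    have l01 : (l 0 1 : ℤ) = 0 := rfl
    have l10 : (l 1 0 : ℤ) = t := rfl
    have l11 : (l 1 1 : ℤ) = 1 := rfl
    rw [Matrix.eta_fin_two ((map (Int.castRingHom (ZMod q)) l : SL(2, ZMod q)) :
      Matrix (Fin 2) (Fin 2) (ZMod q))]
    simp only [SL_reduction_mod_hom_val, l00, l01, l10, l11, Matrix.mul_fin_two, Matrix.one_fin_two]
    simp [htq]
  · rw [hf₁]
    show f ∣[(2 : ℤ)] δ = (1 : ℂ) • f
    rw [hf.neb δ hδ]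
    simp [δ]

/-- The diagonal matrices act on the rescaled period by `χ ^ 2`. -/
private theorem sDiag_smul_pullPer
    {q R n : ℕ} [Fact q.Prime] [NeZero (q * R)] [NeZero (q * n)] [Fact (q.Coprime n)]
    (hR : R ∣ n) (hΓ1 : ∀ γ : CongruenceSubgroup.Gamma (q * n), rescale q n γ ∈ Gamma1 (q * R))
    (hM1 : CongruenceSubgroup.Gamma (q * R) ≤ Gamma1 (q * R))
    {χ : DirichletCharacter ℂ q} {f : ℍ → ℂ} (hf : IsNeb (q * R) (χ⁻¹ ^ 2) f)
    (f₁ : CuspForm (Gamma1 (q * R)) 2) (hf₁ : ⇑f₁ = f)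
    (u : (ZMod q)ˣ) : sDiag u • pullPer hΓ1 f₁ = (unitHomC χ ^ 2) u • pullPer hΓ1 f₁ := by
  -- `l` lifts the inverse of the diagonal matrix
  set l : SL(2, ℤ) := liftSL (n := n) (sDiag u)⁻¹ with hl
  obtain ⟨hl1, hl2, hl3, hl4⟩ := entry_mem_Gamma (liftSL_mem (n := n) (sDiag u)⁻¹)
  have hmul := congrArg (fun y : SL(2, ZMod q) => (y : Matrix (Fin 2) (Fin 2) (ZMod q)))
    (show map (Int.castRingHom (ZMod q)) l * sDiag u = 1 by rw [map_liftSL, inv_mul_cancel])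
  simp only [Matrix.SpecialLinearGroup.coe_mul, Matrix.SpecialLinearGroup.coe_one,
    coe_sDiag] at hmul
  rw [Matrix.eta_fin_two ((map (Int.castRingHom (ZMod q)) l : SL(2, ZMod q)) :
      Matrix (Fin 2) (Fin 2) (ZMod q))] at hmul
  simp only [SL_reduction_mod_hom_val, Matrix.mul_fin_two, Matrix.one_fin_two] at hmul
  have e01 : ((l 0 1 : ℤ) : ZMod q) = 0 := by
    have h := congrFun (congrFun hmul 0) 1
    simp only [Matrix.of_apply, Matrix.cons_val_zero, Matrix.cons_val_one] at h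
    simpa using h
  have e11 : ((l 1 1 : ℤ) : ZMod q) * (u : ZMod q) = 1 := by
    have h := congrFun (congrFun hmul 1) 1
    simp only [Matrix.of_apply, Matrix.cons_val_zero, Matrix.cons_val_one] at h
    simpa using h
  -- undoing the rescaling gives an element `δ` of `Γ₀(q R)` with `d ≡ u⁻¹`
  obtain ⟨b', hb'⟩ : (q : ℤ) ∣ l 0 1 := (ZMod.intCast_zmod_eq_zero_iff_dvd _ _).mp e01
  have hdet := l.det_coe
  rw [Matrix.det_fin_two, hb'] at hdet
  let δ : SL(2, ℤ) := ⟨!![l 0 0, b'; l 1 0 * q, l 1 1], by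
    rw [Matrix.det_fin_two_of]; linear_combination hdet⟩
  have hδ : δ ∈ Gamma0 (q * R) := by
    rw [Gamma0_mem, ZMod.intCast_zmod_eq_zero_iff_dvd]
    show ((q * R : ℕ) : ℤ) ∣ l 1 0 * q
    rw [Nat.cast_mul, mul_comm (l 1 0)]
    exact mul_dvd_mul_left _ ((Int.natCast_dvd_natCast.mpr hR).trans hl3)
  -- which acts on `f` by the Nebentypus
  refine smul_pullPer hΓ1 f₁ hM1 (l := l) (δ := δ) (liftSL_mem _) (map_liftSL _)
    ⟨rfl, by rw [hb']; simp [δ, mul_comm], rfl, rfl⟩ ?_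
  rw [hf₁]
  show f ∣[(2 : ℤ)] δ = _
  rw [hf.neb δ hδ]
  congr 1
  have hd : ((δ 1 1 : ℤ) : ZMod q) = ((u⁻¹ : (ZMod q)ˣ) : ZMod q) := by
    rw [Units.val_inv_eq_inv_val]
    exact (inv_eq_of_mul_eq_one_left e11).symm
  rw [hd, MulChar.pow_apply_coe, MonoidHom.pow_apply, unitHomC_apply, MulChar.inv_apply',
    Units.val_inv_eq_inv_val, inv_inv]

/-- A translation sum may be taken over any representatives. -/
private theorem translSum_eq_sum {q R : ℕ} [Fact q.Prime]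
    {χ : DirichletCharacter ℂ q}
    {f : ℍ → ℂ} (hf : IsNeb (q * R) χ f) (w : ZMod q → ℂ) {xs : ZMod q → ℤ}
    (hxs : ∀ x, ((xs x : ℤ) : ZMod q) = x) :
    GammaH.translSum q w f = ∑ x, w x • (f ∣[(2 : ℤ)] GammaH.transl q (xs x)) := by
  have hq : q.Prime := Fact.out
  have : NeZero q := ⟨hq.ne_zero⟩
  rw [GammaH.translSum]
  refine Finset.sum_congr rfl fun x _ => ?_
  congr 1
  obtain ⟨k, hk⟩ : (q : ℤ) ∣ xs x - x.val := by
    rw [← ZMod.intCast_zmod_eq_zero_iff_dvd, Int.cast_sub, hxs x, Int.cast_natCast,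
      ZMod.natCast_zmod_val, sub_self]
  have hm := transl_eq_T_zpow_mul hq.ne_zero hk
  rw [hm, SlashAction.slash_mul]
  rw [hf.slash_T_zpow]

/-! ## The twist and its vector -/

/-- The traced twist commutes with scalars. -/
private theorem lowerTr_twistOp_smul {q n : ℕ} [Fact q.Prime] [NeZero (q * n)] [Fact (q.Coprime n)]
    (θ : (ZMod q)ˣ →* ℂ) (c : ℂ) (y : Additive (CongruenceSubgroup.Gamma (q * n)) →+ ℂ) :
    lowerTr (q := q) (twistOp θ (c • y)) = c • lowerTr (q := q) (twistOp θ y) := by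
  simp only [lowerTr, twistOp, smul_comm (sPlus _) c, smul_comm (_ : ℂ) c, ← Finset.smul_sum,
    smul_comm (sMinus _) c]

/-- The twist by `χ` of a form of nebentype `χ⁻²` is a cusp form on `Γ₀(q²R)`, with coefficients
`χ k * a k`, and a translation sum of the form with weights `G * χ⁻¹`, `G ≠ 0`. -/
private theorem exists_twist_cuspForm {q R : ℕ} [Fact q.Prime] [NeZero R] [NeZero (q ^ 2 * R)]
    [NeZero (q * R)] {χ : DirichletCharacter ℂ q} (hχ : χ ≠ 1) {f : ℍ → ℂ} {a : ℕ → ℂ}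
    (hf : IsNeb (q * R) (χ⁻¹ ^ 2) f) (ha : HasCoeff f a) :
    ∃ (F : CuspForm (Gamma0 (q ^ 2 * R)) 2) (G : ℂ), G ≠ 0 ∧
      (∀ k, qCoeff F k = χ (k : ZMod q) * a k) ∧
      ⇑F = GammaH.translSum q (fun x => G * χ⁻¹ x) f := by
  have hq : q.Prime := Fact.out
  have : NeZero q := ⟨hq.ne_zero⟩
  have hLqR : q ∣ q * R := dvd_mul_right q R
  obtain ⟨F₀, hF₀neb, hF₀a, hF₀⟩ :=
    GammaH.exists_twist_prime hLqR (dvd_refl q) hLqR hf ha hχ
  set N := q ^ 2 * R with hN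
  have hlev : q * R * q = N := by rw [hN]; ring
  rw [hlev] at hF₀neb
  have hunit : ∀ γ ∈ Gamma0 N, IsUnit ((γ 1 1 : ℤ) : ZMod q) := fun γ hγ => by
    have h := DeligneSerre.isUnit_lowerRight hγ
    have hd : q ∣ N := ⟨q * R, by rw [hN]; ring⟩
    simpa using h.map (ZMod.castHom hd (ZMod q))
  have hinv : ∀ γ ∈ Gamma0 N, F₀ ∣[(2 : ℤ)] γ = F₀ := fun γ hγ => by
    rw [hF₀neb.neb γ hγ, DirichletCharacter.changeLevel_self,
      show (χ⁻¹ ^ 2 * χ ^ 2 : DirichletCharacter ℂ q) = 1 by rw [← mul_pow,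
      inv_mul_cancel, one_pow],
      MulChar.one_apply (hunit γ hγ), one_smul]
  let F : CuspForm (Gamma0 N) 2 := DeligneSerre.mkCuspForm (Gamma0 N) 2 F₀ hinv hF₀neb.cusp.1
    fun γ => by simpa [SlashAction.slash_one] using (hF₀neb.cusp.slash_SL γ).2 1
  refine ⟨F, _, inv_ne_zero (gaussSum_ne_zero_of_nontrivial (by simp [hq.ne_zero])
    (inv_ne_one.2 hχ) (ZMod.isPrimitive_stdAddChar q)), fun k => ?_, hF₀⟩
  exact (ModularFormClass.qExpansion_coeff_unique (f := F) (c := fun k => χ (k : ZMod q) * a k)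
    one_pos (CongruenceSubgroup.one_mem_strictPeriods_Gamma0 N) (fun τ => by
      show HasSum _ (F₀ τ)
      simpa [smul_eq_mul] using hF₀a τ) k).symm

/-- The Atkin conjugate of the periods of an eigenform is an eigenvector in coordinates. -/
private theorem opMat_mulVec_coord_period {N ℓ : ℕ} [NeZero N] (hℓ : ℓ.Prime) (hℓN : ¬ ℓ ∣ N)
    {F : CuspForm (Gamma0 N) 2} {b : ℂ} (heig : CuspForm.heckeTLin 2 hℓ hℓN F = b • F) :
    ((opMat N ℓ hℓ).map (Int.castRingHom ℂ)).mulVec (coord N ℂ (atkinHom N ℂ (periodMap N F)))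
      = b • coord N ℂ (atkinHom N ℂ (periodMap N F)) := by
  have hφmem : periodMap N F ∈ Gamma0.ellParHoms (Gamma0 N) ℂ :=
    Gamma0.isParabolicHom_iff_mem_ellParHoms.mp (Periods.periodMap_mem_parabolicHoms F)
  rw [← coord_homOp ℓ hℓ (atkinHom_mem hφmem), homOp, dif_neg hℓN]
  show coord N ℂ (Periods.homT hℓ hℓN ℤ (atkinHom N ℂ (periodMap N F))) = _
  rw [← atkinHom_homT]
  have e : Periods.homT hℓ hℓN ℤ (periodMap N F) = b • periodMap N F := by
    show Periods.homT hℓ hℓN ℂ (periodMap N F) = _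
    rw [← Periods.periodMap_heckeTLin hℓ hℓN F, heig]
    exact map_smul (Periods.periodMapLin N) b F
  rw [e]
  rfl

/-- A sum over translations weighted by `χ⁻¹` is a sum over the units. -/
private theorem sum_translate_eq {q : ℕ} [Fact q.Prime] [NeZero q] (χ : DirichletCharacter ℂ q)
    (G : ℂ) {M : Type*} [AddCommGroup M] [Module ℂ M] (T : ZMod q → M) :
    ∑ x : ZMod q, (G * χ⁻¹ x) • T (-x) =
      (G * unitHomC χ (-1)) • ∑ w : (ZMod q)ˣ, unitHomC χ w⁻¹ • T (w : ZMod q) := by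
  rw [Finset.smul_sum]
  simp only [smul_smul]
  rw [← Finset.add_sum_erase _ _ (Finset.mem_univ (0 : ZMod q)), MulChar.map_zero, mul_zero,
    zero_smul, zero_add]
  refine Finset.sum_bij' (fun v hv =>
    Units.mk0 (-v) (neg_ne_zero.mpr (Finset.ne_of_mem_erase hv)))
    (fun u _ => -(u : ZMod q)) (fun _ _ => Finset.mem_univ _)
    (fun u _ => Finset.mem_erase.mpr ⟨neg_ne_zero.mpr u.ne_zero, Finset.mem_univ _⟩)
    (fun v _ => by simp) (fun u _ => Units.ext (by simp)) fun v hv => ?_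
  rw [Units.val_mk0]
  congr 1
  have hv0 := Finset.ne_of_mem_erase hv
  rw [unitHomC_apply, unitHomC_apply, MulChar.inv_apply', Units.val_neg, Units.val_one,
    Units.val_inv_eq_inv_val, Units.val_mk0, mul_assoc, ← map_mul]
  congr 2
  field_simp

/-- The traced twist of such a sum is a nonzero multiple of a vector with the invariance of the
period. -/
private theorem lowerTr_twistOp_sum_ne_zero {q n : ℕ} [Fact q.Prime] [NeZero q] [NeZero (q * n)]
    [Fact (q.Coprime n)] {χ : DirichletCharacter ℂ q} (hχ : χ ≠ 1) (hχ2 : χ ^ 2 ≠ 1) {G : ℂ}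
    (hG0 : G ≠ 0) {z : Additive (CongruenceSubgroup.Gamma (q * n)) →+ ℂ} (hz0 : z ≠ 0)
    (hU : ∀ s : ZMod q, sMinus s • z = z)
    (hD : ∀ u : (ZMod q)ˣ, sDiag u • z = (unitHomC χ ^ 2) u • z) :
    lowerTr (q := q) (twistOp (unitHomC χ) ((G * unitHomC χ (-1)) •
      ∑ w : (ZMod q)ˣ, unitHomC χ w⁻¹ • (sPlus (w : ZMod q) • z))) ≠ 0 := by
  have hq : q.Prime := Fact.out
  have hm1 : unitHomC χ (-1) * unitHomC χ (-1) = 1 := by
    rw [← map_mul, neg_mul_neg, one_mul, map_one]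
  rw [lowerTr_twistOp_smul, lowerTr_twistOp_twistOp _ (sum_unitHomC hχ)
    (μ := unitHomC χ ^ 2) ?_ hU hD,
    smul_smul, ← Int.cast_smul_eq_zsmul ℂ, smul_smul,
    mul_assoc G (unitHomC χ (-1)) (unitHomC χ (-1)), hm1]
  · refine smul_ne_zero ?_ hz0
    rw [mul_one]
    refine mul_ne_zero hG0 ?_
    have h1 : ((q : ℤ) : ℂ) - 1 ≠ 0 := sub_ne_zero.mpr (by exact_mod_cast hq.ne_one)
    push_cast
    exact mul_ne_zero (Nat.cast_ne_zero.mpr hq.ne_zero) (by simpa using h1)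
  · refine sum_hom_units_eq_zero (unitHomC χ ^ 2) fun h => hχ2 (MulChar.ext fun u => ?_)
    rw [MulChar.pow_apply_coe, MulChar.one_apply_coe]
    exact DFunLike.congr_fun h u

/-- The vector of the twist. -/
theorem exists_twist_vector {q R n : ℕ} [Fact q.Prime] [NeZero R] [NeZero (q * n)]
    [Fact (q.Coprime n)] [NeZero (q ^ 2 * R)] (hR : R ∣ n)
    (hres : ∀ γ : CongruenceSubgroup.Gamma (q * n), rescale q n γ ∈ Gamma0 (q ^ 2 * R))
    {χ : DirichletCharacter ℂ q} (hχ : χ ≠ 1) (hχ2 : χ ^ 2 ≠ 1)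
    {f : ℍ → ℂ} {a : ℕ → ℂ} (hf : IsNeb (q * R) (χ⁻¹ ^ 2) f) (ha : HasCoeff f a) (hf0 : f ≠ 0)
    (S : Set ℕ) (hS : ∀ ℓ : ℕ, ℓ.Prime → ℓ ∣ q * R → ℓ ∈ S) (b : ℕ → ℂ)
    (hrec : ∀ ℓ : ℕ, ℓ.Prime → ℓ ∉ S → ∀ k : ℕ,
      seqOp (nebWeight (χ⁻¹ ^ 2)) ℓ a k = χ⁻¹ (ℓ : ZMod q) * b ℓ * a k) :
    ∃ ξ : Fin (2 * Gamma0.genus (q ^ 2 * R)) → ℂ,
      (∀ (ℓ : ℕ) (hℓ : ℓ.Prime), ℓ ∉ S →
        ((opMat (q ^ 2 * R) ℓ hℓ).map (Int.castRingHom ℂ)).mulVec ξ = b ℓ • ξ) ∧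
      twistTrace hres (unitHomC χ) ξ ≠ 0 := by
  classical
  have hq : q.Prime := Fact.out
  have : NeZero q := ⟨hq.ne_zero⟩
  have : NeZero (q * R) := ⟨mul_ne_zero hq.ne_zero (NeZero.ne R)⟩
  have hLqR : q ∣ q * R := dvd_mul_right q R
  obtain ⟨F, G, hG0, hcoef, hG⟩ := exists_twist_cuspForm hχ hf ha
  have hlev : q * R * q = q ^ 2 * R := by ring
  have heig : ∀ (ℓ : ℕ) (hℓ : ℓ.Prime), ℓ ∉ S → ∀ hℓN : ¬ ℓ ∣ q ^ 2 * R,
      CuspForm.heckeTLin 2 hℓ hℓN F = b ℓ • F :=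
    fun ℓ hℓ hℓS hℓN => heckeTLin_of_twisted_coeff hcoef hℓ
      ((Nat.coprime_primes hℓ hq).mpr fun h => hℓS (hS ℓ hℓ (h ▸ hLqR))) (hrec ℓ hℓ hℓS) hℓN
  set φ := periodMap (q ^ 2 * R) F with hφ
  have hφmem : φ ∈ Gamma0.ellParHoms (Gamma0 (q ^ 2 * R)) ℂ := by
    exact Gamma0.isParabolicHom_iff_mem_ellParHoms.mp (Periods.periodMap_mem_parabolicHoms F)
  refine ⟨coord (q ^ 2 * R) ℂ (atkinHom (q ^ 2 * R) ℂ φ), fun ℓ hℓ hℓS => ?_, ?_⟩
  · have hℓN : ¬ ℓ ∣ q ^ 2 * R := fun h => hℓS (hS ℓ hℓ (by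
      rw [← hlev] at h
      rcases hℓ.dvd_mul.mp h with h | h
      · exact h
      · exact h.trans hLqR))
    exact opMat_mulVec_coord_period hℓ hℓN (heig ℓ hℓ hℓS hℓN)
  -- the monodromy is the rescaled period of the twist
  have hΓ1 : ∀ γ : CongruenceSubgroup.Gamma (q * n), rescale q n γ ∈ Gamma1 (q * R) :=
    fun γ => rescale_mem_Gamma1 hR γ
  let f₁ : CuspForm (Gamma1 (q * R)) 2 := DeligneSerre.mkCuspForm (Gamma1 (q * R)) 2 f
    (fun γ hγ => by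
      rw [hf.neb γ (Gamma1_in_Gamma0 _ hγ)]
      have h1 : ((γ 1 1 : ℤ) : ZMod q) = 1 := by
        have h := congrArg (ZMod.castHom hLqR (ZMod q)) ((Gamma1_mem _ _).1 hγ).2.1
        simpa using h
      rw [h1, map_one, one_smul])
    hf.cusp.1 fun γ => by simpa [SlashAction.slash_one] using (hf.cusp.slash_SL γ).2 1
  have hM1 : CongruenceSubgroup.Gamma (q * R) ≤ Gamma1 (q * R) := fun γ hγ => by
    obtain ⟨h1, -, h3, h4⟩ := Gamma_mem.mp hγ
    exact (Gamma1_mem _ _).2 ⟨h1, h4, h3⟩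
  set z := pullPer hΓ1 f₁ with hz
  have hmono : monoMap hres (coord (q ^ 2 * R) ℂ (atkinHom (q ^ 2 * R) ℂ φ)) = pullPer hres F := by
    refine AddMonoidHom.ext fun x => ?_
    obtain ⟨γ, rfl⟩ := Additive.ofMul.surjective x
    rw [monoMap_apply, homOfCoord_coord (atkinHom_mem hφmem), atkinHom_apply, atkinConj_atkinConj,
      hφ, ← per_eq_periodMap F]
    rfl
  have hcop : q.Coprime n := Fact.out
  let xs : ZMod q → ℤ := fun x => ((Nat.chineseRemainder hcop x.val 0).1 : ℤ)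
  have hxs : ∀ x, ((xs x : ℤ) : ZMod q) = x ∧ (n : ℤ) ∣ xs x := fun x => by
    obtain ⟨h1, h2⟩ := (Nat.chineseRemainder hcop x.val 0).2
    refine ⟨?_, Int.natCast_dvd_natCast.mpr (Nat.modEq_zero_iff_dvd.mp h2)⟩
    simp only [xs, Int.cast_natCast, (ZMod.natCast_eq_natCast_iff _ _ _).2 h1,
      ZMod.natCast_zmod_val]
  have hFsum : ⇑F = ∑ x, (G * χ⁻¹ x) • (⇑f₁ ∣[(2 : ℤ)] GammaH.transl q (xs x)) := by
    rw [hG]
    exact translSum_eq_sum hf _ fun x => (hxs x).1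
  have hpull := pullPer_translate hΓ1 f₁ hM1 hres F _ xs (fun x => (hxs x).2) hFsum
  have htw : pullPer hres F = (G * unitHomC χ (-1)) •
      ∑ w : (ZMod q)ˣ, unitHomC χ w⁻¹ • (sPlus (w : ZMod q) • z) := by
    rw [hpull]
    simp only [(hxs _).1]
    exact sum_translate_eq χ G fun y => sPlus y • z
  -- invariance
  have hU : ∀ s : ZMod q, sMinus s • z = z := sMinus_smul_pullPer hR hΓ1 hM1 hf f₁ rfl
  have hD : ∀ u : (ZMod q)ˣ, sDiag u • z = (unitHomC χ ^ 2) u • z :=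
    sDiag_smul_pullPer hR hΓ1 hM1 hf f₁ rfl
  have hz0 : z ≠ 0 := fun h => by
    have := eq_zero_of_pullPer hΓ1 f₁ hM1 (hz ▸ h)
    exact hf0 (congrArg DFunLike.coe this)
  rw [twistTrace, hmono, htw]
  exact lowerTr_twistOp_sum_ne_zero hχ hχ2 hG0 hz0 hU hD

end Fermat.Agent.RT.InertiaTW
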