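import Fermat.Agent.RT.InertiaTW.Statement
import Fermat.Agent.RT.InertiaTW.Kill
import Fermat.Agent.RT.InertiaTW.TwistForm
import Fermat.Agent.RT.InertiaTW.Inertia
import Fermat.Agent.RT.InertiaTW.Quadratic
import Fermat.Agent.RT.InertiaTW.EigenSpace
import Fermat.Agent.RT.Glue.Rep
import Fermat.Agent.GaloisReps.Models

/-!
# The trace of inertia at a prime of twisted level

The representation of `g` acts on the complex vectors with the eigenvalues of `g`, and one of them
has non-zero traced twist. Inertia has an eigenline with a character `θ` of `(ℤ/q)ˣ`; if `θ` were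
neither `χ` nor `χ⁻¹`, the traced twist would vanish on the translates of the line, hence
everywhere.
-/

set_option autoImplicit false

noncomputable section

open IsLocalRing CongruenceSubgroup ModularFormClass
open Fermat.Agent.GaloisReps
open Fermat.Agent.Arith (QBar GQ liesOverPrime_smul_iff mem_inertia_smul_iff)
open scoped Matrix Pointwise

namespace Fermat.Agent.RT.InertiaTW

theorem twistTrace_add {q n N : ℕ} [NeZero (q * n)] [NeZero N] [Fact q.Prime] [Fact (q.Coprime n)]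
    (hres : ∀ γ : CongruenceSubgroup.Gamma (q * n), rescale q n γ ∈ Gamma0 N)
    (χ : (ZMod q)ˣ →* ℂ) (ξ η : Fin (2 * Gamma0.genus N) → ℂ) :
    twistTrace hres χ (ξ + η) = twistTrace hres χ ξ + twistTrace hres χ η := by
  simp only [twistTrace, twistOp, lowerTr, map_add, smul_add, Finset.sum_add_distrib]

/-- The structure map of a domain of characteristic zero is injective. -/
theorem padicHom_injective {p : ℕ} [Fact p.Prime] {O : Type*} [CommRing O] [IsDomain O]
    [CharZero O] (ι : ℤ_[p] →+* O) : Function.Injective ι := by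
  refine (injective_iff_map_eq_zero ι).mpr fun x hx => ?_
  by_contra h0
  rw [PadicInt.unitCoeff_spec h0, map_mul, map_pow, map_natCast, mul_eq_zero] at hx
  rcases hx with h | h
  · exact (Units.map (ι : ℤ_[p] →* O) (PadicInt.unitCoeff h0)).ne_zero h
  · exact Nat.cast_ne_zero.mpr (Fact.out : p.Prime).ne_zero (eq_zero_of_pow_eq_zero h)

/-- The entries of a base changed endomorphism. -/
theorem toMatrixAlgEquiv_residual {O : Type} [CommRing O] [IsLocalRing O] (ρ : GaloisRepAdic O)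
    (b : Module.Basis (Fin 2) O ρ.V) (σ : AbsGal) :
    LinearMap.toMatrixAlgEquiv (b.baseChange (ResidueField O) :
        Module.Basis (Fin 2) (ResidueField O) ρ.residual.V) (ρ.residual.ρ σ) =
      (Deform.matOf ρ b σ).map (residue O) := by
  ext i j
  show LinearMap.toMatrix (b.baseChange (ResidueField O)) (b.baseChange (ResidueField O))
    ((ρ.ρ σ).baseChange (ResidueField O)) i j = _
  rw [LinearMap.toMatrix_apply, Module.Basis.baseChange_apply, LinearMap.baseChange_tmul,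
    Module.Basis.baseChange_repr_tmul, Algebra.smul_def, mul_one, ResidueField.algebraMap_eq,
    Matrix.map_apply, Deform.matOf_apply]

/-- Spanning is stable under extension of scalars. -/
theorem span_map_eq_top {O : Type*} [CommRing O] {K : Type*} [CommRing K] (j : O →+* K)
    {G : Type*} (R : G → Matrix (Fin 2) (Fin 2) O) (h : Submodule.span O (Set.range R) = ⊤) :
    Submodule.span K (Set.range fun g => (R g).map j) = ⊤ := by
  have hmem : ∀ X : Matrix (Fin 2) (Fin 2) O,
      X.map j ∈ Submodule.span K (Set.range fun g => (R g).map j) := fun X => by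
    have hX : X ∈ Submodule.span O (Set.range R) := h ▸ Submodule.mem_top
    induction hX using Submodule.span_induction with
    | mem X hX =>
      obtain ⟨g, rfl⟩ := hX
      exact Submodule.subset_span ⟨g, rfl⟩
    | zero => rw [Matrix.map_zero _ (map_zero j)]; exact zero_mem _
    | add X Y _ _ hX hY => rw [Matrix.map_add _ (map_add j)]; exact add_mem hX hY
    | smul c X _ hX =>
      rw [show (c • X).map j = j c • X.map j by ext a b; simp]
      exact Submodule.smul_mem _ _ hX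
  refine eq_top_iff.mpr fun X _ => ?_
  rw [Matrix.matrix_eq_sum_single X]
  refine Submodule.sum_mem _ fun a _ => Submodule.sum_mem _ fun b _ => ?_
  rw [show Matrix.single a b (X a b) = X a b • (Matrix.single a b (1 : O)).map j by
    ext c d; by_cases e : a = c ∧ b = d <;> simp [e]]
  exact Submodule.smul_mem _ _ (hmem _)

/-- An additive map killing the rank one matrices `(ρ τ v) φ` kills one, if `ρ` spans and
`v ≠ 0`. -/
private theorem map_one_eq_zero_of_vecMulVec {G B : Type*} [Monoid G] [AddCommGroup B]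
    {ρC : G →* Matrix (Fin 2) (Fin 2) ℂ} (hspan : Submodule.span ℂ (Set.range ρC) = ⊤)
    {v : Fin 2 → ℂ} (hv : v ≠ 0) (T : Matrix (Fin 2) (Fin 2) ℂ →+ B)
    (key : ∀ (τ : G) (φ : Fin 2 → ℂ), T (Matrix.vecMulVec (ρC τ *ᵥ v) φ) = 0) : T 1 = 0 := by
  have hall : ∀ w φ : Fin 2 → ℂ, T (Matrix.vecMulVec w φ) = 0 := fun w φ => by
    obtain ⟨i, hi⟩ := Function.ne_iff.mp hv
    have hw : (Matrix.vecMulVec w (Pi.single i (v i)⁻¹)) *ᵥ v = w := by
      funext a
      simp [Matrix.mulVec, dotProduct, Matrix.vecMulVec_apply, Pi.single_apply,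
        mul_assoc, inv_mul_cancel₀ (show v i ≠ 0 from hi)]
    rw [← hw]
    have hX : Matrix.vecMulVec w (Pi.single i (v i)⁻¹) ∈ Submodule.span ℂ (Set.range ρC) :=
      hspan ▸ Submodule.mem_top
    clear hw
    generalize Matrix.vecMulVec w (Pi.single i (v i)⁻¹) = X at hX ⊢
    revert φ
    induction hX using Submodule.span_induction with
    | mem X hX =>
      obtain ⟨τ, rfl⟩ := hX
      exact key τ
    | zero =>
      intro φ
      rw [Matrix.zero_mulVec, Matrix.zero_vecMulVec, map_zero]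
    | add X Y _ _ hX hY =>
      intro φ
      rw [Matrix.add_mulVec, Matrix.add_vecMulVec, map_add, hX, hY, add_zero]
    | smul c X _ hX =>
      intro φ
      rw [Matrix.smul_mulVec, Matrix.smul_vecMulVec, ← Matrix.vecMulVec_smul, hX]
  have h1 : T (Matrix.vecMulVec (Pi.single 0 1) (Pi.single 0 1) +
      Matrix.vecMulVec (Pi.single 1 1) (Pi.single 1 1)) = 0 := by
    rw [map_add, hall, hall, add_zero]
  rw [show Matrix.vecMulVec (Pi.single 0 1) (Pi.single 0 1) +
      Matrix.vecMulVec (Pi.single 1 1) (Pi.single 1 1) = (1 : Matrix (Fin 2) (Fin 2) ℂ) by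
    ext x y; fin_cases x <;> fin_cases y <;> simp [Matrix.vecMulVec_apply]] at h1
  exact h1

/-- An eigenvalue `c` of a matrix of determinant one satisfies `trace * c = c * c + 1`. -/
private theorem trace_mul_eigenvalue {K : Type*} [Field K] {X : Matrix (Fin 2) (Fin 2) K}
    (hdC : X.det = 1) {v : Fin 2 → K} (hv : v ≠ 0) {c : K} (hev : X *ᵥ v = c • v) :
    X.trace * c = c * c + 1 := by
  have h0 : (X - c • 1).det = 0 := Matrix.exists_mulVec_eq_zero_iff.mp ⟨v, hv, by
    rw [Matrix.sub_mulVec, hev, Matrix.smul_mulVec, Matrix.one_mulVec, sub_self]⟩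
  rw [Matrix.trace_fin_two]
  rw [Matrix.det_fin_two] at h0 hdC
  simp at h0
  linear_combination -h0 + hdC

/-- A nontrivial character of `(ℤ/q)ˣ` of odd prime power order has nontrivial square, and the
prime divides `q - 1`. -/
private theorem sq_ne_one_and_dvd {p q k : ℕ} [Fact p.Prime] [Fact q.Prime] (hp2 : p ≠ 2)
    {χ : MulChar (ZMod q) ℂ} (hχ : χ ≠ 1) (hk : χ ^ p ^ k = 1) : χ ^ 2 ≠ 1 ∧ p ∣ q - 1 := by
  classical
  have hp : p.Prime := Fact.out
  have hodd : ¬ 2 ∣ p := fun h =>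
    hp2 (((Nat.prime_dvd_prime_iff_eq Nat.prime_two hp).mp h).symm)
  refine ⟨fun h => hχ (by
    have hg := pow_gcd_eq_one (a := χ) (m := 2) (n := p ^ k) |>.mpr ⟨h, hk⟩
    rwa [((Nat.Prime.coprime_iff_not_dvd Nat.prime_two).mpr hodd).pow_right k, pow_one] at hg), ?_⟩
  obtain ⟨i, -, hi⟩ := (Nat.dvd_prime_pow hp).mp (orderOf_dvd_of_pow_eq_one hk)
  have hi0 : i ≠ 0 := fun h => hχ (orderOf_eq_one_iff.mp (by rw [hi, h, pow_zero]))
  refine ((dvd_pow_self p hi0).trans (hi ▸ orderOf_dvd_of_pow_eq_one ?_))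
  rw [← ZMod.card_units q]
  exact χ.pow_card_eq_one

/-- The complex matrices of a residually absolutely irreducible representation span. -/
private theorem span_complex_matOf_eq_top {O : Type} [CommRing O] [IsDomain O] [IsLocalRing O]
    (ρ : GaloisRepAdic O) (habs : ρ.residual.IsAbsolutelyIrreducible)
    (b : Module.Basis (Fin 2) O ρ.V) (j : O →+* ℂ) :
    Submodule.span ℂ (Set.range (j.mapMatrix.toMonoidHom.comp (Deform.matOf ρ b))) = ⊤ := by
  refine span_map_eq_top j (Deform.matOf ρ b) (Glue.span_range_eq_top (Deform.matOf ρ b) ?_)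
  have h := Deform.span_matrix_eq_top ρ.residual habs (b.baseChange (ResidueField O))
  refine Eq.trans ?_ h
  refine congrArg _ (congrArg Set.range (funext fun τ => ?_))
  exact (toMatrixAlgEquiv_residual ρ b τ).symm

/-- A translate of an eigenline: if `τ⁻¹ σ τ` has eigenvalue `c` on `v`, then so does `σ` on the
rank one matrices `(ρ τ v) φ`. -/
private theorem mul_vecMulVec_eq_smul {G K : Type*} [Group G] [CommRing K]
    {ρC : G →* Matrix (Fin 2) (Fin 2) K} {v : Fin 2 → K} {σ τ : G} {c : K}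
    (h : ρC (τ⁻¹ * σ * τ) *ᵥ v = c • v) (φ : Fin 2 → K) :
    ρC σ * Matrix.vecMulVec (ρC τ *ᵥ v) φ = c • Matrix.vecMulVec (ρC τ *ᵥ v) φ := by
  rw [Matrix.mul_vecMulVec, Matrix.mulVec_mulVec, ← map_mul,
    show σ * τ = τ * (τ⁻¹ * σ * τ) by group, map_mul, ← Matrix.mulVec_mulVec, h,
    Matrix.mulVec_smul, Matrix.smul_vecMulVec]

/-- A conjugate acts by the same power on the roots of unity. -/
private theorem conj_apply_rootsOfUnity {σ τ : GQ} {q n : ℕ}
    (h : ∀ μ : QBar, μ ^ q = 1 → σ μ = μ ^ n) {μ : QBar} (hμ : μ ^ q = 1) :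
    (τ⁻¹ * σ * τ) μ = μ ^ n := by
  rw [AlgEquiv.mul_apply, AlgEquiv.mul_apply, h (τ μ) (by rw [← map_pow, hμ, map_one]),
    map_pow, ← AlgEquiv.mul_apply, inv_mul_cancel, AlgEquiv.one_apply]

/-- A number with eigenvalue `θ` among `a` and `b = a⁻¹` equals `a + b`. -/
private theorem eq_add_of_mul_eq {t a b θ : ℂ} (ht : t * θ = θ * θ + 1) (hab : a * b = 1)
    (h : θ = a ∨ θ * a = 1) : t = a + b := by
  have hθ0 : θ ≠ 0 := fun h0 => by simp [h0] at ht
  refine mul_right_cancel₀ hθ0 ?_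
  rw [ht]
  rcases h with rfl | h
  · linear_combination -hab
  · linear_combination -h + θ * (-θ * hab + b * h)

/-- A number with eigenvalue `θ u`, `θ` being `χ` or its inverse, equals `χ u + χ⁻¹ u`. -/
private theorem eq_character_add_inv {q : ℕ} {χ : DirichletCharacter ℂ q}
    {θ : (ZMod q)ˣ →* ℂ} {t : ℂ} {u : (ZMod q)ˣ} (ht : t * θ u = θ u * θ u + 1)
    (h : θ = unitHomC χ ∨ θ * unitHomC χ = 1) : t = χ (u : ZMod q) + χ⁻¹ (u : ZMod q) := by
  have hχu : χ (u : ZMod q) * χ⁻¹ (u : ZMod q) = 1 := by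
    rw [← MulChar.mul_apply, mul_inv_cancel, MulChar.one_apply_coe]
  refine eq_add_of_mul_eq ht hχu ?_
  rcases h with h | h
  · exact Or.inl (by rw [h, unitHomC_apply])
  · have h' := DFunLike.congr_fun h u
    rw [MonoidHom.mul_apply, unitHomC_apply, MonoidHom.one_apply] at h'
    exact Or.inr h'

/-- An auxiliary level `7` or `9` prime to `q`. -/
private theorem exists_aux_level {q : ℕ} (hq : q.Prime) :
    ∃ L : ℕ, (L = 7 ∨ L = 9) ∧ ¬ q ∣ L := by
  by_cases h : q = 7
  · exact ⟨9, Or.inr rfl, by rw [h]; norm_num⟩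
  · exact ⟨7, Or.inl rfl, fun hd => h ((Nat.prime_dvd_prime_iff_eq hq (by norm_num)).mp hd)⟩

/-- A prime dividing `q ^ 2 * R * p` divides `q * R * p`. -/
private theorem dvd_of_dvd_sq_mul {ℓ q R p : ℕ} (hℓ : ℓ.Prime) (h : ℓ ∣ q ^ 2 * R * p) :
    ℓ ∣ q * R * p := by
  rcases hℓ.dvd_mul.mp h with h | h
  · rcases hℓ.dvd_mul.mp h with h | h
    · exact ((hℓ.dvd_of_dvd_pow h).mul_right R).mul_right p
    · exact (h.mul_left q).mul_right p
  · exact h.mul_left _

/-- The complex matrix of an element of determinant one has determinant one and the trace of the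
element. -/
private theorem det_trace_mapMatrix_matOf {O : Type} [CommRing O] [IsLocalRing O]
    (ρ : GaloisRepAdic O) (b : Module.Basis (Fin 2) O ρ.V) (j : O →+* ℂ) {σ : AbsGal}
    (h : LinearMap.det (ρ.ρ σ) = 1) :
    (j.mapMatrix.toMonoidHom.comp (Deform.matOf ρ b) σ).det = 1 ∧
      (j.mapMatrix.toMonoidHom.comp (Deform.matOf ρ b) σ).trace = j (ρ.trace σ) := by
  refine ⟨?_, ?_⟩
  · show (j.mapMatrix (Deform.matOf ρ b σ)).det = 1
    rw [← RingHom.map_det, show (Deform.matOf ρ b σ).det = LinearMap.det (ρ.ρ σ) from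
      LinearMap.det_toMatrix b _, h, map_one]
  · rw [← show (Deform.matOf ρ b σ).trace = ρ.trace σ from
      (LinearMap.trace_eq_matrix_trace O b (ρ.ρ σ)).symm]
    exact (AddMonoidHom.map_trace j.toAddMonoidHom (Deform.matOf ρ b σ)).symm

/-- **The trace of inertia at a prime of twisted level.** -/
theorem traceInertia (p q R M : ℕ) [Fact p.Prime] [Fact q.Prime] [NeZero R] [NeZero M]
    (g : CuspForm (CongruenceSubgroup.Gamma0 M) 2) : TraceInertia p q R M g := by
  intro hp2 hpq hqR _ _ χ hχ hχp f a hf ha hf0 S hS hrec O _ _ _ _ _ _ hpO j hj ρ habs hfrob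
    A hA hI σ hσ u hu
  classical
  obtain ⟨k, hk⟩ := hχp
  have hq : q.Prime := Fact.out
  have hp : p.Prime := Fact.out
  obtain ⟨hχ2, hpq1⟩ := sq_ne_one_and_dvd hp2 hχ hk
  have := neZero_qsq_mul q R
  -- the auxiliary level
  obtain ⟨L, hL, hqL⟩ := exists_aux_level hq
  have hL0 : L ≠ 0 := by omega
  have : NeZero (q * (R * L)) := ⟨mul_ne_zero hq.ne_zero (mul_ne_zero (NeZero.ne R) hL0)⟩
  have : Fact (q.Coprime (R * L)) := ⟨(hq.coprime_iff_not_dvd).mpr fun h =>
    (hq.dvd_mul.mp h).elim hqR hqL⟩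
  have hRn : R ∣ R * L := dvd_mul_right R L
  have hres : ∀ γ : CongruenceSubgroup.Gamma (q * (R * L)),
      rescale q (R * L) γ ∈ Gamma0 (q ^ 2 * R) := rescale_mem_Gamma0 dvd_rfl hRn
  -- the torsion
  obtain ⟨ιO⟩ := exists_padicHom O hpO
  let ι : ℤ_[p] →+* ℂ := j.comp ιO
  have hι : Function.Injective ι := hj.comp (padicHom_injective ιO)
  let E := torsionIso (q ^ 2 * R) p (conjProperty (q ^ 2 * R))
  have G : TorsionGalois (q ^ 2 * R) p := torsionGalois (q ^ 2 * R) p (eichlerShimuraCongruence _ p)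
  -- the representation
  let b := Module.finBasisOfFinrankEq O ρ.V ρ.finrank_eq
  let R0 : AbsGal →* Matrix (Fin 2) (Fin 2) O := Deform.matOf ρ b
  have htr : ∀ τ, (R0 τ).trace = ρ.trace τ := fun τ =>
    (LinearMap.trace_eq_matrix_trace O b (ρ.ρ τ)).symm
  have hdet : ∀ τ, (R0 τ).det = LinearMap.det (ρ.ρ τ) := fun τ => LinearMap.det_toMatrix b _
  let ρC : AbsGal →* Matrix (Fin 2) (Fin 2) ℂ := j.mapMatrix.toMonoidHom.comp R0
  have hspan : Submodule.span ℂ (Set.range ρC) = ⊤ := span_complex_matOf_eq_top ρ habs b j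
  -- the twist vector and the action on its eigenspace
  have hSN : ∀ ℓ : ℕ, ℓ.Prime → ℓ ∣ q ^ 2 * R * p → ℓ ∈ S := fun ℓ hℓ h =>
    hS ℓ hℓ (dvd_of_dvd_sq_mul hℓ h)
  obtain ⟨ξ, hξV, hξ0⟩ := exists_twist_vector hRn hres hχ hχ2 hf ha hf0 (S : Set ℕ)
    (fun ℓ hℓ h => hS ℓ hℓ (h.mul_right p)) (qCoeff g) hrec
  let r := eigenHom (S := S) (b := qCoeff g) E G ι
  have hquad : ∀ τ, r τ * r τ - (ρC τ).trace • r τ +
      (ρC τ).det • (1 : Module.End ℂ (eigenVecs (q ^ 2 * R) S (qCoeff g))) = 0 := fun τ =>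
    eigenHom_quadratic E G ιO j hj hpO R0 (Deform.isCont_matOf ρ b) hSN
      (fun ℓ hℓ hℓS B hB φ hφ => by
        rw [htr, hdet]
        exact hfrob ℓ hℓ hℓS B hB φ hφ) τ
  let Vr := Module.End ℂ (eigenVecs (q ^ 2 * R) S (qCoeff g))
  obtain ⟨Φ, hΦ⟩ := @exists_algHom_of_quadratic ℂ _ _ AbsGal _ Vr inferInstance inferInstance ρC r
    hquad hspan
  -- the eigenline of inertia
  let : Algebra O ℂ := j.toAlgebra
  obtain ⟨v, θ, hv, heig⟩ := exists_inertia_eigen (K := ℂ) hj hA hq hp hp2 hpq1 hpO R0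
    (fun m => by
      obtain ⟨F, hF, hF'⟩ := Deform.isCont_matOf ρ b m
      exact ⟨F, hF, fun τ hτ a d => hF' τ hτ a d⟩)
    (fun τ hτ => (hdet τ).trans (hI τ hτ).1) (fun τ hτ => htr τ ▸ (hI τ hτ).2)
  replace heig : ∀ τ ∈ A.inertiaSubgroupIn ℚ, ∀ c : (ZMod q)ˣ,
      (∀ μ : QBar, μ ^ q = 1 → τ μ = μ ^ (c : ZMod q).val) → ρC τ *ᵥ v = θ c • v := heig
  have hcase : θ = unitHomC χ ∨ θ * unitHomC χ = 1 := by
    by_contra hne
    rw [not_or] at hne
    obtain ⟨hne, hne'⟩ := hne
    refine hξ0 ?_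
    let ξ' : eigenVecs (q ^ 2 * R) S (qCoeff g) :=
      ⟨ξ, (mem_eigenVecs _ _ _).mpr fun ℓ hℓ hℓS => hξV ℓ hℓ hℓS⟩
    let T : Matrix (Fin 2) (Fin 2) ℂ →+
        (Additive (CongruenceSubgroup.Gamma (q * (R * L))) →+ ℂ) :=
      AddMonoidHom.mk' (fun X => twistTrace hres (unitHomC χ) (Φ X ξ').1) fun X Y => by
        rw [map_add, LinearMap.add_apply, Submodule.coe_add, twistTrace_add]
    have key : ∀ (τ : AbsGal) (φ : Fin 2 → ℂ), T (Matrix.vecMulVec (ρC τ *ᵥ v) φ) = 0 :=
      fun τ φ => by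
      refine twistTrace_eq_zero hRn hres hL (dvd_mul_left L R) hpq
        ι hι (A := τ • A) (liesOverPrime_smul_iff.mpr hA) hne hne' _
        fun σ' hσ' c hc => ?_
      have hmem : τ⁻¹ * σ' * τ ∈ A.inertiaSubgroupIn ℚ := mem_inertia_smul_iff.mp
        (by group; exact hσ' : τ * (τ⁻¹ * σ' * τ) * τ⁻¹ ∈ (τ • A).inertiaSubgroupIn ℚ)
      have hX := mul_vecMulVec_eq_smul (φ := φ)
        (heig _ hmem c fun μ hμ => conj_apply_rootsOfUnity hc hμ)
      calc ((E.gal σ').map ι) *ᵥ (Φ (Matrix.vecMulVec (ρC τ *ᵥ v) φ) ξ').1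
          = ((r σ') (Φ (Matrix.vecMulVec (ρC τ *ᵥ v) φ) ξ')).1 := rfl
        _ = θ c • (Φ (Matrix.vecMulVec (ρC τ *ᵥ v) φ) ξ').1 := by
          rw [← hΦ σ', ← Module.End.mul_apply, ← map_mul Φ, hX, map_smul, LinearMap.smul_apply,
            Submodule.coe_smul]
    have h1 := map_one_eq_zero_of_vecMulVec hspan hv T key
    have e : T 1 = twistTrace hres (unitHomC χ) ξ := by
      show twistTrace hres (unitHomC χ) (Φ 1 ξ').1 = _
      rw [map_one]
      rfl
    exact e ▸ h1
  -- the eigenvalues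
  obtain ⟨hdC, htC⟩ := det_trace_mapMatrix_matOf ρ b j (hI σ hσ).1
  have h2 : j (ρ.trace σ) * θ u = θ u * θ u + 1 :=
    htC ▸ trace_mul_eigenvalue hdC hv (heig σ hσ u hu)
  exact eq_character_add_inv h2 hcase

end Fermat.Agent.RT.InertiaTW
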