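import Fermat.Agent.Carayol.Omega.Galois
import Fermat.Agent.RT.InertiaTW.Scale

/-!
# The field of level `q n` as meromorphic functions

An element of the field of level `n` is a meromorphic function on `ℍ`; substitution becomes
composition, so the functions are invariant under `Γ(n)`.
-/

set_option autoImplicit false

noncomputable section

open UpperHalfPlane hiding I
open CongruenceSubgroup
open Fermat.Agent.ModFun Fermat.Agent.Carayol.Omega
open scoped MatrixGroups

namespace Fermat.Agent.RT.InertiaTW

variable {n : ℕ} [NeZero n] {K : Type*} [Field K] [CharZero K] (E : Setup n K)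

/-- Functions with expansion over `K` are holomorphic. -/
def rToHol : E.R →+* HolH :=
  (Subalgebra.inclusion (CuspAlg_le_HolH n)).toRingHom.comp E.incl

omit [CharZero K] in
theorem rToHol_injective : Function.Injective (rToHol E) := fun _ _ h =>
  Subtype.ext (funext fun τ => congrFun (congrArg Subtype.val h) τ)

theorem actHol_rToHol (γ : SL(2, ℤ)) (f : E.ring) :
    actHol γ (rToHol E f) = rToHol E (E.pull γ f) :=
  Subtype.ext (funext fun τ => (E.ev_pull γ f τ).symm)

theorem merFrac_injective :
    Function.Injective ((algebraMap HolH MerH).comp ((rToHol E).comp E.ring.subtype)) :=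
  (IsFractionRing.injective HolH MerH).comp
    ((rToHol_injective E).comp Subtype.val_injective)

/-- The fraction field as meromorphic functions. -/
def fracMer : FractionRing E.ring →+* MerH :=
  IsFractionRing.lift (merFrac_injective E)

theorem fracMer_div (a b : E.ring) :
    fracMer E (algebraMap _ _ a / algebraMap _ _ b) =
      algebraMap HolH MerH (rToHol E a) / algebraMap HolH MerH (rToHol E b) := by
  rw [map_div₀, fracMer, IsFractionRing.lift_algebraMap, IsFractionRing.lift_algebraMap]
  rfl

variable (k : Type*) [Field k] [Algebra k K]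

/-- Elements of the field as meromorphic functions. -/
def fieldMer : E.field k →+* MerH := (fracMer E).comp (E.toFrac k)

theorem fieldMer_apply (x : E.field k) : fieldMer E k x = fracMer E (E.toFrac k x) := rfl

/-- An element with the expansion of a function is that function. -/
theorem fieldMer_eq {x : E.field k} {g : E.R} (h : E.toSer g = (x : LaurentSeries K)) :
    fieldMer E k x = algebraMap HolH MerH (rToHol E g) := by
  obtain ⟨a, b, hb, hab⟩ := IsFractionRing.div_surjective (A := E.ring) (E.toFrac k x)
  have hb0 : b ≠ 0 := nonZeroDivisors.ne_zero hb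
  have hx := E.fracSer_toFrac k x
  rw [← hab, map_div₀, E.fracSer_algebraMap, E.fracSer_algebraMap,
    div_eq_iff (E.toSer_coe_ne_zero hb0), ← h, ← map_mul] at hx
  rw [fieldMer_apply, ← hab, fracMer_div, E.toSer_injective hx, map_mul, map_mul,
    mul_div_cancel_right₀]
  exact (map_ne_zero_iff _ (IsFractionRing.injective HolH MerH)).mpr
    ((map_ne_zero_iff _ (rToHol_injective E)).mpr fun h0 => hb0 (Subtype.ext h0))

/-- Substitution is composition. -/
theorem fieldMer_subst (γ : SL(2, ℤ)) {x y : E.field k}
    (h : (y : LaurentSeries K) = E.substHom k γ x) :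
    fieldMer E k y = actMer γ (fieldMer E k x) := by
  obtain ⟨a, b, hb, hab⟩ := IsFractionRing.div_surjective (A := E.ring) (E.toFrac k x)
  have hy : E.toFrac k y = algebraMap _ _ (E.pull γ a) / algebraMap _ _ (E.pull γ b) := by
    apply E.fracSer.injective
    rw [E.fracSer_toFrac, h, map_div₀, E.fracSer_algebraMap, E.fracSer_algebraMap]
    show E.fracPull γ (E.toFrac k x) = _
    rw [← hab, map_div₀, E.fracPull_algebraMap, E.fracPull_algebraMap]
  rw [fieldMer_apply, fieldMer_apply, hy, ← hab, fracMer_div, fracMer_div, map_div₀,
    actMer_algebraMap, actMer_algebraMap, actHol_rToHol, actHol_rToHol]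

/-- Functions of level `n` are invariant under `Γ(n)`. -/
theorem actMer_fieldMer {γ : SL(2, ℤ)} (hγ : γ ∈ CongruenceSubgroup.Gamma n) (x : E.field k) :
    actMer γ (fieldMer E k x) = fieldMer E k x := by
  have hred : redMat n γ = redMat n 1 := by
    obtain ⟨h1, h2, h3, h4⟩ := Gamma_mem.mp hγ
    ext i j
    fin_cases i <;> fin_cases j <;> simp [redMat, h1, h2, h3, h4]
  have h1 : ∀ f : E.ring, E.pull γ f = f := fun f => by
    rw [E.pull_congr hred]
    exact E.eq_of_ev fun τ => by rw [E.ev_pull, one_smul]
  refine (fieldMer_subst E k γ (x := x) (y := x) ?_).symm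
  obtain ⟨a, b, -, hab⟩ := IsFractionRing.div_surjective (A := E.ring) (E.toFrac k x)
  show _ = E.fracPull γ (E.toFrac k x)
  rw [← E.fracSer_toFrac k x, ← hab, map_div₀, map_div₀, E.fracSer_algebraMap,
    E.fracSer_algebraMap, E.fracPull_algebraMap, E.fracPull_algebraMap, h1, h1]

theorem fieldMer_algebraMap (c : k) :
    fieldMer E k (algebraMap k (E.field k) c) = algebraMap ℂ MerH (E.ι (algebraMap k K c)) := by
  rw [fieldMer_eq E k (g := E.const (algebraMap k K c)) (by
      rw [E.toSer_const]; exact (algebraMap_laurent_comp c).symm),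
    IsScalarTower.algebraMap_apply ℂ HolH MerH]
  exact congrArg _ (Subtype.ext rfl)

end Fermat.Agent.RT.InertiaTW
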