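import Fermat.Agent.RT.InertiaTW.Mono
import Fermat.Agent.RT.InertiaTW.Scale
import Fermat.Agent.RT.GammaH.Coeff
import Fermat.Agent.Periods.Congruence.Injective

/-!
# Periods of a form on `Γ₁(q R)` at level `q n` and of its twist

Rescaled to `Γ(q n)`, the periods of a form with nebentype at `q` are fixed by the lower
unipotents, eigen for the diagonal, and nonzero; those of its twist are their twist.
-/

set_option autoImplicit false

noncomputable section

open CongruenceSubgroup UpperHalfPlane Matrix.SpecialLinearGroup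
open Fermat.Agent.Periods (IsPrimitive)
open Fermat.Agent.Periods.Congruence (per per_eq)
open Fermat.Agent.ModFun (affine coe_affine)
open scoped MatrixGroups ModularForm

namespace Fermat.Agent.RT.InertiaTW

variable {q n : ℕ} [NeZero q] [NeZero (q * n)] {Γ : Subgroup SL(2, ℤ)} [Γ.FiniteIndex]
  (hΓ : ∀ γ : CongruenceSubgroup.Gamma (q * n), rescale q n γ ∈ Γ) (f : CuspForm Γ 2)

/-- The rescaled periods. -/
def pullPer : Additive (CongruenceSubgroup.Gamma (q * n)) →+ ℂ :=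
  (per f).comp (MonoidHom.toAdditive ((rescale q n).codRestrict Γ hΓ))

omit [Γ.FiniteIndex] in
theorem pullPer_eq {P : ℍ → ℂ} (hP : IsPrimitive ⇑f P) (γ : CongruenceSubgroup.Gamma (q * n))
    (z : ℍ) :
    pullPer hΓ f (Additive.ofMul γ) =
      P (affine 1 0 q ((γ : SL(2, ℤ)) • z)) - P (affine 1 0 q z) := by
  rw [affine_smul (isRescale_rescale γ)]
  exact per_eq hP ⟨rescale q n γ, hΓ γ⟩ _

variable [hcop : Fact (q.Coprime n)]

/-- A rescaled substitution acting on the form by a scalar acts so on the periods. -/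
theorem smul_pullPer {M : ℕ} [NeZero M] (hM : CongruenceSubgroup.Gamma M ≤ Γ) {s : SL(2, ZMod q)}
    {l δ : SL(2, ℤ)} {c : ℂ} (hl : l ∈ CongruenceSubgroup.Gamma n)
    (hls : map (Int.castRingHom (ZMod q)) l = s⁻¹) (hδ : IsRescale q l δ)
    (hc : ⇑f ∣[(2 : ℤ)] δ = c • ⇑f) : s • pullPer hΓ f = c • pullPer hΓ f := by
  obtain ⟨P, hP, -⟩ := Periods.Congruence.exists_primitive hM f
  have h1 : IsPrimitive (c • ⇑f) (fun τ => P (δ • τ)) := hc ▸ hP.comp_SL δ
  have h2 : IsPrimitive (c • ⇑f) (c • P) := hP.const_smul c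
  refine AddMonoidHom.ext fun x => ?_
  obtain ⟨γ, rfl⟩ := Additive.ofMul.surjective x
  rw [smul_eq_conjHomG hl hls, conjHomG_apply, pullPer_eq hΓ f hP _ (l • I),
    AddMonoidHom.smul_apply, pullPer_eq hΓ f hP γ I]
  have := h1.sub_eq h2 (affine 1 0 q ((γ : SL(2, ℤ)) • I)) (affine 1 0 q I)
  simp only [Pi.smul_apply, smul_eq_mul] at this
  show P (affine 1 0 q ((l * γ * l⁻¹ : SL(2, ℤ)) • l • I)) - _ = _
  rw [← mul_smul, inv_mul_cancel_right, mul_smul, affine_smul hδ, affine_smul hδ, smul_eq_mul]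
  linear_combination this

omit hcop in
/-- The rescaled periods are injective. -/
theorem eq_zero_of_pullPer {M : ℕ} [NeZero M] (hM : CongruenceSubgroup.Gamma M ≤ Γ)
    (h : pullPer hΓ f = 0) : f = 0 := by
  refine Periods.Congruence.per_injective hM (AddMonoidHom.ext fun x => ?_)
  obtain ⟨γ, rfl⟩ := Additive.ofMul.surjective x
  have : NeZero (q * (q * n)) := ⟨mul_ne_zero (NeZero.ne q) (NeZero.ne _)⟩
  obtain ⟨k, hk, -, hmem⟩ := Subgroup.exists_pow_mem_of_index_ne_zero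
    (H := CongruenceSubgroup.Gamma (q * (q * n))) Subgroup.FiniteIndex.index_ne_zero (γ : SL(2, ℤ))
  set δ := (γ : SL(2, ℤ)) ^ k with hδ
  obtain ⟨h1, h2, h3, h4⟩ := entry_mem_Gamma hmem
  push_cast at h1 h2 h3 h4
  obtain ⟨b, hb⟩ := h2
  obtain ⟨c, hc⟩ := h3
  have hdet := δ.det_coe
  rw [Matrix.det_fin_two, hb, hc] at hdet
  let ε : SL(2, ℤ) := ⟨!![δ 0 0, (q : ℤ) * ((q : ℤ) * ((q : ℤ) * n) * b);
    (q : ℤ) * n * c, δ 1 1], by rw [Matrix.det_fin_two_of]; linear_combination hdet⟩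
  have hε : ε ∈ CongruenceSubgroup.Gamma (q * n) := by
    refine Gamma_mem.mpr ⟨?_, ?_, ?_, ?_⟩
    · simpa [ε, sub_eq_zero] using (ZMod.intCast_zmod_eq_zero_iff_dvd _ (q * n)).mpr
        ((Dvd.intro_left (q : ℤ) (by push_cast; ring)).trans h1)
    · rw [ZMod.intCast_zmod_eq_zero_iff_dvd]
      exact ⟨(q : ℤ) * q * b, by simp [ε]; ring⟩
    · rw [ZMod.intCast_zmod_eq_zero_iff_dvd]
      exact ⟨c, by simp [ε]⟩
    · simpa [ε, sub_eq_zero] using (ZMod.intCast_zmod_eq_zero_iff_dvd _ (q * n)).mpr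
        ((Dvd.intro_left (q : ℤ) (by push_cast; ring)).trans h4)
  have he : rescale q n ⟨ε, hε⟩ = δ := by
    refine Subtype.ext ?_
    rw [coe_rescale]
    ext i j
    fin_cases i <;> fin_cases j <;>
      simp [ε, hb, hc, Int.mul_ediv_cancel_left _
        (Nat.cast_ne_zero.mpr (NeZero.ne q) : (q : ℤ) ≠ 0)]
    ring
  have h0 := DFunLike.congr_fun h (Additive.ofMul ⟨ε, hε⟩)
  rw [AddMonoidHom.zero_apply] at h0
  have h1 : per f (Additive.ofMul (γ ^ k)) = 0 := by
    rw [← h0]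
    exact congrArg (fun y => per f (Additive.ofMul y)) (Subtype.ext he.symm)
  rw [ofMul_pow, map_nsmul, smul_eq_zero] at h1
  exact h1.resolve_left hk.ne'

/-- The rescaled periods of a sum of translates. -/
theorem pullPer_translate [Fact q.Prime] {M : ℕ} [NeZero M] (hM : CongruenceSubgroup.Gamma M ≤ Γ)
    {Γ' : Subgroup SL(2, ℤ)}
    (hΓ' : ∀ γ : CongruenceSubgroup.Gamma (q * n), rescale q n γ ∈ Γ') (F : CuspForm Γ' 2)
    {ι : Type} [Fintype ι] (w : ι → ℂ) (x : ι → ℤ) (hx : ∀ i, (n : ℤ) ∣ x i)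
    (hF : ⇑F = ∑ i, w i • (⇑f ∣[(2 : ℤ)] GammaH.transl q (x i))) :
    pullPer hΓ' F = ∑ i, w i • (sPlus (-(x i : ZMod q)) • pullPer hΓ f) := by
  obtain ⟨P, hP, -⟩ := Periods.Congruence.exists_primitive hM f
  have hPF : IsPrimitive ⇑F (fun τ => ∑ i, w i * P (GammaH.transl q (x i) • τ)) := by
    intro τ
    rw [hF, Finset.sum_apply]
    exact HasDerivAt.fun_sum (u := Finset.univ) fun i (_ : i ∈ Finset.univ) =>
      (hP.comp_smul (GammaH.det_transl_pos q (x i))).const_smul (w i) τ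
  refine AddMonoidHom.ext fun y => ?_
  obtain ⟨γ, rfl⟩ := Additive.ofMul.surjective y
  rw [pullPer_eq hΓ' F hPF γ I, AddMonoidHom.finsetSum_apply, ← Finset.sum_sub_distrib]
  refine Finset.sum_congr rfl fun i _ => ?_
  obtain ⟨l, hl⟩ : ∃ l : SL(2, ℤ), l = ModularGroup.T ^ (x i) := ⟨_, rfl⟩
  have hl' : (l : Matrix (Fin 2) (Fin 2) ℤ) = !![1, x i; 0, 1] := hl ▸ ModularGroup.coe_T_zpow _
  have hln : l ∈ CongruenceSubgroup.Gamma n := by
    refine Gamma_mem.mpr ?_
    simp [hl', (ZMod.intCast_zmod_eq_zero_iff_dvd _ _).mpr (hx i)]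
  have hls : map (Int.castRingHom (ZMod q)) l = (sPlus (-(x i : ZMod q)))⁻¹ := by
    refine eq_inv_of_mul_eq_one_left (Subtype.ext ?_)
    rw [Matrix.SpecialLinearGroup.coe_mul, Matrix.SpecialLinearGroup.coe_one, coe_sPlus]
    ext a b
    fin_cases a <;> fin_cases b <;>
      simp [Matrix.mul_apply, Fin.sum_univ_two, map_apply_coe, hl']
  have key : ∀ τ : ℍ, GammaH.transl q (x i) • affine 1 0 q τ = affine 1 0 q (l • τ) := fun τ => by
    refine UpperHalfPlane.ext ?_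
    have e : ((l • τ : ℍ) : ℂ) = τ + x i := by
      rw [hl, modular_T_zpow_smul, coe_vadd]; push_cast; ring
    rw [UpperHalfPlane.coe_smul_of_det_pos (GammaH.det_transl_pos q (x i)), coe_affine, coe_affine,
      e]
    simp [num, denom, GammaH.val_transl]
    ring
  rw [AddMonoidHom.smul_apply, smul_eq_conjHomG hln hls, conjHomG_apply,
    pullPer_eq hΓ f hP _ (l • I), key, key]
  show _ = w i • (P (affine 1 0 q ((l * γ * l⁻¹ : SL(2, ℤ)) • l • I)) - _)
  rw [← mul_smul (l * (γ : SL(2, ℤ)) * l⁻¹) l I, inv_mul_cancel_right, mul_smul l (γ : SL(2, ℤ)) I,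
    smul_eq_mul, mul_sub]

end Fermat.Agent.RT.InertiaTW
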